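import Mathlib
import Fermat.Agent.RTLift.Modules.HeckeModule

/-!
Change of the coefficient ring and of the modulus of the character; classes for the trivial
character as homomorphisms; the first degeneracy map is injective in characteristic zero.
-/

set_option autoImplicit false

noncomputable section

namespace FermatAgent.RTLift.Systems

open scoped MatrixGroups
open CongruenceSubgroup FermatAgent.RTLift.Modules

section Change

variable {G : Type*} [Group G] {Λ Λ' : Type*} [CommRing Λ] [CommRing Λ'] [Algebra Λ Λ']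
  {χ : G →* Λ} {χ' : G →* Λ'} (hχ : ∀ g, χ' g = algebraMap Λ Λ' (χ g))
  (A : Type*) [AddCommGroup A] [Module Λ A] [Module Λ' A] [IsScalarTower Λ Λ' A]

/-- Crossed homomorphisms do not depend on the ring over which the character is read. -/
def crossedChange : crossedHoms χ A ≃+ crossedHoms χ' A where
  toFun f := ⟨f, fun x y => by rw [hχ, algebraMap_smul]; exact f.2 x y⟩
  invFun f := ⟨f, fun x y => by rw [← algebraMap_smul Λ', ← hχ]; exact f.2 x y⟩
  left_inv _ := rfl
  right_inv _ := rfl
  map_add' _ _ := rfl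

@[simp] theorem crossedChange_apply (f : crossedHoms χ A) (x : G) :
    (crossedChange hχ A f : G → A) x = (f : G → A) x := rfl

theorem crossedChange_coboundary (a : A) :
    crossedChange hχ A (coboundary χ A a) = coboundary χ' A a :=
  Subtype.ext (funext fun x => by simp [hχ])

/-- Cohomology does not depend on the ring over which the character is read. -/
def h1Change : H1 χ A ≃+ H1 χ' A :=
  QuotientAddGroup.congr (LinearMap.range (coboundary χ A)).toAddSubgroup
    (LinearMap.range (coboundary χ' A)).toAddSubgroup (crossedChange hχ A) (by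
      ext f
      simp only [AddSubgroup.mem_map, Submodule.mem_toAddSubgroup, LinearMap.mem_range]
      constructor
      · rintro ⟨_, ⟨a, rfl⟩, rfl⟩
        exact ⟨a, (crossedChange_coboundary hχ A a).symm⟩
      · rintro ⟨a, rfl⟩
        exact ⟨_, ⟨a, rfl⟩, crossedChange_coboundary hχ A a⟩)

@[simp] theorem h1Change_mk (f : crossedHoms χ A) :
    h1Change hχ A (Submodule.Quotient.mk f) = Submodule.Quotient.mk (crossedChange hχ A f) := rfl

theorem h1Change_smul (c : Λ) (x : H1 χ A) :
    h1Change hχ A (c • x) = algebraMap Λ Λ' c • h1Change hχ A x := by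
  induction x using Submodule.Quotient.induction_on with
  | H f =>
    rw [← Submodule.Quotient.mk_smul, h1Change_mk, h1Change_mk, ← Submodule.Quotient.mk_smul]
    congr 1
    exact Subtype.ext (funext fun x => by simp)

end Change

section Operators

variable {Γ Γ' : Subgroup SL(2, ℤ)} {Λ Λ' : Type*} [CommRing Λ] [CommRing Λ'] [Algebra Λ Λ']
  {χ : Γ →* Λ} {χ' : Γ' →* Λ} {η : Γ →* Λ'} {η' : Γ' →* Λ'}
  (hχ : ∀ g, η g = algebraMap Λ Λ' (χ g)) (hχ' : ∀ g, η' g = algebraMap Λ Λ' (χ' g))
  {A : Type*} [AddCommGroup A] [Module Λ A] [Module Λ' A] [IsScalarTower Λ Λ' A]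
  {ι : Type*} [Fintype ι] (D : CrossCorr χ χ' ι) (D' : CrossCorr η η' ι)

/-- Correspondences with the same representatives and corresponding weights commute with the
change of ring. -/
theorem h1Change_onH1 (hrep : ∀ i, D'.rep i = D.rep i)
    (htarget : ∀ γ i, D'.target γ i = D.target γ i)
    (hweight : ∀ i, D'.weight i = algebraMap Λ Λ' (D.weight i)) (x : H1 χ A) :
    h1Change hχ' A (D.onH1 A x) = D'.onH1 A (h1Change hχ A x) := by
  induction x using Submodule.Quotient.induction_on with
  | H f =>
    rw [CrossCorr.onH1_mk, h1Change_mk, h1Change_mk, CrossCorr.onH1_mk]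
    congr 1
    refine Subtype.ext (funext fun γ => ?_)
    rw [crossedChange_apply, CrossCorr.apply_apply, CrossCorr.apply_apply]
    refine Finset.sum_congr rfl fun i _ => ?_
    have hm : D'.move γ i = D.move γ i :=
      D'.move_eq_of (by rw [hrep, hrep, htarget, D.move_spec])
    rw [hweight, algebraMap_smul, crossedChange_apply, hm]

end Operators

section Level

variable {Λ : Type*} [CommRing Λ] {M M₀ M₁ : ℕ} {Λ' : Type*} [CommRing Λ'] [Algebra Λ Λ']

/-- The upper left entries modulo two moduli. -/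
theorem unitsMap_aUnit (h : M₀ ∣ M) (h₁ : M₁ ∣ M₀) (γ : Gamma0 M) :
    ZMod.unitsMap h₁ (aUnit h γ) = aUnit (h₁.trans h) γ :=
  Units.ext (by simp [ZMod.unitsMap_def])

variable (h : M₀ ∣ M) (h₁ : M₁ ∣ M₀) {θ : (ZMod M₀)ˣ →* Λ'} {θ₁ : (ZMod M₁)ˣ →* Λ}
  (hθ : ∀ a, θ a = algebraMap Λ Λ' (θ₁ (ZMod.unitsMap h₁ a)))
  {A : Type*} [AddCommGroup A] [Module Λ A] [Module Λ' A] [IsScalarTower Λ Λ' A]

include hθ in
theorem levelChar_change (γ : Gamma0 M) :
    levelChar h θ γ = algebraMap Λ Λ' (levelChar (h₁.trans h) θ₁ γ) := by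
  rw [levelChar_apply, levelChar_apply, hθ, unitsMap_aUnit]

variable (A) in
/-- Cohomology with a character read modulo a multiple of its modulus, over an algebra. -/
def levelChange : H1 (levelChar (h₁.trans h) θ₁) A ≃+ H1 (levelChar h θ) A :=
  h1Change (levelChar_change h h₁ hθ) A

theorem levelChange_heckeT {l : ℕ} (hl : l.Prime) (hlM : ¬ l ∣ M)
    (x : H1 (levelChar (h₁.trans h) θ₁) A) :
    levelChange h h₁ hθ A (heckeT (h₁.trans h) θ₁ A hl hlM x) =
      heckeT h θ A hl hlM (levelChange h h₁ hθ A x) := by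
  have : NeZero l := ⟨hl.ne_zero⟩
  refine h1Change_onH1 (levelChar_change h h₁ hθ) (levelChar_change h h₁ hθ)
    (tCross (h₁.trans h) θ₁ hl hlM) (tCross h θ hl hlM) (fun i => rfl) (fun γ i => rfl)
    (fun i => ?_) x
  cases i with
  | none =>
    simp only [tCross, CrossCorr.ofDelta, tEntry, hθ, map_inv]
    congr 3
    exact Units.ext (by simp [ZMod.unitsMap_def])
  | some j => simp [tCross, CrossCorr.ofDelta, tEntry]

theorem levelChange_heckeU {q : ℕ} [NeZero q] (hq : q ∣ M)
    (x : H1 (levelChar (h₁.trans h) θ₁) A) :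
    levelChange h h₁ hθ A (heckeU (h₁.trans h) θ₁ A hq x) =
      heckeU h θ A hq (levelChange h h₁ hθ A x) :=
  h1Change_onH1 (levelChar_change h h₁ hθ) (levelChar_change h h₁ hθ)
    (uCross (h₁.trans h) θ₁ hq) (uCross h θ hq) (fun i => rfl) (fun γ i => rfl)
    (fun i => by simp [uCross, CrossCorr.ofDelta]) x

end Level

section Triv

variable {Λ : Type*} [CommRing Λ] {M M₀ : ℕ} (h : M₀ ∣ M) (A : Type*) [AddCommGroup A]
  [Module Λ A]

theorem coboundary_triv (a : A) :
    coboundary (levelChar h (1 : (ZMod M₀)ˣ →* Λ)) A a = 0 :=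
  Subtype.ext (funext fun x => by simp [levelChar_apply])

/-- A class for the trivial character as a homomorphism. -/
def h1ToHom : H1 (levelChar h (1 : (ZMod M₀)ˣ →* Λ)) A →ₗ[Λ] (Additive (Gamma0 M) →+ A) :=
  Submodule.liftQ _
    { toFun := fun f => AddMonoidHom.mk' (fun γ => (f : Gamma0 M → A) (Additive.toMul γ))
        fun x y => by simp [toMul_add, crossed_mul, levelChar_apply]
      map_add' := fun f g => AddMonoidHom.ext fun _ => rfl
      map_smul' := fun c f => AddMonoidHom.ext fun _ => rfl }
    (by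
      rintro _ ⟨a, rfl⟩
      rw [coboundary_triv]
      exact AddMonoidHom.ext fun _ => rfl)

@[simp] theorem h1ToHom_mk (f : crossedHoms (levelChar h (1 : (ZMod M₀)ˣ →* Λ)) A) (γ : Gamma0 M) :
    h1ToHom h A (Submodule.Quotient.mk f) (Additive.ofMul γ) = (f : Gamma0 M → A) γ := rfl

theorem h1ToHom_injective : Function.Injective (h1ToHom (Λ := Λ) h A) := by
  refine (injective_iff_map_eq_zero _).mpr fun x hx => ?_
  induction x using Submodule.Quotient.induction_on with
  | H f =>
    have : f = 0 := Subtype.ext (funext fun γ => DFunLike.congr_fun hx (Additive.ofMul γ))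
    rw [this, Submodule.Quotient.mk_zero]

theorem h1ToHom_heckeT {l : ℕ} (hl : l.Prime) (hlM : ¬ l ∣ M)
    (x : H1 (levelChar h (1 : (ZMod M₀)ˣ →* Λ)) A) :
    h1ToHom h A (heckeT h 1 A hl hlM x) = Periods.heckeHomT Λ M hl hlM (h1ToHom h A x) := by
  have : NeZero l := ⟨hl.ne_zero⟩
  induction x using Submodule.Quotient.induction_on with
  | H f =>
    refine AddMonoidHom.ext fun γ => ?_
    obtain ⟨γ, rfl⟩ := Additive.ofMul.surjective γ
    rw [heckeT, CrossCorr.onH1_mk, h1ToHom_mk, CrossCorr.apply_apply]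
    exact Finset.sum_congr rfl fun i _ => by simp [tCross, CrossCorr.ofDelta]

end Triv

section Vanish

variable {G : Type*} [Group G] {Λ : Type*} [CommRing Λ] {χ : G →* Λ} {A : Type*} [AddCommGroup A]
  [Module Λ A] [Module ℚ A]

/-- A crossed homomorphism vanishing on a normal subgroup of finite index is a coboundary. -/
theorem mem_range_coboundary_of_vanish (K : Subgroup G) [K.Normal] [K.FiniteIndex]
    (f : crossedHoms χ A) (hf : ∀ k ∈ K, (f : G → A) k = 0) :
    f ∈ LinearMap.range (coboundary χ A) := by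
  classical
  have : Fintype (G ⧸ K) := Fintype.ofFinite _
  let F : G ⧸ K → A := Quotient.lift (f : G → A) fun x y hxy => by
    have hk : x⁻¹ * y ∈ K := QuotientGroup.leftRel_apply.mp hxy
    have h := crossed_mul f x (x⁻¹ * y)
    rw [mul_inv_cancel_left, hf _ hk, smul_zero, add_zero] at h
    exact h.symm
  have hF : ∀ x : G, F (x : G ⧸ K) = (f : G → A) x := fun x => rfl
  set n := Fintype.card (G ⧸ K)
  set S := ∑ x, F x
  have key : ∀ g : G, χ g • S + n • (f : G → A) g = S := fun g => by
    calc χ g • S + n • (f : G → A) g = ∑ x, ((f : G → A) g + χ g • F x) := by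
          rw [Finset.sum_add_distrib, Finset.smul_sum, Finset.sum_const, add_comm]
          rfl
      _ = ∑ x, F ((g : G ⧸ K) * x) := Finset.sum_congr rfl fun x _ => by
          obtain ⟨x, rfl⟩ := QuotientGroup.mk_surjective x
          rw [← QuotientGroup.mk_mul, hF, hF, crossed_mul]
      _ = S := Equiv.sum_comp (Equiv.mulLeft (g : G ⧸ K)) F
  have hn : (n : ℚ) ≠ 0 := Nat.cast_ne_zero.mpr Fintype.card_ne_zero
  refine ⟨-((n : ℚ)⁻¹ • S), Subtype.ext (funext fun g => ?_)⟩
  rw [coboundary_apply]
  have h1 : n • (χ g • -((n : ℚ)⁻¹ • S) - -((n : ℚ)⁻¹ • S)) = n • (f : G → A) g := by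
    have h2 : n • ((n : ℚ)⁻¹ • S) = S := by
      rw [← Nat.cast_smul_eq_nsmul ℚ, smul_smul, mul_inv_cancel₀ hn, one_smul]
    rw [nsmul_sub, smul_comm n (χ g), smul_neg, h2, smul_neg, sub_neg_eq_add, neg_add_eq_sub,
      sub_eq_iff_eq_add, add_comm]
    exact (key g).symm
  have h3 := congrArg (fun z => (n : ℚ)⁻¹ • z) h1
  simp only [← Nat.cast_smul_eq_nsmul ℚ, smul_smul, inv_mul_cancel₀ hn, one_smul] at h3
  exact h3

end Vanish

section DegI

variable {Λ : Type*} [CommRing Λ] {M M' M₀ : ℕ} (h : M₀ ∣ M) (h' : M₀ ∣ M')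
  (θ : (ZMod M₀)ˣ →* Λ) (A : Type*) [AddCommGroup A] [Module Λ A] [Module ℚ A]

/-- The first degeneracy map is injective in characteristic zero. -/
theorem degI_injective [NeZero M'] (hMM : M ∣ M') :
    Function.Injective (degI h h' θ A hMM) := by
  refine (injective_iff_map_eq_zero _).mpr fun x hx => ?_
  induction x using Submodule.Quotient.induction_on with
  | H f =>
    rw [degI, CrossCorr.onH1_mk, Submodule.Quotient.mk_eq_zero] at hx
    obtain ⟨a, ha⟩ := hx
    rw [Submodule.Quotient.mk_eq_zero]
    let K : Subgroup (Gamma0 M) := (Gamma M').subgroupOf (Gamma0 M)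
    have := CongruenceSubgroup.Gamma_normal M'
    have hK : K.Normal := Subgroup.Normal.subgroupOf inferInstance _
    have hKfi : K.FiniteIndex := inferInstance
    have h0 := mem_range_coboundary_of_vanish K (f - coboundary (levelChar h θ) A a) fun k hk => by
      have hk' : (k : SL(2, ℤ)) ∈ Gamma0 M' := by
        have hk1 := Gamma_mem.mp (Subgroup.mem_subgroupOf.mp hk)
        rw [Gamma0_mem]
        exact hk1.2.2.1
      have h1 := congrFun (congrArg Subtype.val ha) ⟨k, hk'⟩
      have hmove : (inclCross h h' θ hMM).move ⟨k, hk'⟩ () = k := rfl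
      rw [CrossCorr.apply_apply, Fintype.sum_unique, coboundary_apply] at h1
      rw [Submodule.coe_sub, Pi.sub_apply, coboundary_apply, sub_eq_zero]
      have hw : (inclCross h h' θ hMM).weight (default : Unit) = 1 := by
        simp [inclCross, CrossCorr.ofDelta]
      rw [hw, one_smul] at h1
      refine h1.symm.trans ?_
      rw [levelChar_apply, levelChar_apply]
      congr 2
    have := add_mem h0 (LinearMap.mem_range_self (coboundary (levelChar h θ) A) a)
    rwa [sub_add_cancel] at this

end DegI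

end FermatAgent.RTLift.Systems
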