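import Mathlib
import Fermat.Agent.RTLift.Modules.HeckeModule

/-!
The twist by a character `κ` modulo `d`: a correspondence from level `M` with character `θ' κ²` to
level `M'` (a multiple of `M d`) with character `θ'`; it multiplies `T_l` by `κ l`.
-/

set_option autoImplicit false

noncomputable section

namespace FermatAgent.RTLift.Systems

open scoped MatrixGroups
open CongruenceSubgroup FermatAgent.RTLift.Modules

/-- `!![d, v; 0, d]`, the translation by `v / d`. -/
def rShift (d : ℕ) (v : ℤ) : Matrix (Fin 2) (Fin 2) ℤ := !![(d : ℤ), v; 0, (d : ℤ)]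

theorem rShift_mul (d : ℕ) (u v : ℤ) : rShift d u * rShift d v = (d : ℤ) • rShift d (u + v) := by
  ext i j
  fin_cases i <;> fin_cases j <;> simp [rShift, Matrix.mul_apply, Fin.sum_univ_two]
  all_goals ring

theorem det_rShift (d : ℕ) (v : ℤ) : (rShift d v).det = (d : ℤ) * d := by simp [rShift]

/-- Conjugation of an element of `Γ₀(M d)` by a translation. -/
theorem exists_rShift_move {M d : ℕ} (γ : SL(2, ℤ)) (u v : ℤ)
    (hc : ((M * d : ℕ) : ℤ) ∣ γ 1 0) (hdM : d ∣ M)
    (hcong : ((u * γ 1 1 - v * γ 0 0 : ℤ) : ZMod d) = 0) :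
    ∃ δ : Gamma0 M, rShift d u * (γ : Matrix (Fin 2) (Fin 2) ℤ) = coeMat δ * rShift d v ∧
      (M : ℤ) ∣ (δ : SL(2, ℤ)) 0 0 - γ 0 0 := by
  obtain ⟨e, he⟩ := hc
  push_cast at he
  obtain ⟨m, hm⟩ : (d : ℤ) ∣ M := Int.natCast_dvd_natCast.mpr hdM
  obtain ⟨k, hk⟩ : (d : ℤ) ∣ u * γ 1 1 - v * γ 0 0 - u * v * ((M : ℤ) * e) :=
    dvd_sub ((ZMod.intCast_zmod_eq_zero_iff_dvd _ _).mp hcong)
      (dvd_mul_of_dvd_right (dvd_mul_of_dvd_left (Dvd.intro m hm.symm) e) _)
  have hdet : γ 0 0 * γ 1 1 - γ 0 1 * γ 1 0 = 1 := by rw [← Matrix.det_fin_two]; exact γ.2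
  refine ⟨⟨⟨!![γ 0 0 + u * ((M : ℤ) * e), γ 0 1 + k; γ 1 0, γ 1 1 - v * ((M : ℤ) * e)], ?_⟩, ?_⟩,
    ?_, ?_⟩
  · rw [Matrix.det_fin_two_of, he]
    linear_combination hdet + (M : ℤ) * e * hk + γ 0 1 * he
  · refine Gamma0_mem.mpr ((ZMod.intCast_zmod_eq_zero_iff_dvd _ _).mpr ⟨d * e, ?_⟩)
    simp [he]
    ring
  · ext i j
    fin_cases i <;> fin_cases j <;> simp [rShift, coeMat, Matrix.mul_apply, Fin.sum_univ_two]
    · rw [he]; ring
    · linear_combination hk
    · rw [he]; ring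
    · rw [he]; ring
  · exact ⟨u * e, by simp; ring⟩

variable {Λ : Type*} [CommRing Λ] {d : ℕ}

/-- A character of units extended by zero. -/
def twChar (κ : (ZMod d)ˣ →* Λ) : MulChar (ZMod d) Λ := MulChar.ofUnitHom κ.toHomUnits

theorem twChar_coe (κ : (ZMod d)ˣ →* Λ) (a : (ZMod d)ˣ) : twChar κ (a : ZMod d) = κ a := by
  simp [twChar, MonoidHom.coe_toHomUnits]

theorem twChar_inv_coe (κ : (ZMod d)ˣ →* Λ) (a : (ZMod d)ˣ) :
    (twChar κ)⁻¹ (a : ZMod d) = κ a⁻¹ := by
  rw [MulChar.inv_apply, Ring.inverse_unit, twChar_coe]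

section Twist

variable {M M' M₀ : ℕ} [NeZero d] (h : M₀ ∣ M) (h' : M₀ ∣ M') (hd : d ∣ M₀) (hM' : M * d ∣ M')
  (κ : (ZMod d)ˣ →* Λ) {θ θ' : (ZMod M₀)ˣ →* Λ}
  (hθ : ∀ a, θ a = θ' a * κ (ZMod.unitsMap hd a) ^ 2)

/-- The permutation of the translations. -/
def twTarget (γ : Gamma0 M') (u : ZMod d) : ZMod d :=
  u * ((aUnit (hd.trans h') γ ^ 2)⁻¹ : (ZMod d)ˣ)

theorem twTarget_spec (γ : Gamma0 M') (u : ZMod d) :
    (((u.val : ℤ) * (γ : SL(2, ℤ)) 1 1 - ((twTarget h' hd γ u).val : ℤ) * (γ : SL(2, ℤ)) 0 0 : ℤ)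
      : ZMod d) = 0 := by
  set a := aUnit (hd.trans h') γ
  have ha : (((γ : SL(2, ℤ)) 0 0 : ℤ) : ZMod d) = a := (val_aUnit _ γ).symm
  have had : (a : ZMod d) * (((γ : SL(2, ℤ)) 1 1 : ℤ) : ZMod d) = 1 := by
    have h10 : (((γ : SL(2, ℤ)) 1 0 : ℤ) : ZMod d) = 0 :=
      (ZMod.intCast_zmod_eq_zero_iff_dvd _ _).mpr ((Int.natCast_dvd_natCast.mpr (hd.trans h')).trans
        ((ZMod.intCast_zmod_eq_zero_iff_dvd _ _).mp (Gamma0_mem.mp γ.2)))
    have hdet : (γ : SL(2, ℤ)) 0 0 * (γ : SL(2, ℤ)) 1 1 -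
        (γ : SL(2, ℤ)) 0 1 * (γ : SL(2, ℤ)) 1 0 = 1 := by
      rw [← Matrix.det_fin_two]; exact (γ : SL(2, ℤ)).2
    have := congrArg (Int.cast : ℤ → ZMod d) hdet
    push_cast at this
    rwa [h10, mul_zero, sub_zero, ha] at this
  push_cast
  rw [ha, twTarget]
  simp only [ZMod.natCast_val, ZMod.cast_id', id]
  refine (a.isUnit.mul_left_cancel ?_)
  rw [mul_zero, mul_sub, mul_left_comm, had, mul_one]
  rw [show (a : ZMod d) * (u * ((a ^ 2)⁻¹ : (ZMod d)ˣ) * a) =
    u * (((a ^ 2)⁻¹ : (ZMod d)ˣ) * (a ^ 2 : (ZMod d)ˣ)) by push_cast; ring, Units.inv_mul, mul_one,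
    sub_self]

/-- The twist. -/
def twistCross : CrossCorr (levelChar h θ) (levelChar h' θ') (ZMod d) where
  rep u := rShift d (u.val : ℤ)
  det_ne u := by
    rw [det_rShift]
    exact mul_ne_zero (Nat.cast_ne_zero.mpr (NeZero.ne d)) (Nat.cast_ne_zero.mpr (NeZero.ne d))
  weight u := (twChar κ)⁻¹ u
  target := twTarget h' hd
  target_one u := by simp [twTarget]
  target_mul γ η u := by
    simp only [twTarget, map_mul, mul_pow, mul_inv, Units.val_mul]
    ring
  move γ u := (exists_rShift_move (γ : SL(2, ℤ)) (u.val : ℤ) ((twTarget h' hd γ u).val : ℤ)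
    ((Int.natCast_dvd_natCast.mpr hM').trans
      ((ZMod.intCast_zmod_eq_zero_iff_dvd _ _).mp (Gamma0_mem.mp γ.2)))
    (hd.trans h) (twTarget_spec h' hd γ u)).choose
  move_spec γ u := (exists_rShift_move (γ : SL(2, ℤ)) (u.val : ℤ) ((twTarget h' hd γ u).val : ℤ)
    ((Int.natCast_dvd_natCast.mpr hM').trans
      ((ZMod.intCast_zmod_eq_zero_iff_dvd _ _).mp (Gamma0_mem.mp γ.2)))
    (hd.trans h) (twTarget_spec h' hd γ u)).choose_spec.1
  weight_move γ u := by
    set δ := (exists_rShift_move (γ : SL(2, ℤ)) (u.val : ℤ) ((twTarget h' hd γ u).val : ℤ)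
      ((Int.natCast_dvd_natCast.mpr hM').trans
        ((ZMod.intCast_zmod_eq_zero_iff_dvd _ _).mp (Gamma0_mem.mp γ.2)))
      (hd.trans h) (twTarget_spec h' hd γ u)) with hδ
    have hunit : aUnit h δ.choose = aUnit h' γ := by
      refine Units.ext ?_
      rw [val_aUnit, val_aUnit, ← sub_eq_zero, ← Int.cast_sub, ZMod.intCast_zmod_eq_zero_iff_dvd]
      exact (Int.natCast_dvd_natCast.mpr h).trans δ.choose_spec.2
    rw [levelChar_apply, levelChar_apply, hunit, hθ, twTarget, map_mul, twChar_inv_coe, inv_inv,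
      unitsMap_aUnit' h' hd, map_pow]
    ring
where
  unitsMap_aUnit' {M M₀ M₁ : ℕ} (h : M₀ ∣ M) (h₁ : M₁ ∣ M₀) (γ : Gamma0 M) :
      ZMod.unitsMap h₁ (aUnit h γ) = aUnit (h₁.trans h) γ :=
    Units.ext (by simp [ZMod.unitsMap_def])

theorem twistCross_rep (u : ZMod d) :
    (twistCross h h' hd hM' κ hθ).rep u = rShift d (u.val : ℤ) := rfl

theorem twistCross_weight (u : ZMod d) :
    (twistCross h h' hd hM' κ hθ).weight u = (twChar κ)⁻¹ u := rfl

variable {A : Type*} [AddCommGroup A] [Module Λ A]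

variable (A) in
/-- The twist on cohomology. -/
def twistH1 : H1 (levelChar h θ) A →ₗ[Λ] H1 (levelChar h' θ') A :=
  (twistCross h h' hd hM' κ hθ).onH1 A

/-- A correspondence with all weights multiplied by a constant. -/
def scaleCorr {Γ Γ' : Subgroup SL(2, ℤ)} {χ : Γ →* Λ} {χ' : Γ' →* Λ} {ι : Type*} (c : Λ)
    (D : CrossCorr χ χ' ι) : CrossCorr χ χ' ι where
  rep := D.rep
  det_ne := D.det_ne
  weight i := c * D.weight i
  target := D.target
  target_one := D.target_one
  target_mul := D.target_mul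
  move := D.move
  move_spec := D.move_spec
  weight_move γ i := by rw [mul_assoc, D.weight_move]; ring

theorem scaleCorr_onH1 {Γ Γ' : Subgroup SL(2, ℤ)} {χ : Γ →* Λ} {χ' : Γ' →* Λ} {ι : Type*}
    [Fintype ι] (c : Λ) (D : CrossCorr χ χ' ι) (x : H1 χ A) :
    (scaleCorr c D).onH1 A x = c • D.onH1 A x := by
  induction x using Submodule.Quotient.induction_on with
  | H f =>
    rw [CrossCorr.onH1_mk, CrossCorr.onH1_mk, ← Submodule.Quotient.mk_smul]
    congr 1
    refine Subtype.ext (funext fun γ => ?_)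
    rw [Submodule.coe_smul, Pi.smul_apply, CrossCorr.apply_apply, CrossCorr.apply_apply,
      Finset.smul_sum]
    exact Finset.sum_congr rfl fun i _ => by rw [smul_smul]; rfl

omit [NeZero d] in
theorem twist_sep_aux {l : ℕ} (hl : l.Prime) (hld : l.Coprime d) [NeZero d] (δ : SL(2, ℤ))
    (i j : Option (ZMod l)) (v w : ZMod d)
    (he : Periods.tRep l i * rShift d (v.val : ℤ) =
      (δ : Matrix (Fin 2) (Fin 2) ℤ) * (Periods.tRep l j * rShift d (w.val : ℤ))) :
    i = j ∧ v = w := by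
  have : NeZero l := ⟨hl.ne_zero⟩
  have hd0 : (d : ℤ) ≠ 0 := Nat.cast_ne_zero.mpr (NeZero.ne d)
  have e00 := congrFun (congrFun he 0) 0
  have e01 := congrFun (congrFun he 0) 1
  have e10 := congrFun (congrFun he 1) 0
  have hdet := δ.2
  rw [Matrix.det_fin_two] at hdet
  set a := δ 0 0
  set b := δ 0 1
  set c := δ 1 0
  set e := δ 1 1
  have hc : c = 0 := by
    cases i <;> cases j <;>
      simp [Periods.tRep, Periods.diagRep, Periods.upperRep, rShift, Matrix.mul_apply,
        Fin.sum_univ_two, hl.ne_zero, NeZero.ne d] at e10 <;> simpa [c] using e10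
  rw [hc, mul_zero, sub_zero] at hdet
  have hv : ∀ x : ZMod d, ((x.val : ℤ) : ZMod d) = x := fun x => by simp
  have hdpos : (0 : ℤ) < d := by exact_mod_cast Nat.pos_of_ne_zero (NeZero.ne d)
  have hlpos : (0 : ℤ) < l := by exact_mod_cast hl.pos
  have hl1 : (l : ℤ) ≠ 1 := by exact_mod_cast hl.ne_one
  have hc' : δ 1 0 = 0 := hc
  have hlu : IsUnit (l : ZMod d) := (ZMod.isUnit_iff_coprime l d).mpr hld
  rcases i with _ | x <;> rcases j with _ | y <;>
    simp [Periods.tRep, Periods.diagRep, Periods.upperRep, rShift, Matrix.mul_apply,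
      Fin.sum_univ_two, -ZMod.natCast_val] at e00 e01 <;>
    rcases Int.eq_one_or_neg_one_of_mul_eq_one hdet with ha | ha <;>
    simp only [show δ 0 0 = a from rfl, ha] at e00 e01
  · refine ⟨rfl, hlu.mul_left_cancel ?_⟩
    have h1 := congrArg (Int.cast : ℤ → ZMod d) e01
    simpa using h1
  · first | omega | nlinarith
  · omega
  · omega
  · exact absurd (mul_right_cancel₀ hd0 (by linear_combination -e00 : (l : ℤ) * d = 1 * d)) hl1
  · first | omega | nlinarith
  · have h1 := congrArg (Int.cast : ℤ → ZMod d) e01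
    have hvw : v = w := by simpa using h1
    refine ⟨?_, hvw⟩
    subst hvw
    have h2 : (x.val : ℤ) = (y.val : ℤ) + δ 0 1 * (l : ℤ) :=
      mul_right_cancel₀ hd0 (by linear_combination e01)
    have h3 := congrArg (Int.cast : ℤ → ZMod l) h2
    simpa using h3
  · nlinarith

/-- **The twist multiplies `T_l` by `κ l`.** -/
theorem twistH1_heckeT {l : ℕ} (hl : l.Prime) (hlM' : ¬ l ∣ M') (hlM : ¬ l ∣ M)
    (hld : l.Coprime d) (x : H1 (levelChar h θ) A) :
    heckeT h' θ' A hl hlM' (twistH1 h h' hd hM' κ hθ A x) =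
      κ (ZMod.unitOfCoprime l hld) • twistH1 h h' hd hM' κ hθ A (heckeT h θ A hl hlM x) := by
  have : NeZero l := ⟨hl.ne_zero⟩
  set L := ZMod.unitOfCoprime l hld
  rw [heckeT, heckeT, twistH1, ← CrossCorr.comp_onH1, ← CrossCorr.comp_onH1, ← scaleCorr_onH1]
  -- the matching of representatives
  have hex : ∀ x : ZMod d × Option (ZMod l), ∃ (y : Option (ZMod l) × ZMod d) (t : ℤ),
      rShift d (x.1.val : ℤ) * Periods.tRep l x.2 =
        !![1, t; 0, 1] * (Periods.tRep l y.1 * rShift d (y.2.val : ℤ)) ∧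
      ((twChar κ)⁻¹ x.1) * θ' (tEntry (coprime_of_prime_not_dvd hl hlM' h') x.2)⁻¹ =
        κ L * (θ (tEntry (coprime_of_prime_not_dvd hl hlM h) y.1)⁻¹ * (twChar κ)⁻¹ y.2) := by
    rintro ⟨u, _ | j⟩
    · set v : ZMod d := u * (L⁻¹ : (ZMod d)ˣ)
      obtain ⟨t, ht⟩ : (d : ℤ) ∣ (u.val : ℤ) - (l : ℤ) * (v.val : ℤ) := by
        rw [← ZMod.intCast_zmod_eq_zero_iff_dvd]
        push_cast
        simp only [ZMod.natCast_val, ZMod.cast_id', id, v]
        rw [show (l : ZMod d) * (u * ((L⁻¹ : (ZMod d)ˣ) : ZMod d)) =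
          u * ((L : ZMod d) * ((L⁻¹ : (ZMod d)ˣ) : ZMod d)) by simp [L]; ring, Units.mul_inv,
          mul_one, sub_self]
      refine ⟨(none, v), t, ?_, ?_⟩
      · ext i j
        fin_cases i <;> fin_cases j <;>
          simp [Periods.tRep, Periods.diagRep, rShift, Matrix.mul_apply, Fin.sum_univ_two,
            -ZMod.natCast_val]
        · ring
        · linear_combination ht
      · have hL : ZMod.unitsMap hd (tEntry (coprime_of_prime_not_dvd hl hlM h) none) = L :=
          Units.ext (by simp [tEntry, ZMod.unitsMap_def, L])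
        simp only [v, map_mul, twChar_inv_coe, inv_inv, hθ, map_inv, hL]
        rw [show κ L * (θ' _ * κ L⁻¹ ^ 2 * ((twChar κ)⁻¹ u * κ L)) =
          (twChar κ)⁻¹ u * θ' (tEntry (coprime_of_prime_not_dvd hl hlM h) none)⁻¹ *
            ((κ L * κ L⁻¹) * (κ L * κ L⁻¹)) by ring, ← map_mul, mul_inv_cancel, map_one, mul_one,
          mul_one]
    · set v : ZMod d := u * (L : ZMod d)
      obtain ⟨k, hk⟩ : (d : ℤ) ∣ (u.val : ℤ) * (l : ℤ) - (v.val : ℤ) := by
        rw [← ZMod.intCast_zmod_eq_zero_iff_dvd]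
        push_cast
        simp [v, L]
      set j' : ZMod l := (((j.val : ℤ) + k : ℤ) : ZMod l)
      obtain ⟨t, ht⟩ : (l : ℤ) ∣ (j.val : ℤ) + k - (j'.val : ℤ) := by
        rw [← ZMod.intCast_zmod_eq_zero_iff_dvd]
        push_cast
        simp [j']
      refine ⟨(some j', v), t, ?_, ?_⟩
      · ext i j
        fin_cases i <;> fin_cases j <;>
          simp [Periods.tRep, Periods.upperRep, rShift, Matrix.mul_apply, Fin.sum_univ_two,
            -ZMod.natCast_val]
        · linear_combination hk + (d : ℤ) * ht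
        · ring
      · simp only [v, tEntry, inv_one, map_one, mul_one, one_mul, map_mul, twChar_inv_coe]
        rw [mul_left_comm, ← map_mul, mul_inv_cancel, map_one, mul_one]
  choose e t hrep hwt using hex
  set D' := CrossCorr.comp (tCross h' θ' hl hlM') (twistCross h h' hd hM' κ hθ)
  set D := scaleCorr (κ L) (CrossCorr.comp (twistCross h h' hd hM' κ hθ) (tCross h θ hl hlM))
  have hsep : D.Sep := fun δ i j he => by
    obtain ⟨e1, e2⟩ := twist_sep_aux hl hld (δ : SL(2, ℤ)) i.1 j.1 i.2 j.2 he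
    exact Prod.ext e1 e2
  have hu : ∀ x, coeMat (Periods.shiftGamma0 M (t x)) = !![1, t x; 0, 1] := fun x => by
    simp [coeMat, Periods.shiftGamma0]
  have hrep' : ∀ x, D'.rep x = coeMat (Periods.shiftGamma0 M (t x)) * D.rep (e x) := fun x => by
    rw [hu]; exact hrep x
  have hinj : Function.Injective e := by
    intro x y hxy
    have h1 : D'.rep x =
        coeMat (Periods.shiftGamma0 M' (t x - t y)) * D'.rep y := by
      rw [hrep', hrep', hxy, ← mul_assoc, hu, hu,
        show coeMat (Periods.shiftGamma0 M' (t x - t y)) = !![1, t x - t y; 0, 1] by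
          simp [coeMat, Periods.shiftGamma0]]
      congr 1
      simp
    obtain ⟨u, i⟩ := x
    obtain ⟨w, j⟩ := y
    have h00 := congrFun (congrFun h1 0) 0
    have h01 := congrFun (congrFun h1 0) 1
    cases i <;> cases j <;>
      simp [D', CrossCorr.comp, tCross, CrossCorr.ofDelta, twistCross_rep, rShift, Periods.tRep,
        Periods.diagRep, Periods.upperRep, coeMat, Periods.shiftGamma0, Matrix.mul_apply,
        Fin.sum_univ_two, hl.ne_one, NeZero.ne d, -ZMod.natCast_val] at h00 h01 ⊢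
    · have h2 := congrArg (Int.cast : ℤ → ZMod d) h01
      simpa using h2
    · rename_i a b
      have h2 := congrArg (Int.cast : ℤ → ZMod d) h01
      push_cast at h2
      simp only [ZMod.natCast_self, mul_zero, zero_mul, add_zero, zero_add, ZMod.natCast_val,
        ZMod.cast_id', id] at h2
      have hlu : IsUnit (l : ZMod d) := (ZMod.isUnit_iff_coprime l d).mpr hld
      have huw : u = w := hlu.mul_right_cancel h2
      refine ⟨huw, ?_⟩
      subst huw
      have h3 : (a.val : ℤ) = (b.val : ℤ) + (t (u, some a) - t (u, some b)) * l := by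
        refine mul_left_cancel₀ (Nat.cast_ne_zero.mpr (NeZero.ne d) : (d : ℤ) ≠ 0) ?_
        linear_combination h01
      have h4 := congrArg (Int.cast : ℤ → ZMod l) h3
      simpa using h4
  have hcard : Fintype.card (ZMod d × Option (ZMod l)) = Fintype.card (Option (ZMod l) × ZMod d) := by
    simp [mul_comm]
  refine LinearMap.congr_fun (D.onH1_eq D'
    (Equiv.ofBijective e ((Fintype.bijective_iff_injective_and_card e).mpr ⟨hinj, hcard⟩))
    (fun x => Periods.shiftGamma0 M (t x)) hrep' (fun x => ?_)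
    (D.target_compat hsep D' e _ hrep')) x
  have hone : levelChar h θ (Periods.shiftGamma0 M (t x)) = 1 := by
    rw [levelChar_apply, show aUnit h (Periods.shiftGamma0 M (t x)) = 1 from
      Units.ext (by simp [Periods.shiftGamma0]), map_one]
  rw [hone, mul_one]
  exact hwt x

end Twist

end FermatAgent.RTLift.Systems
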