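import Mathlib
import Fermat.Agent.RTLift.Systems.Twist
import Fermat.Agent.RTLift.Systems.Change

/-!
The twist by a character with nontrivial square at a prime exactly dividing the level is injective
on cohomology in characteristic zero.
-/

set_option autoImplicit false

noncomputable section

namespace FermatAgent.RTLift.Systems

open scoped MatrixGroups
open CongruenceSubgroup FermatAgent.RTLift.Modules

theorem intCast_eq_one_of_dvd {L : ℕ} {z : ℤ} (h : (L : ℤ) ∣ z - 1) : (z : ZMod L) = 1 := by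
  rw [← sub_eq_zero, ← Int.cast_one, ← Int.cast_sub, ZMod.intCast_zmod_eq_zero_iff_dvd]
  exact h

/-- Translations conjugate deep congruence subgroups into congruence subgroups. -/
theorem exists_rShift_conj {L q : ℕ} (v : ℤ) {x : SL(2, ℤ)} (hx : x ∈ Gamma (L * q ^ 2)) :
    ∃ y ∈ Gamma L, rShift q v * (x : Matrix (Fin 2) (Fin 2) ℤ) =
      (y : Matrix (Fin 2) (Fin 2) ℤ) * rShift q v := by
  obtain ⟨h00, h01, h10, h11⟩ := Gamma_mem.mp hx
  have key : ∀ (z w : ℤ), (z : ZMod (L * q ^ 2)) = (w : ZMod (L * q ^ 2)) →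
      ∃ e : ℤ, z - w = (L : ℤ) * q ^ 2 * e := fun z w h => by
    obtain ⟨e, he⟩ := (ZMod.intCast_eq_intCast_iff_dvd_sub _ _ _).mp h.symm
    exact ⟨e, by rw [he]; push_cast; ring⟩
  obtain ⟨a, ha⟩ := key (x 0 0) 1 (by simpa using h00)
  obtain ⟨b, hb⟩ := key (x 0 1) 0 (by simpa using h01)
  obtain ⟨c, hc⟩ := key (x 1 0) 0 (by simpa using h10)
  obtain ⟨d, hd⟩ := key (x 1 1) 1 (by simpa using h11)
  rw [sub_zero] at hb hc
  have hdet : x 0 0 * x 1 1 - x 0 1 * x 1 0 = 1 := by rw [← Matrix.det_fin_two]; exact x.2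
  refine ⟨⟨!![x 0 0 + v * L * q * c, x 0 1 + v * L * q * (d - a) - v ^ 2 * L * c;
    x 1 0, x 1 1 - v * L * q * c], ?_⟩, Gamma_mem.mpr ⟨?_, ?_, ?_, ?_⟩, ?_⟩
  · rw [Matrix.det_fin_two_of]
    linear_combination hdet - v * L * q * c * (ha - hd) +
      (v ^ 2 * L * c - v * L * q * (d - a)) * hc
  · refine intCast_eq_one_of_dvd ⟨q ^ 2 * a + v * q * c, ?_⟩
    simp
    linear_combination ha
  · simp only [Matrix.cons_val', Matrix.cons_val_zero,
      Matrix.cons_val_one, Matrix.cons_val_fin_one, Matrix.of_apply]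
    rw [ZMod.intCast_zmod_eq_zero_iff_dvd]
    exact ⟨q ^ 2 * b + v * q * (d - a) - v ^ 2 * c, by linear_combination hb⟩
  · simp only [Matrix.cons_val', Matrix.cons_val_zero,
      Matrix.cons_val_one, Matrix.cons_val_fin_one, Matrix.of_apply]
    rw [ZMod.intCast_zmod_eq_zero_iff_dvd]
    exact ⟨q ^ 2 * c, by linear_combination hc⟩
  · refine intCast_eq_one_of_dvd ⟨q ^ 2 * d - v * q * c, ?_⟩
    simp
    linear_combination hd
  · ext i j
    fin_cases i <;> fin_cases j <;>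
      simp [rShift, Matrix.mul_apply, Fin.sum_univ_two]
    · rw [hc]; ring
    · linear_combination v * (hd - ha)
    · ring
    · rw [hc]; ring

section Algebra

variable {q : ℕ} [Fact q.Prime] {Λ : Type*} [CommRing Λ] [IsDomain Λ] (κ : (ZMod q)ˣ →* Λ)

/-- The correlation of a nontrivial character with itself. -/
theorem sum_twChar_correlation (hκ : ∃ a, κ a ≠ 1) (w : ZMod q) :
    ∑ u, twChar κ (w - u) * (twChar κ)⁻¹ u =
      twChar κ (-1) * ((if w = 0 then (q : Λ) else 0) - 1) := by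
  classical
  set χ := twChar κ
  have hne : χ ≠ 1 := fun h => by
    obtain ⟨a, ha⟩ := hκ
    refine ha ?_
    rw [← twChar_coe κ a, show twChar κ = χ from rfl, h, MulChar.one_apply a.isUnit]
  have hterm : ∀ u ∈ Finset.univ.erase (0 : ZMod q),
      χ (w - u) * χ⁻¹ u = χ (w * u⁻¹ - 1) := fun u hu => by
    have hu0 : u ≠ 0 := Finset.ne_of_mem_erase hu
    rw [MulChar.inv_apply', ← map_mul, sub_mul, mul_inv_cancel₀ hu0]
  have h0 : χ (w - 0) * χ⁻¹ 0 = 0 := by rw [MulChar.map_zero, mul_zero]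
  rw [← Finset.add_sum_erase _ _ (Finset.mem_univ (0 : ZMod q)), h0, zero_add,
    Finset.sum_congr rfl hterm]
  rcases eq_or_ne w 0 with rfl | hw
  · simp only [zero_mul, zero_sub, Finset.sum_const, if_pos, Finset.card_erase_of_mem
      (Finset.mem_univ (0 : ZMod q)), Finset.card_univ, ZMod.card, nsmul_eq_mul]
    rw [Nat.cast_sub (Nat.Prime.one_le Fact.out), Nat.cast_one, mul_comm]
  · rw [if_neg hw, zero_sub, mul_neg, mul_one]
    have hbij : ∑ u ∈ Finset.univ.erase (0 : ZMod q), χ (w * u⁻¹ - 1) =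
        ∑ s ∈ Finset.univ.erase (-1 : ZMod q), χ s := by
      refine Finset.sum_bij' (fun u _ => w * u⁻¹ - 1) (fun s _ => w * (s + 1)⁻¹)
        (fun u hu => ?_) (fun s hs => ?_) (fun u hu => ?_) (fun s hs => ?_) (fun u hu => rfl)
      · refine Finset.mem_erase.mpr ⟨fun h => ?_, Finset.mem_univ _⟩
        have : w * u⁻¹ = 0 := by linear_combination h
        exact (mul_ne_zero hw (inv_ne_zero (Finset.ne_of_mem_erase hu))) this
      · refine Finset.mem_erase.mpr ⟨mul_ne_zero hw (inv_ne_zero fun h => ?_), Finset.mem_univ _⟩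
        exact Finset.ne_of_mem_erase hs (eq_neg_of_add_eq_zero_left h)
      · have hu0 : u ≠ 0 := Finset.ne_of_mem_erase hu
        simp only [sub_add_cancel]
        field_simp
      · have hs1 : s + 1 ≠ 0 := fun h =>
          Finset.ne_of_mem_erase hs (eq_neg_of_add_eq_zero_left h)
        field_simp
        ring
    rw [hbij, ← sub_eq_zero, sub_neg_eq_add, Finset.sum_erase_add _ _ (Finset.mem_univ _)]
    exact MulChar.sum_eq_zero_of_ne_one hne

variable {A : Type*} [AddCommGroup A] [Module Λ A] [Module ℚ A]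

/-- A function orthogonal to all translates of a nontrivial character is constant. -/
theorem eq_of_sum_translates_eq_zero (hκ : ∃ a, κ a ≠ 1) (G : ZMod q → A)
    (hG : ∀ v, ∑ u, (twChar κ)⁻¹ u • G (u + v) = 0) (s t : ZMod q) : G s = G t := by
  classical
  have key : ∀ s, q • G s = ∑ w, G w := fun s => by
    have h1 : ∑ v, twChar κ v • ∑ u, (twChar κ)⁻¹ u • G (u + v + s) = 0 := by
      simp [add_assoc, hG]
    simp only [Finset.smul_sum, smul_smul] at h1
    rw [Finset.sum_comm] at h1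
    have h2 : ∀ u, ∑ v, (twChar κ v * (twChar κ)⁻¹ u) • G (u + v + s) =
        ∑ w, (twChar κ (w - u) * (twChar κ)⁻¹ u) • G (w + s) := fun u => by
      refine Fintype.sum_equiv (Equiv.addLeft u) _ _ fun v => ?_
      simp [Equiv.coe_addLeft]
    rw [Finset.sum_congr rfl fun u _ => h2 u, Finset.sum_comm] at h1
    simp only [← Finset.sum_smul, sum_twChar_correlation κ hκ] at h1
    simp only [mul_smul, sub_smul, one_smul,
      ite_smul, zero_smul, ← Finset.smul_sum, Finset.sum_sub_distrib, Finset.sum_ite_eq',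
      Finset.mem_univ, if_true, zero_add] at h1
    have hu : IsUnit (twChar κ (-1 : ZMod q)) := by
      refine IsUnit.of_mul_eq_one (twChar κ (-1 : ZMod q)) ?_
      rw [← map_mul, neg_one_mul, neg_neg, map_one]
    rw [hu.smul_eq_zero, sub_eq_zero, Nat.cast_smul_eq_nsmul] at h1
    rw [h1]
    exact Equiv.sum_comp (Equiv.addRight s) G
  have h := (key s).trans (key t).symm
  rw [← Nat.cast_smul_eq_nsmul ℚ, ← Nat.cast_smul_eq_nsmul ℚ (b := G t)] at h
  exact smul_right_injective A (Nat.cast_ne_zero.mpr (Nat.Prime.ne_zero Fact.out)) h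

end Algebra

section Conj

variable {M M₀ : ℕ} {Λ : Type*} [CommRing Λ] {χ : Gamma0 M →* Λ} {A : Type*} [AddCommGroup A]
  [Module Λ A]

theorem crossed_conj (f : crossedHoms χ A) (g x : Gamma0 M) (hx : χ x = 1) :
    (f : Gamma0 M → A) (g * x * g⁻¹) = χ g • (f : Gamma0 M → A) x := by
  rw [crossed_mul, crossed_mul, crossed_inv, map_mul, hx, mul_one, smul_neg, smul_smul, ← map_mul,
    mul_inv_cancel, map_one, one_smul]
  abel

/-- A crossed homomorphism extended by zero. -/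
def crossedExt (f : crossedHoms χ A) (x : SL(2, ℤ)) : A :=
  open Classical in if h : x ∈ Gamma0 M then (f : Gamma0 M → A) ⟨x, h⟩ else 0

theorem crossedExt_coe (f : crossedHoms χ A) (x : Gamma0 M) :
    crossedExt f (x : SL(2, ℤ)) = (f : Gamma0 M → A) x := by
  simp [crossedExt, x.2]

theorem gamma_le_gamma0 {L : ℕ} (hL : M ∣ L) : Gamma L ≤ Gamma0 M := fun x hx => by
  have h := (ZMod.intCast_zmod_eq_zero_iff_dvd _ _).mp (Gamma_mem.mp hx).2.2.1
  rw [Gamma0_mem, ZMod.intCast_zmod_eq_zero_iff_dvd]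
  exact (Int.natCast_dvd_natCast.mpr hL).trans h

theorem aUnit_eq_one_of_mem_gamma (h : M₀ ∣ M) {L : ℕ} (hL : M₀ ∣ L) (x : Gamma0 M)
    (hx : (x : SL(2, ℤ)) ∈ Gamma L) : aUnit h x = 1 := by
  refine Units.ext ?_
  rw [val_aUnit, Units.val_one]
  have h00 := (Gamma_mem.mp hx).1
  refine intCast_eq_one_of_dvd ((Int.natCast_dvd_natCast.mpr hL).trans ?_)
  rw [← ZMod.intCast_zmod_eq_zero_iff_dvd, Int.cast_sub, h00, Int.cast_one, sub_self]

end Conj

section Primitive

variable {q : ℕ} [Fact q.Prime] {Λ : Type*} [CommRing Λ] [IsDomain Λ] {M₁ M M' M₀ : ℕ} [NeZero M']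
  (h : M₀ ∣ M) (h' : M₀ ∣ M') (hd : q ∣ M₀) (hM : M = M₁ * q) (hM₁ : ¬ q ∣ M₁)
  (hM' : M * q ∣ M') (κ : (ZMod q)ˣ →* Λ) {θ θ' : (ZMod M₀)ˣ →* Λ}
  (hθ : ∀ a, θ a = θ' a * κ (ZMod.unitsMap hd a) ^ 2)
  (hθ' : ∀ g : Gamma0 M, (M₁ : ℤ) ∣ (g : SL(2, ℤ)) 0 0 - 1 → θ' (aUnit h g) = 1)
  (hκ : ∃ a, κ a ^ 2 ≠ 1)
  (A : Type*) [AddCommGroup A] [Module Λ A] [Module ℚ A] [Module.IsTorsionFree Λ A]

include hM hM₁ hθ' hκ in
/-- **The twist at a prime where the character is primitive is injective.** -/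
theorem twistH1_injective : Function.Injective (twistH1 h h' hd hM' κ hθ A) := by
  classical
  have : NeZero q := ⟨Nat.Prime.ne_zero Fact.out⟩
  have hκ1 : ∃ a, κ a ≠ 1 := hκ.imp fun a ha h1 => ha (by rw [h1, one_pow])
  have hM'0 : M' ≠ 0 := NeZero.ne M'
  have hMne : M ≠ 0 := fun h0 => hM'0 (by simpa [h0] using hM')
  have hdM : M₀ ∣ M * q ^ 3 := h.trans (dvd_mul_right _ _)
  refine (injective_iff_map_eq_zero _).mpr fun z hz => ?_
  induction z using Submodule.Quotient.induction_on with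
  | H f =>
    rw [twistH1, CrossCorr.onH1_mk, Submodule.Quotient.mk_eq_zero] at hz
    obtain ⟨c, hc⟩ := hz
    rw [Submodule.Quotient.mk_eq_zero]
    set F := crossedExt f
    -- moves of deep elements
    have hconjF : ∀ (g : Gamma0 M) (y : SL(2, ℤ)), y ∈ Gamma (M * q) →
        F ((g : SL(2, ℤ)) * y * (g : SL(2, ℤ))⁻¹) = levelChar h θ g • F y := by
      intro g y hy
      have hy0 : y ∈ Gamma0 M := gamma_le_gamma0 (dvd_mul_right M q) hy
      have h1 := crossed_conj f g ⟨y, hy0⟩ (by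
        rw [levelChar_apply, aUnit_eq_one_of_mem_gamma h (h.trans (dvd_mul_right M q)) ⟨y, hy0⟩ hy,
          map_one])
      rw [← crossedExt_coe, ← crossedExt_coe] at h1
      exact h1
    -- the relation
    have hrel : ∀ x ∈ Gamma (M' * q ^ 2), ∀ y : ZMod q → SL(2, ℤ),
        (∀ u : ZMod q, rShift q (u.val : ℤ) * (x : Matrix (Fin 2) (Fin 2) ℤ) =
          (y u : Matrix (Fin 2) (Fin 2) ℤ) * rShift q (u.val : ℤ)) →
        ∑ u, (twChar κ)⁻¹ u • F (y u) = 0 := by
      intro x hx y hy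
      have hx0 : x ∈ Gamma0 M' := gamma_le_gamma0 (dvd_mul_right M' _) hx
      have hone : aUnit h' ⟨x, hx0⟩ = 1 :=
        aUnit_eq_one_of_mem_gamma h' (h'.trans (dvd_mul_right _ _)) ⟨x, hx0⟩ hx
      have h1 := congrFun (congrArg Subtype.val hc) ⟨x, hx0⟩
      rw [coboundary_apply, levelChar_apply, hone, map_one, one_smul, sub_self,
        CrossCorr.apply_apply] at h1
      refine (Finset.sum_congr rfl fun u _ => ?_).trans h1.symm
      have htu : twTarget h' hd ⟨x, hx0⟩ u = u := by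
        rw [twTarget, aUnit_eq_one_of_mem_gamma (hd.trans h')
          ((hd.trans h').trans (dvd_mul_right _ _)) ⟨x, hx0⟩ hx]
        simp
      have hmv : (((twistCross h h' hd hM' κ hθ).move ⟨x, hx0⟩ u : Gamma0 M) : SL(2, ℤ)) = y u := by
        have h2 := (twistCross h h' hd hM' κ hθ).move_spec ⟨x, hx0⟩ u
        rw [show (twistCross h h' hd hM' κ hθ).target ⟨x, hx0⟩ u = u from htu] at h2
        refine Subtype.ext (Periods.matrix_mul_right_cancel ?_ (h2.symm.trans (hy u)))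
        exact (twistCross h h' hd hM' κ hθ).det_ne u
      rw [twistCross_weight, ← hmv]
      simp only [F, crossedExt_coe]
    have hdvd : ∀ {L L' : ℕ}, L ∣ L' → Gamma L' ≤ Gamma L := fun {L L'} hLL g hg => by
      obtain ⟨a, b, c, d⟩ := Gamma_mem.mp hg
      refine Gamma_mem.mpr ⟨?_, ?_, ?_, ?_⟩
      · simpa only [map_intCast, map_one] using congrArg (ZMod.castHom hLL (ZMod L)) a
      · simpa using congrArg (ZMod.castHom hLL (ZMod L)) b
      · simpa using congrArg (ZMod.castHom hLL (ZMod L)) c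
      · simpa only [map_intCast, map_one] using congrArg (ZMod.castHom hLL (ZMod L)) d
    -- translations by `1 / q` fix the values deep down
    have hq2 : q ^ 2 ≠ 0 := pow_ne_zero _ (NeZero.ne q)
    have hinv : ∀ x ∈ Gamma (M' * q ^ 4), ∀ (v : ℤ) (y : SL(2, ℤ)),
        rShift q v * (x : Matrix (Fin 2) (Fin 2) ℤ) =
          (y : Matrix (Fin 2) (Fin 2) ℤ) * rShift q v → F y = F x := by
      intro x hx v y hy
      have hx' : x ∈ Gamma (M' * q ^ 2 * q ^ 2) := by
        rwa [mul_assoc, ← pow_add]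
      choose Y hYmem hY using fun w : ℤ => exists_rShift_conj w hx'
      have hYM : ∀ w, Y w ∈ Gamma (M * q) := fun w =>
        hdvd (hM'.trans (dvd_mul_right _ _)) (hYmem w)
      have hqd : ((q : ℤ) * q) ≠ 0 := mul_ne_zero (Nat.cast_ne_zero.mpr (NeZero.ne q))
        (Nat.cast_ne_zero.mpr (NeZero.ne q))
      have hper : ∀ (w k : ℤ), F (Y (w + q * k)) = F (Y w) := fun w k => by
        let T : Gamma0 M := Periods.shiftGamma0 M k
        have hT : rShift q (w + q * k) = coeMat T * rShift q w := by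
          ext i j
          fin_cases i <;> fin_cases j <;>
            simp [T, coeMat, Periods.shiftGamma0, rShift, Matrix.mul_apply, Fin.sum_univ_two]
          ring
        have h1 : Y (w + q * k) = (T : SL(2, ℤ)) * Y w * (T : SL(2, ℤ))⁻¹ := by
          rw [eq_mul_inv_iff_mul_eq]
          refine Subtype.ext (Periods.matrix_mul_right_cancel (C := rShift q w)
            (by rw [det_rShift]; exact hqd) ?_)
          simp only [coeMat] at hT
          simp only [Matrix.SpecialLinearGroup.coe_mul]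
          exact (mul_assoc _ _ _).trans ((congrArg _ hT.symm).trans ((hY _).symm.trans
            ((congrArg (· * _) hT).trans ((mul_assoc _ _ _).trans
              ((congrArg _ (hY w)).trans (mul_assoc _ _ _).symm)))))
        rw [h1, hconjF T (Y w) (hYM w), levelChar_apply,
          show aUnit h T = 1 from Units.ext (by simp [T, Periods.shiftGamma0]), map_one, one_smul]
      let G : ZMod q → A := fun w => F (Y (w.val : ℤ))
      have hGF : ∀ w : ℤ, F (Y w) = G (w : ZMod q) := fun w => by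
        obtain ⟨k, hk⟩ : (q : ℤ) ∣ w - ((w : ZMod q).val : ℤ) := by
          rw [← ZMod.intCast_zmod_eq_zero_iff_dvd]
          push_cast
          simp
        conv_lhs => rw [show w = ((w : ZMod q).val : ℤ) + q * k by linear_combination hk]
        exact hper _ k
      have hG : ∀ s, ∑ u, (twChar κ)⁻¹ u • G (u + s) = 0 := fun s => by
        refine Eq.trans (Finset.sum_congr rfl fun u _ => ?_)
          (hrel (Y (s.val : ℤ)) (hYmem _) (fun u => Y ((u.val : ℤ) + (s.val : ℤ))) fun u => ?_)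
        · rw [hGF]
          congr 2
          push_cast
          simp
        · refine Periods.matrix_mul_right_cancel (C := rShift q (s.val : ℤ))
            (by rw [det_rShift]; exact hqd) ?_
          rw [mul_assoc, ← hY, ← mul_assoc, rShift_mul, smul_mul_assoc, hY, mul_assoc,
            rShift_mul, mul_smul_comm]
      have hx0 : Y 0 = x := by
        refine Subtype.ext (Periods.matrix_mul_right_cancel (C := rShift q 0)
          (by rw [det_rShift]; exact hqd) ?_)
        rw [← hY 0]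
        ext i j
        fin_cases i <;> fin_cases j <;> simp [rShift, Matrix.mul_apply, Fin.sum_univ_two, mul_comm]
      have hyv : y = Y v := Subtype.ext (Periods.matrix_mul_right_cancel (C := rShift q v)
        (by rw [det_rShift]; exact hqd) (hy.symm.trans (hY v)))
      rw [hyv, hGF, ← hx0, hGF]
      exact eq_of_sum_translates_eq_zero κ hκ1 G hG _ _
    -- an element of `Γ₀(M)` with `θ ≠ 1` obtained from translations
    obtain ⟨a, ha⟩ := hκ
    have hM₁u : IsUnit (M₁ : ZMod q) := by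
      rw [isUnit_iff_ne_zero, ne_eq, ZMod.natCast_eq_zero_iff]
      exact hM₁
    set k : ℤ := ((((a : ZMod q) - 1) * ((hM₁u.unit⁻¹ : (ZMod q)ˣ) : ZMod q)).val : ℤ)
    have hk : ((1 + M₁ * k : ℤ) : ZMod q) = a := by
      simp only [k]
      push_cast
      simp only [ZMod.natCast_val, ZMod.cast_id', id]
      rw [mul_left_comm, hM₁u.unit_spec, mul_inv_cancel₀ hM₁u.ne_zero,
        mul_one, add_sub_cancel]
    set m : ℤ := ((-((a⁻¹ : (ZMod q)ˣ) : ZMod q)).val : ℤ)
    obtain ⟨e, he⟩ : (q : ℤ) ∣ (1 + M₁ * k) * m + 1 := by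
      rw [← ZMod.intCast_zmod_eq_zero_iff_dvd, Int.cast_add, Int.cast_mul, hk, Int.cast_one,
        Int.cast_natCast, ZMod.natCast_val, ZMod.cast_id', id, mul_neg, Units.mul_inv,
        neg_add_cancel]
    have hMz : (M : ℤ) = (M₁ : ℤ) * q := by rw [hM]; push_cast; ring
    let g : Gamma0 M := ⟨⟨!![1 + M₁ * k, e; (M : ℤ) * k, 1 + M₁ * k * m], by
        rw [Matrix.det_fin_two_of, hMz]
        linear_combination (M₁ : ℤ) * k * he⟩,
      Gamma0_mem.mpr ((ZMod.intCast_zmod_eq_zero_iff_dvd _ _).mpr ⟨k, by simp⟩)⟩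
    let ℓ : Gamma0 M := ⟨⟨!![1, 0; (M : ℤ) * k, 1], by simp⟩,
      Gamma0_mem.mpr ((ZMod.intCast_zmod_eq_zero_iff_dvd _ _).mpr ⟨k, by simp⟩)⟩
    have hℓ : levelChar h θ ℓ = 1 := by
      rw [levelChar_apply, show aUnit h ℓ = 1 from Units.ext (by simp [ℓ]), map_one]
    have hg : levelChar h θ g = κ a ^ 2 := by
      rw [levelChar_apply, hθ, hθ' g ⟨k, by simp [g]⟩, one_mul]
      congr 2
      refine Units.ext ?_
      rw [ZMod.unitsMap_def, Units.coe_map, MonoidHom.coe_coe, val_aUnit, map_intCast]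
      simpa [g] using hk
    -- conclusion
    have hMq : ∀ n, M * q ∣ M' * q ^ n := fun n => hM'.trans (dvd_mul_right _ _)
    have hKn : (Gamma (M' * q ^ 8)).Normal := Gamma_normal _
    have : NeZero (M' * q ^ 8) := ⟨mul_ne_zero hM'0 (pow_ne_zero _ (NeZero.ne q))⟩
    have : NeZero M := ⟨hMne⟩
    refine mem_range_coboundary_of_vanish ((Gamma (M' * q ^ 8)).subgroupOf (Gamma0 M)) f
      fun x hx => ?_
    have hx8 : (x : SL(2, ℤ)) ∈ Gamma (M' * q ^ 8) := Subgroup.mem_subgroupOf.mp hx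
    have hx' : (x : SL(2, ℤ)) ∈ Gamma (M' * q ^ 6 * q ^ 2) := by rwa [mul_assoc, ← pow_add]
    obtain ⟨y₁, hy₁, e₁⟩ := exists_rShift_conj m hx'
    have hy₂ : (ℓ : SL(2, ℤ)) * y₁ * (ℓ : SL(2, ℤ))⁻¹ ∈ Gamma (M' * q ^ 6) :=
      (Gamma_normal _).conj_mem _ hy₁ _
    have hy₂' : (ℓ : SL(2, ℤ)) * y₁ * (ℓ : SL(2, ℤ))⁻¹ ∈ Gamma (M' * q ^ 4 * q ^ 2) := by
      rwa [mul_assoc, ← pow_add]
    obtain ⟨y₃, hy₃, e₃⟩ := exists_rShift_conj 1 hy₂'
    have hF₁ : F y₁ = F (x : SL(2, ℤ)) :=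
      hinv _ (hdvd (mul_dvd_mul_left _ (pow_dvd_pow q (by norm_num))) hx8) m y₁ e₁
    have hF₂ : F ((ℓ : SL(2, ℤ)) * y₁ * (ℓ : SL(2, ℤ))⁻¹) = F y₁ := by
      rw [hconjF ℓ y₁ (hdvd (hMq 6) hy₁), hℓ, one_smul]
    have hF₃ : F y₃ = F ((ℓ : SL(2, ℤ)) * y₁ * (ℓ : SL(2, ℤ))⁻¹) :=
      hinv _ (hdvd (mul_dvd_mul_left _ (pow_dvd_pow q (by norm_num))) hy₂) 1 y₃ e₃
    have hgmat : rShift q 1 * coeMat ℓ * rShift q m = ((q : ℤ) * q) • coeMat g := by
      ext i j
      fin_cases i <;> fin_cases j <;>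
        simp [g, ℓ, coeMat, rShift, Matrix.mul_apply, Fin.sum_univ_two]
      · rw [hMz]; ring
      · rw [hMz]; linear_combination (q : ℤ) * he
      · ring
      · rw [hMz]; ring
    have hy₃eq : y₃ = (g : SL(2, ℤ)) * x * (g : SL(2, ℤ))⁻¹ := by
      rw [eq_mul_inv_iff_mul_eq]
      refine Subtype.ext (smul_right_injective (Matrix (Fin 2) (Fin 2) ℤ)
        (mul_ne_zero (Nat.cast_ne_zero.mpr (NeZero.ne q)) (Nat.cast_ne_zero.mpr (NeZero.ne q)) :
          (q : ℤ) * q ≠ 0) ?_)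
      show ((q : ℤ) * q) • ((y₃ * g : SL(2, ℤ)) : Matrix (Fin 2) (Fin 2) ℤ) =
        ((q : ℤ) * q) • (((g : SL(2, ℤ)) * x : SL(2, ℤ)) : Matrix (Fin 2) (Fin 2) ℤ)
      have hl : coeMat ℓ * (y₁ : Matrix (Fin 2) (Fin 2) ℤ) =
          (((ℓ : SL(2, ℤ)) * y₁ * (ℓ : SL(2, ℤ))⁻¹ : SL(2, ℤ)) : Matrix (Fin 2) (Fin 2) ℤ) *
            coeMat ℓ := by
        simp only [coeMat, ← Matrix.SpecialLinearGroup.coe_mul, inv_mul_cancel_right]
      rw [Matrix.SpecialLinearGroup.coe_mul, Matrix.SpecialLinearGroup.coe_mul, ← mul_smul_comm,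
        ← smul_mul_assoc, show ((g : SL(2, ℤ)) : Matrix (Fin 2) (Fin 2) ℤ) = coeMat g from rfl,
        ← hgmat]
      symm
      calc rShift q 1 * coeMat ℓ * rShift q m * (x : Matrix (Fin 2) (Fin 2) ℤ)
          = rShift q 1 * coeMat ℓ * ((y₁ : Matrix (Fin 2) (Fin 2) ℤ) * rShift q m) := by
            rw [mul_assoc _ _ ((x : SL(2, ℤ)) : Matrix (Fin 2) (Fin 2) ℤ), e₁]
        _ = rShift q 1 * (coeMat ℓ * (y₁ : Matrix (Fin 2) (Fin 2) ℤ)) * rShift q m := by
            simp only [mul_assoc]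
        _ = _ := by rw [hl, ← mul_assoc, e₃]; simp only [mul_assoc]
    have key : levelChar h θ g • F (x : SL(2, ℤ)) = F (x : SL(2, ℤ)) := by
      rw [← hconjF g x (hdvd (hMq 8) hx8), ← hy₃eq, hF₃, hF₂, hF₁]
    rw [hg, ← sub_eq_zero] at key
    nth_rw 2 [← one_smul Λ (F (x : SL(2, ℤ)))] at key
    rw [← sub_smul] at key
    rw [← crossedExt_coe]
    exact (smul_eq_zero.mp key).resolve_left (sub_ne_zero.mpr ha)

end Primitive

end FermatAgent.RTLift.Systems
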