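import Mathlib
import Fermat.Agent.RTLift.Systems.Primitive

/-!
In characteristic zero a class is determined by its values on a deep congruence subgroup; there a
correspondence with pairwise different cosets acts by conjugation by its representatives.
-/

set_option autoImplicit false

noncomputable section

namespace FermatAgent.RTLift.Systems

open scoped MatrixGroups
open CongruenceSubgroup FermatAgent.RTLift.Modules

/-- `y` with `R * x = y * R`, when it exists. -/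
def conjBy (R : Matrix (Fin 2) (Fin 2) ℤ) (x : SL(2, ℤ)) : SL(2, ℤ) :=
  open Classical in
  if h : ∃ y : SL(2, ℤ), R * (x : Matrix (Fin 2) (Fin 2) ℤ) = (y : Matrix (Fin 2) (Fin 2) ℤ) * R
  then h.choose else 1

theorem conjBy_eq {R : Matrix (Fin 2) (Fin 2) ℤ} (hR : R.det ≠ 0) {x y : SL(2, ℤ)}
    (h : R * (x : Matrix (Fin 2) (Fin 2) ℤ) = (y : Matrix (Fin 2) (Fin 2) ℤ) * R) :
    conjBy R x = y := by
  have hex : ∃ y : SL(2, ℤ), R * (x : Matrix (Fin 2) (Fin 2) ℤ) =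
      (y : Matrix (Fin 2) (Fin 2) ℤ) * R := ⟨y, h⟩
  rw [conjBy, dif_pos hex]
  exact Subtype.ext (Periods.matrix_mul_right_cancel hR (hex.choose_spec.symm.trans h))

theorem conjBy_smul {R : Matrix (Fin 2) (Fin 2) ℤ} {c : ℤ} (hc : c ≠ 0) (x : SL(2, ℤ)) :
    conjBy (c • R) x = conjBy R x := by
  have : ∀ y : SL(2, ℤ), (c • R) * (x : Matrix (Fin 2) (Fin 2) ℤ) =
      (y : Matrix (Fin 2) (Fin 2) ℤ) * (c • R) ↔
      R * (x : Matrix (Fin 2) (Fin 2) ℤ) = (y : Matrix (Fin 2) (Fin 2) ℤ) * R := fun y => by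
    rw [smul_mul_assoc, mul_smul_comm]
    exact (smul_right_injective _ hc).eq_iff
  classical
  have key : ∀ P Q : SL(2, ℤ) → Prop, P = Q → (if h : ∃ y, P y then h.choose else 1) =
      (if h : ∃ y, Q y then h.choose else (1 : SL(2, ℤ))) := fun P Q e => by subst e; rfl
  exact key _ _ (funext fun y => propext (this y))

theorem conjBy_coe (g x : SL(2, ℤ)) :
    conjBy (g : Matrix (Fin 2) (Fin 2) ℤ) x = g * x * g⁻¹ := by
  refine conjBy_eq (by rw [g.det_coe]; exact one_ne_zero) ?_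
  rw [← Matrix.SpecialLinearGroup.coe_mul, ← Matrix.SpecialLinearGroup.coe_mul,
    inv_mul_cancel_right]

/-- Deep elements are conjugated into congruence subgroups. -/
theorem conjBy_spec {R : Matrix (Fin 2) (Fin 2) ℤ} (hR : R.det ≠ 0) {L K : ℕ}
    (hK : L * R.det.natAbs ∣ K) {x : SL(2, ℤ)} (hx : x ∈ Gamma K) :
    conjBy R x ∈ Gamma L ∧ R * (x : Matrix (Fin 2) (Fin 2) ℤ) =
      (conjBy R x : Matrix (Fin 2) (Fin 2) ℤ) * R := by
  obtain ⟨h00, h01, h10, h11⟩ := Gamma_mem.mp hx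
  have hent : ∀ i j, (K : ℤ) ∣ (x : Matrix (Fin 2) (Fin 2) ℤ) i j - (1 : Matrix (Fin 2) (Fin 2) ℤ) i j := by
    intro i j
    rw [← ZMod.intCast_zmod_eq_zero_iff_dvd, Int.cast_sub, sub_eq_zero]
    fin_cases i <;> fin_cases j <;> simpa
  choose X hX using hent
  obtain ⟨c, hc⟩ : R.det * L ∣ (K : ℤ) := by
    refine Int.natAbs_dvd_natAbs.mp ?_
    simpa [Int.natAbs_mul, mul_comm] using hK
  have hx1 : (x : Matrix (Fin 2) (Fin 2) ℤ) = 1 + (R.det * L * c) • Matrix.of X := by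
    ext i j
    simp only [Matrix.add_apply, Matrix.smul_apply, Matrix.of_apply, smul_eq_mul, ← hc]
    linear_combination hX i j
  set Y : Matrix (Fin 2) (Fin 2) ℤ := 1 + ((L : ℤ) * c) • (R * Matrix.of X * R.adjugate) with hY
  have hRY : R * (x : Matrix (Fin 2) (Fin 2) ℤ) = Y * R := by
    rw [hx1, hY, mul_add, add_mul, mul_one, one_mul, mul_smul_comm, smul_mul_assoc,
      mul_assoc _ R.adjugate, Matrix.adjugate_mul, mul_smul_comm, mul_one, smul_smul]
    congr 2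
    ring
  have hdet : Y.det = 1 := by
    have h := congrArg Matrix.det hRY
    rw [Matrix.det_mul, Matrix.det_mul, x.det_coe, mul_one] at h
    exact mul_right_cancel₀ hR (h.symm.trans (one_mul R.det).symm)
  have he : conjBy R x = ⟨Y, hdet⟩ := conjBy_eq hR hRY
  refine ⟨?_, he.symm ▸ hRY⟩
  rw [he]
  have key : ∀ i j, ((Y i j : ℤ) : ZMod L) = (((1 : Matrix (Fin 2) (Fin 2) ℤ) i j : ℤ) : ZMod L) :=
    fun i j => by
      rw [hY, Matrix.add_apply, Matrix.smul_apply, smul_eq_mul, Int.cast_add, Int.cast_mul,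
        Int.cast_mul, Int.cast_natCast, ZMod.natCast_self, zero_mul, zero_mul, add_zero]
  refine Gamma_mem.mpr ⟨?_, ?_, ?_, ?_⟩ <;> simp [key]

variable {Λ : Type*} [CommRing Λ] {A : Type*} [AddCommGroup A] [Module Λ A]

/-- The value of a crossed homomorphism at the conjugate of `x` by `R`. -/
def deepVal {M : ℕ} {χ : Gamma0 M →* Λ} (f : crossedHoms χ A) (R : Matrix (Fin 2) (Fin 2) ℤ)
    (x : SL(2, ℤ)) : A :=
  crossedExt f (conjBy R x)

theorem deepVal_smul {M : ℕ} {χ : Gamma0 M →* Λ} (f : crossedHoms χ A)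
    {R : Matrix (Fin 2) (Fin 2) ℤ} {c : ℤ} (hc : c ≠ 0) (x : SL(2, ℤ)) :
    deepVal f (c • R) x = deepVal f R x := by rw [deepVal, conjBy_smul hc, deepVal]

/-- Left translation by `Γ₀(M)` multiplies the value by the character. -/
theorem deepVal_gamma {M M₀ : ℕ} (h : M₀ ∣ M) {θ : (ZMod M₀)ˣ →* Λ}
    (f : crossedHoms (levelChar h θ) A) (g : Gamma0 M) {R : Matrix (Fin 2) (Fin 2) ℤ}
    (hR : R.det ≠ 0) {K : ℕ} (hK : M * R.det.natAbs ∣ K) {x : SL(2, ℤ)} (hx : x ∈ Gamma K) :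
    deepVal f (coeMat g * R) x = levelChar h θ g • deepVal f R x := by
  obtain ⟨hy, hRy⟩ := conjBy_spec hR hK hx
  have hy0 : conjBy R x ∈ Gamma0 M := gamma_le_gamma0 dvd_rfl hy
  have hgR : conjBy (coeMat g * R) x = (g : SL(2, ℤ)) * conjBy R x * (g : SL(2, ℤ))⁻¹ := by
    refine conjBy_eq ?_ ?_
    · rw [Matrix.det_mul, (g : SL(2, ℤ)).det_coe, one_mul]; exact hR
    rw [mul_assoc, hRy, ← mul_assoc, ← mul_assoc]
    congr 1
    simp only [coeMat, ← Matrix.SpecialLinearGroup.coe_mul, inv_mul_cancel_right]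
  have h1 := crossed_conj f g ⟨_, hy0⟩
    (by rw [levelChar_apply, aUnit_eq_one_of_mem_gamma h h ⟨_, hy0⟩ hy, map_one])
  rw [← crossedExt_coe, ← crossedExt_coe] at h1
  rw [deepVal, hgR]
  exact h1

/-- On deep elements a correspondence with pairwise different cosets acts by conjugation. -/
theorem crossedExt_apply {M M' : ℕ} {χ : Gamma0 M →* Λ} {χ' : Gamma0 M' →* Λ} {ι : Type*}
    [Fintype ι] (D : CrossCorr χ χ' ι) (hD : D.Sep) {K : ℕ} (hK' : M' ∣ K)
    (hK : ∀ i, M * (D.rep i).det.natAbs ∣ K) (f : crossedHoms χ A) {x : SL(2, ℤ)}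
    (hx : x ∈ Gamma K) :
    crossedExt (D.apply f) x = ∑ i, D.weight i • deepVal f (D.rep i) x := by
  have hx0 : x ∈ Gamma0 M' := gamma_le_gamma0 hK' hx
  rw [show crossedExt (D.apply f) x = _ from crossedExt_coe _ ⟨x, hx0⟩, CrossCorr.apply_apply]
  refine Finset.sum_congr rfl fun i _ => ?_
  obtain ⟨hy, hRy⟩ := conjBy_spec (D.det_ne i) (hK i) hx
  have hy0 : conjBy (D.rep i) x ∈ Gamma0 M := gamma_le_gamma0 dvd_rfl hy
  have ht : D.target ⟨x, hx0⟩ i = i := D.target_eq_of hD (δ := ⟨_, hy0⟩) hRy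
  have hm : D.move ⟨x, hx0⟩ i = ⟨_, hy0⟩ := D.move_eq_of (by rw [ht]; exact hRy)
  rw [hm, deepVal, ← crossedExt_coe]

/-- The same at a conjugate. -/
theorem deepVal_apply {M M' : ℕ} {χ : Gamma0 M →* Λ} {χ' : Gamma0 M' →* Λ} {ι : Type*}
    [Fintype ι] (D : CrossCorr χ χ' ι) (hD : D.Sep) {L : ℕ} (hL' : M' ∣ L)
    (hL : ∀ i, M * (D.rep i).det.natAbs ∣ L) (f : crossedHoms χ A)
    {S : Matrix (Fin 2) (Fin 2) ℤ} (hS : S.det ≠ 0) {K : ℕ} (hK : L * S.det.natAbs ∣ K)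
    {x : SL(2, ℤ)} (hx : x ∈ Gamma K) :
    deepVal (D.apply f) S x = ∑ i, D.weight i • deepVal f (D.rep i * S) x := by
  obtain ⟨hy, hSy⟩ := conjBy_spec hS hK hx
  rw [deepVal, crossedExt_apply D hD hL' hL f hy]
  refine Finset.sum_congr rfl fun i _ => congrArg _ ?_
  rw [deepVal, deepVal]
  congr 1
  obtain ⟨-, hR⟩ := conjBy_spec (D.det_ne i) (hL i) hy
  refine (conjBy_eq ?_ ?_).symm
  · rw [Matrix.det_mul]; exact mul_ne_zero (D.det_ne i) hS
  · rw [mul_assoc, hSy, ← mul_assoc, hR, mul_assoc]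

theorem deepVal_coe {M : ℕ} {χ : Gamma0 M →* Λ} (f : crossedHoms χ A) (g x : SL(2, ℤ)) :
    deepVal f (g : Matrix (Fin 2) (Fin 2) ℤ) x = crossedExt f (g * x * g⁻¹) := by
  rw [deepVal, conjBy_coe]

/-- In characteristic zero classes which agree on a deep congruence subgroup are equal. -/
theorem mk_eq_of_deep [Module ℚ A] {M : ℕ} {χ : Gamma0 M →* Λ} {K : ℕ} [NeZero K]
    (f f' : crossedHoms χ A) (h : ∀ x ∈ Gamma K, crossedExt f x = crossedExt f' x) :
    (Submodule.Quotient.mk f : H1 χ A) = Submodule.Quotient.mk f' := by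
  rw [Submodule.Quotient.eq]
  have : ((Gamma K).subgroupOf (Gamma0 M)).Normal :=
    Subgroup.Normal.subgroupOf (Gamma_normal K) _
  refine mem_range_coboundary_of_vanish ((Gamma K).subgroupOf (Gamma0 M)) _ fun x hx => ?_
  have h1 := h x (Subgroup.mem_subgroupOf.mp hx)
  rw [crossedExt_coe, crossedExt_coe] at h1
  rw [Submodule.coe_sub, Pi.sub_apply, h1, sub_self]

end FermatAgent.RTLift.Systems
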