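import Mathlib
import Fermat.Prelude.Thm_IsLocalRing_isAdicComplete_of_module_finite
import Fermat.Prelude.Thm_Algebra_finite_maximalSpectrum_and_bijective_localization_of_module_finite

/-!
A domain finite over a complete discrete valuation ring embeds into a finite extension which is a
complete discrete valuation ring.
-/

set_option autoImplicit false

noncomputable section

namespace FermatAgent.RTLift.Systems

open IsLocalRing

/-- A finite algebra over a complete Noetherian local ring which is a domain is local. -/
theorem isLocalRing_of_isDomain {O : Type} [CommRing O] [IsLocalRing O] [IsNoetherianRing O]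
    [IsAdicComplete (maximalIdeal O) O] (A : Type) [CommRing A] [IsDomain A] [Algebra O A]
    [Module.Finite O A] : IsLocalRing A := by
  classical
  obtain ⟨-, hbij, -, -⟩ :=
    Algebra.finite_maximalSpectrum_and_bijective_localization_of_module_finite (𝒪 := O) A
  refine IsLocalRing.of_unique_max_ideal ?_
  obtain ⟨m, hm⟩ := Ideal.exists_maximal A
  refine ⟨m, hm, fun I hI => ?_⟩
  by_contra hne
  let P : MaximalSpectrum A := ⟨m, hm⟩
  let Q : MaximalSpectrum A := ⟨I, hI⟩
  have hPQ : Q ≠ P := fun h => hne (congrArg MaximalSpectrum.asIdeal h)
  obtain ⟨e, he⟩ := hbij.2 (Pi.single P 1)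
  have he2 : e * e = e := hbij.1 (by rw [map_mul, he, ← Pi.single_mul, mul_one])
  rcases IsIdempotentElem.iff_eq_zero_or_one.mp he2 with rfl | rfl
  · have h := congrFun (he.symm.trans (map_zero _)) P
    rw [Pi.single_eq_same] at h
    exact one_ne_zero h
  · have h := congrFun (he.symm.trans (map_one _)) Q
    rw [Pi.single_eq_of_ne hPQ] at h
    exact zero_ne_one h

variable {O : Type} [CommRing O] [IsDomain O] [IsDiscreteValuationRing O]
  [IsAdicComplete (maximalIdeal O) O] [Finite (ResidueField O)] [CharZero O]

/-- The integral closure of a complete discrete valuation ring in a finite extension. -/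
theorem exists_dvr_extension_aux (D : Type) [CommRing D] [IsDomain D] [Algebra O D]
    [Module.Finite O D] (hinj : Function.Injective (algebraMap O D)) (K L : Type) [Field K]
    [Algebra O K] [IsFractionRing O K] [Field L] [Algebra D L] [IsFractionRing D L] [Algebra O L]
    [IsScalarTower O D L] [Algebra K L] [IsScalarTower O K L] :
    ∃ (R : Type) (_ : CommRing R) (_ : IsDomain R) (_ : IsDiscreteValuationRing R)
      (_ : IsAdicComplete (maximalIdeal R) R) (_ : Finite (ResidueField R)) (_ : CharZero R)
      (_ : Algebra O R) (_ : Module.Finite O R), IsLocalHom (algebraMap O R) ∧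
      Function.Injective (algebraMap O R) ∧ ∃ ι : D →ₐ[O] R, Function.Injective ι := by
  have hOL : Function.Injective (algebraMap O L) := by
    rw [IsScalarTower.algebraMap_eq O D L, RingHom.coe_comp]
    exact (IsFractionRing.injective D L).comp hinj
  have : CharZero K := charZero_of_injective_algebraMap (IsFractionRing.injective O K)
  have : FiniteDimensional K L := by
    obtain ⟨s, hs⟩ := Module.Finite.fg_top (R := O) (M := D)
    let E := IntermediateField.adjoin K (algebraMap D L '' (s : Set D))
    have : FiniteDimensional K E := IntermediateField.finiteDimensional_adjoin fun x hx => by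
      obtain ⟨r, -, rfl⟩ := hx
      exact ((IsIntegral.of_finite O r).map (IsScalarTower.toAlgHom O D L)).tower_top
    have hE : ∀ r : D, algebraMap D L r ∈ E := by
      intro r
      have hr : r ∈ Submodule.span O (s : Set D) := hs ▸ Submodule.mem_top
      induction hr using Submodule.span_induction with
      | mem x hx => exact IntermediateField.subset_adjoin _ _ ⟨x, hx, rfl⟩
      | zero => rw [map_zero]; exact zero_mem E
      | add x y _ _ hx hy => rw [map_add]; exact add_mem hx hy
      | smul c x _ hx =>
        rw [Algebra.smul_def, map_mul, ← IsScalarTower.algebraMap_apply,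
          IsScalarTower.algebraMap_apply O K L]
        exact mul_mem (E.algebraMap_mem _) hx
    have hEtop : E = ⊤ := eq_top_iff.2 fun z _ => by
      obtain ⟨a, b, -, rfl⟩ := IsFractionRing.div_surjective (A := D) z
      exact div_mem (hE a) (hE b)
    exact LinearEquiv.finiteDimensional
      ((IntermediateField.equivOfEq hEtop).trans IntermediateField.topEquiv).toLinearEquiv
  let R := integralClosure O L
  have : Module.Finite O R := IsIntegralClosure.finite O K L R
  have : IsLocalRing R := isLocalRing_of_isDomain (O := O) R
  have hRinj : Function.Injective (algebraMap O R) := fun a b h =>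
    hOL (congrArg Subtype.val h)
  have : Algebra.IsIntegral O R := Algebra.IsIntegral.of_finite O R
  have hloc : IsLocalHom (algebraMap O R) :=
    (RingHom.IsIntegral.isLocalHom (fun x => Algebra.IsIntegral.isIntegral x) hRinj)
  have : IsDedekindDomain R := integralClosure.isDedekindDomain O K L
  have hnf : ¬ IsField R := fun hf => IsDiscreteValuationRing.not_isField O
    (isField_of_isIntegral_of_isField hRinj hf)
  have : IsDiscreteValuationRing R := ((IsDiscreteValuationRing.TFAE R hnf).out 0 2 rfl rfl).mpr ‹IsDedekindDomain R›
  have : IsAdicComplete (maximalIdeal R) R :=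
    IsLocalRing.isAdicComplete_of_module_finite (𝒪 := O) (T := R)
  have : Finite (ResidueField R) := ResidueField.finite_of_finite (R := O) (S := R) inferInstance
  have : CharZero R := charZero_of_injective_algebraMap hRinj
  refine ⟨R, inferInstance, inferInstance, inferInstance, inferInstance, inferInstance,
    inferInstance, inferInstance, inferInstance, hloc, hRinj,
    (IsScalarTower.toAlgHom O D L).codRestrict R fun r =>
      (IsIntegral.of_finite O r).map (IsScalarTower.toAlgHom O D L),
    fun a b h => IsFractionRing.injective D L (congrArg Subtype.val h)⟩

/-- A domain finite over a complete discrete valuation ring embeds into a finite extension which is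
a complete discrete valuation ring. -/
theorem exists_dvr_extension (D : Type) [CommRing D] [IsDomain D] [Algebra O D] [Module.Finite O D]
    (hinj : Function.Injective (algebraMap O D)) :
    ∃ (R : Type) (_ : CommRing R) (_ : IsDomain R) (_ : IsDiscreteValuationRing R)
      (_ : IsAdicComplete (maximalIdeal R) R) (_ : Finite (ResidueField R)) (_ : CharZero R)
      (_ : Algebra O R) (_ : Module.Finite O R), IsLocalHom (algebraMap O R) ∧
      Function.Injective (algebraMap O R) ∧ ∃ ι : D →ₐ[O] R, Function.Injective ι := by
  have : FaithfulSMul O D := (faithfulSMul_iff_algebraMap_injective O D).mpr hinj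
  let _ : Algebra (FractionRing O) (FractionRing D) := FractionRing.liftAlgebra O (FractionRing D)
  exact exists_dvr_extension_aux D hinj (FractionRing O) (FractionRing D)

end FermatAgent.RTLift.Systems
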