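import Mathlib
import Fermat.Agent.Descent3.MoveValue

/-!
In characteristic zero `T_l φ = (l + 1) φ` on parabolic elements of `Γ₀(N)` for `l ≡ 1 mod N`, so
`T_l - (l + 1)` produces parabolic homomorphisms.
-/

set_option autoImplicit false

noncomputable section

namespace FermatAgent.RTLift.Systems

open scoped MatrixGroups
open ModularGroup CongruenceSubgroup ModularCurve.Period

variable {N : ℕ} {A : Type*} [AddCommGroup A] [Module ℚ A]

theorem existsUnique_cuspIndex {l : ℕ} (hl : l.Prime) (g : SL(2, ℤ)) :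
    ∃! i : Option (ZMod l), (l : ℤ) ∣ (Periods.tRep l i * Descent3.matOf g) 0 0 ∧
      (l : ℤ) ∣ (Periods.tRep l i * Descent3.matOf g) 1 0 := by
  have : Fact l.Prime := ⟨hl⟩
  have hdet : g 0 0 * g 1 1 - g 0 1 * g 1 0 = 1 := by rw [← Matrix.det_fin_two]; exact g.2
  simp only [← ZMod.intCast_zmod_eq_zero_iff_dvd]
  set u : ZMod l := ((g 0 0 : ℤ) : ZMod l)
  set v : ZMod l := ((g 1 0 : ℤ) : ZMod l)
  have hnone : (((Periods.tRep l none * Descent3.matOf g) 0 0 : ℤ) : ZMod l) = 0 ∧
      (((Periods.tRep l none * Descent3.matOf g) 1 0 : ℤ) : ZMod l) = v := by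
    simp [Periods.tRep, Periods.diagRep, Descent3.matOf, Matrix.mul_apply, Fin.sum_univ_two, v]
  have hsome : ∀ j : ZMod l,
      (((Periods.tRep l (some j) * Descent3.matOf g) 0 0 : ℤ) : ZMod l) = u + j * v ∧
      (((Periods.tRep l (some j) * Descent3.matOf g) 1 0 : ℤ) : ZMod l) = 0 := by
    intro j
    simp [Periods.tRep, Periods.upperRep, Descent3.matOf, Matrix.mul_apply, Fin.sum_univ_two, u, v]
  have huv : ¬ (u = 0 ∧ v = 0) := fun ⟨hu, hv⟩ => by
    have h := congrArg (Int.cast : ℤ → ZMod l) hdet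
    push_cast at h
    simp [u, v] at hu hv
    simp [hu, hv] at h
  rcases eq_or_ne v 0 with hv | hv
  · refine ⟨none, ⟨hnone.1, hnone.2.trans hv⟩, ?_⟩
    rintro (_ | j) ⟨h0, -⟩
    · rfl
    · rw [(hsome j).1, hv, mul_zero, add_zero] at h0
      exact absurd ⟨h0, hv⟩ huv
  · refine ⟨some (-u / v), ⟨by rw [(hsome _).1, div_mul_cancel₀ _ hv, add_neg_cancel],
      (hsome _).2⟩, ?_⟩
    rintro (_ | j) ⟨h0, h1⟩
    · rw [hnone.2] at h1
      exact absurd h1 hv
    · rw [(hsome j).1] at h0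
      congr 1
      rw [eq_div_iff hv]
      linear_combination h0

/-- The value of `T_l φ` on a parabolic element fixing the cusp `g ∞`. -/
theorem heckeHomT_apply_conjT {l : ℕ} (hl : l.Prime) (hlN : ¬ l ∣ N) (hl1 : (l : ZMod N) = 1)
    (φ : Additive (Gamma0 N) →+ A) {P : Gamma0 N} {g : SL(2, ℤ)} {n : ℤ}
    (hP : (P : SL(2, ℤ)) = g * T ^ n * g⁻¹) :
    Periods.heckeHomT ℕ N hl hlN φ (Additive.ofMul P) = (l + 1) • φ (Additive.ofMul P) := by
  classical
  have : NeZero l := ⟨hl.ne_zero⟩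
  set D := Periods.tCorr N hl hlN
  obtain ⟨i₀, hi₀, huniq⟩ := existsUnique_cuspIndex hl g
  -- each translate of `P ^ l`
  have hval : ∀ i, φ (Additive.ofMul (D.move (P ^ l) i)) =
      (if i = i₀ then l * l else 1) • φ (Additive.ofMul P) := by
    intro i
    have hα : Periods.tRep l i 1 0 = 0 := by
      cases i <;> simp [Periods.tRep, Periods.diagRep, Periods.upperRep]
    obtain ⟨h, a, d, b, had, hfac⟩ := Descent3.exists_upper_triangular
      (Periods.tRep l i * Descent3.matOf g) (ℓ := l)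
      (by rw [Matrix.det_mul, Periods.det_tRep]; simp [Descent3.matOf]) hl.ne_zero
    have e0 := congrFun (congrFun hfac 1) 0
    have e00 := congrFun (congrFun hfac 0) 0
    have e1 := congrFun (congrFun hfac 1) 1
    simp only [Matrix.mul_apply, Fin.sum_univ_two, hα, Descent3.matOf, zero_mul, zero_add,
      Matrix.cons_val', Matrix.cons_val_zero, Matrix.cons_val_one, Matrix.cons_val_fin_one,
      Matrix.of_apply, mul_zero, add_zero] at e0 e1
    obtain ⟨hd1, hgood⟩ : d ∣ l ∧ (a = if i = i₀ then l else 1) := by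
      refine ⟨Dvd.intro_left a had, ?_⟩
      have hdeth : h 0 0 * h 1 1 - h 0 1 * h 1 0 = 1 := by rw [← Matrix.det_fin_two]; exact h.2
      have h00 : (Periods.tRep l i * Descent3.matOf g) 0 0 = h 0 0 * a := by
        rw [e00]; simp [Descent3.matOf, Matrix.mul_apply, Fin.sum_univ_two]
      have h10 : (Periods.tRep l i * Descent3.matOf g) 1 0 = h 1 0 * a := by
        rw [show (Periods.tRep l i * Descent3.matOf g) 1 0 = _ from congrFun (congrFun hfac 1) 0]
        simp [Descent3.matOf, Matrix.mul_apply, Fin.sum_univ_two]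
      split_ifs with hi
      · subst hi
        rcases (Nat.dvd_prime hl).mp ⟨d, had.symm⟩ with ha | ha
        · exfalso
          obtain ⟨g0, g1⟩ := hi₀
          rw [h00, ha, Nat.cast_one, mul_one] at g0
          rw [h10, ha, Nat.cast_one, mul_one] at g1
          have hl' := dvd_sub (g0.mul_right (h 1 1)) (g1.mul_left (h 0 1))
          rw [hdeth] at hl'
          exact hl.not_dvd_one (by exact_mod_cast hl')
        · exact ha
      · rcases (Nat.dvd_prime hl).mp ⟨d, had.symm⟩ with ha | ha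
        · exact ha
        · refine absurd (huniq i ⟨?_, ?_⟩) hi
          · rw [h00, ha]; exact dvd_mul_left _ _
          · rw [h10, ha]; exact dvd_mul_left _ _
    have had1 : (a : ZMod N) = 1 ∧ (d : ZMod N) = 1 := by
      rcases (Nat.dvd_prime hl).mp ⟨d, had.symm⟩ with ha | ha
      · subst ha
        rw [one_mul] at had
        exact ⟨Nat.cast_one, had ▸ hl1⟩
      · subst ha
        exact ⟨hl1, by rw [(Nat.mul_eq_left hl.ne_zero).mp had, Nat.cast_one]⟩
    have hαu : IsUnit ((Periods.tRep l i 1 1 : ℤ) : ZMod N) := by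
      refine isUnit_of_mul_isUnit_right (x := ((Periods.tRep l i 0 0 : ℤ) : ZMod N)) ?_
      have hdl : Periods.tRep l i 0 0 * Periods.tRep l i 1 1 = (l : ℤ) := by
        have := Periods.det_tRep l i
        rw [Matrix.det_fin_two, hα, mul_zero, sub_zero] at this
        exact this
      rw [← Int.cast_mul, hdl, Int.cast_natCast, hl1]
      exact isUnit_one
    let c : Gamma0 N := ⟨h * T ^ b * g⁻¹, Gamma0_mem.mpr (by
      rw [Descent3.inv_conj_one_zero]
      have E0 := congrArg (Int.cast : ℤ → ZMod N) e0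
      have E1 := congrArg (Int.cast : ℤ → ZMod N) e1
      push_cast at E0 E1
      rw [had1.1, mul_one] at E0
      rw [had1.2, mul_one] at E1
      have hTb : ((h * T ^ b : SL(2, ℤ)) 1 0 = h 1 0) ∧
          ((h * T ^ b : SL(2, ℤ)) 1 1 = h 1 0 * b + h 1 1) := by
        simp [Matrix.SpecialLinearGroup.coe_mul, coe_T_zpow, Matrix.mul_apply, Fin.sum_univ_two]
      rw [hTb.1, hTb.2]
      push_cast
      refine hαu.mul_left_cancel ?_
      linear_combination ((h 1 0 : ℤ) : ZMod N) * E1 -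
        (((h 1 0 : ℤ) : ZMod N) * (b : ZMod N) + ((h 1 1 : ℤ) : ZMod N)) * E0)⟩
    obtain ⟨d', hd'⟩ := hd1
    have hk : (((c * P * c⁻¹ : Gamma0 N) ^ (a * d') : Gamma0 N) : SL(2, ℤ)) =
        h * T ^ (n * ((a * d' : ℕ) : ℤ)) * h⁻¹ := by
      rw [SubmonoidClass.coe_pow, Subgroup.coe_mul, Subgroup.coe_mul, Subgroup.coe_inv, hP,
        show (c : SL(2, ℤ)) = h * T ^ b * g⁻¹ from rfl,
        show h * T ^ b * g⁻¹ * (g * T ^ n * g⁻¹) * (h * T ^ b * g⁻¹)⁻¹ = h * T ^ n * h⁻¹ by group,
        conj_pow, ← zpow_natCast, ← zpow_mul]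
    have hPl : ((P ^ l : Gamma0 N) : SL(2, ℤ)) = g * T ^ (n * (l : ℤ)) * g⁻¹ := by
      rw [SubmonoidClass.coe_pow, hP, conj_pow, ← zpow_natCast, ← zpow_mul]
    have hspec : D.rep i * (((P ^ l : Gamma0 N) : SL(2, ℤ)) : Matrix (Fin 2) (Fin 2) ℤ) =
        ((((c * P * c⁻¹ : Gamma0 N) ^ (a * d') : Gamma0 N) : SL(2, ℤ)) :
          Matrix (Fin 2) (Fin 2) ℤ) * D.rep i := by
      simp only [hk, hPl]
      show Periods.tRep l i * Descent3.matOf (g * T ^ (n * (l : ℤ)) * g⁻¹) =
        Descent3.matOf (h * T ^ (n * ((a * d' : ℕ) : ℤ)) * h⁻¹) * Periods.tRep l i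
      have htri := Descent3.triangular_mul_T_zpow a d b (n * d')
      have h2 : Periods.tRep l i * Descent3.matOf g * Descent3.matOf (T ^ (n * (l : ℤ))) =
          Descent3.matOf (h * T ^ (n * ((a * d' : ℕ) : ℤ))) * !![(a : ℤ), b; 0, (d : ℤ)] := by
        rw [hfac, Descent3.matOf_mul, mul_assoc,
          show n * (l : ℤ) = (d : ℤ) * (n * d') by rw [hd']; push_cast; ring, htri,
          show (a : ℤ) * (n * d') = n * ((a * d' : ℕ) : ℤ) by push_cast; ring, mul_assoc]
      have hinv : ∀ x : SL(2, ℤ), Descent3.matOf x * Descent3.matOf x⁻¹ = 1 := fun x => by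
        rw [← Descent3.matOf_mul, mul_inv_cancel]; rfl
      calc Periods.tRep l i * Descent3.matOf (g * T ^ (n * (l : ℤ)) * g⁻¹)
          = Periods.tRep l i * Descent3.matOf g * Descent3.matOf (T ^ (n * (l : ℤ))) *
              Descent3.matOf g⁻¹ := by
            simp only [Descent3.matOf_mul, mul_assoc]
        _ = Descent3.matOf (h * T ^ (n * ((a * d' : ℕ) : ℤ))) *
              (Descent3.matOf h⁻¹ * (Descent3.matOf h * !![(a : ℤ), b; 0, (d : ℤ)]) *
                Descent3.matOf g⁻¹) := by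
            rw [h2, ← mul_assoc (Descent3.matOf h⁻¹), ← Descent3.matOf_mul h⁻¹ h, inv_mul_cancel,
              show Descent3.matOf (1 : SL(2, ℤ)) = 1 from rfl, one_mul, ← mul_assoc]
        _ = _ := by
            rw [← hfac]
            simp only [Descent3.matOf_mul, mul_assoc]
            rw [hinv g, mul_one]
    rw [(D.move_unique hspec).2, ofMul_pow, map_nsmul,
      show φ (Additive.ofMul (c * P * c⁻¹)) = φ (Additive.ofMul P) by simp [ofMul_mul]]
    congr 1
    split_ifs at hgood ⊢ with hi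
    · subst hgood
      rw [(Nat.mul_eq_left hl.ne_zero).mp had, one_mul] at hd'
      rw [← hd']
    · subst hgood
      rw [one_mul] at had ⊢
      subst had
      exact (Nat.mul_eq_left hl.ne_zero).mp hd'.symm
  have hsum : (l : ℕ) • Periods.heckeHomT ℕ N hl hlN φ (Additive.ofMul P) =
      (l * l + l) • φ (Additive.ofMul P) := by
    rw [← map_nsmul, ← ofMul_pow]
    show ∑ i, φ (Additive.ofMul (D.move (P ^ l) i)) = _
    rw [Finset.sum_congr rfl fun i _ => hval i, ← Finset.sum_smul]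
    congr 1
    rw [← Finset.add_sum_erase _ _ (Finset.mem_univ i₀), if_pos rfl,
      Finset.sum_congr rfl (fun i hi => if_neg (Finset.ne_of_mem_erase hi)), Finset.sum_const,
      Finset.card_erase_of_mem (Finset.mem_univ i₀), Finset.card_univ, Fintype.card_option,
      ZMod.card]
    simp
  rw [show l * l + l = l * (l + 1) by ring, mul_nsmul', ← Nat.cast_smul_eq_nsmul ℚ,
    ← Nat.cast_smul_eq_nsmul ℚ (b := (l + 1) • φ (Additive.ofMul P))] at hsum
  exact smul_right_injective A (Nat.cast_ne_zero.mpr hl.ne_zero) hsum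

/-- `T_l = l + 1` on parabolic elements for `l ≡ 1 mod N`. -/
theorem heckeHomT_apply_parabolic {l : ℕ} (hl : l.Prime) (hlN : ¬ l ∣ N) (hl1 : (l : ZMod N) = 1)
    (φ : Additive (Gamma0 N) →+ A) {P : Gamma0 N}
    (hP : ((P : SL(2, ℤ)) : Matrix (Fin 2) (Fin 2) ℤ).trace ^ 2 = 4) :
    Periods.heckeHomT ℕ N hl hlN φ (Additive.ofMul P) = (l + 1) • φ (Additive.ofMul P) := by
  obtain ⟨g, n, hg⟩ := ModCurveGroup.exists_conj_T_zpow (g := (P : SL(2, ℤ))) hP
  have hP2 : ((P ^ 2 : Gamma0 N) : SL(2, ℤ)) = g * T ^ (n * 2) * g⁻¹ := by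
    rw [SubmonoidClass.coe_pow]
    have key : (g⁻¹ * (P : SL(2, ℤ)) * g) ^ 2 = T ^ (n * 2) := by
      rw [zpow_mul]
      rcases hg with e | e
      · rw [e]; norm_cast
      · rw [e, neg_sq]; norm_cast
    rw [← key, sq, sq]
    group
  have h := heckeHomT_apply_conjT hl hlN hl1 φ hP2
  rw [ofMul_pow, map_nsmul, map_nsmul, smul_comm (l + 1), ← Nat.cast_smul_eq_nsmul ℚ,
    ← Nat.cast_smul_eq_nsmul ℚ (b := (l + 1) • φ (Additive.ofMul P))] at h
  exact smul_right_injective A (by norm_num) h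

/-- `T_l φ - (l + 1) φ` is parabolic for `l ≡ 1 mod N`. -/
theorem isParabolicHom_sub {l : ℕ} (hl : l.Prime) (hlN : ¬ l ∣ N) (hl1 : (l : ZMod N) = 1)
    (φ : Additive (Gamma0 N) →+ A) :
    IsParabolicHom (Gamma0 N) (Periods.heckeHomT ℕ N hl hlN φ - (l + 1) • φ) := by
  intro γ hγ
  rw [AddMonoidHom.sub_apply, AddMonoidHom.smul_apply,
    heckeHomT_apply_parabolic hl hlN hl1 φ hγ, sub_self]

end FermatAgent.RTLift.Systems
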