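import Mathlib
import Fermat.Agent.Periods.WeightTwo
import Fermat.Agent.ModCurve.Forms.Genus
import Fermat.Agent.RTLift.Petersson.Semisimple
import Fermat.Agent.Periods.HeckeFinite

/-!
The Hecke algebra of weight two cusp forms away from the level acts on parabolic homomorphisms
with values in any `ℚ`-vector space; consequently an eigen homomorphism gives a point of the
Hecke algebra, and the Hecke operators act semisimply.
-/

set_option autoImplicit false

noncomputable section

namespace FermatAgent.RTLift.Systems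

open scoped MatrixGroups
open CongruenceSubgroup ModularCurve ModularCurve.Period CuspForm

variable {N : ℕ} [NeZero N] {A : Type*} [AddCommGroup A] [Module ℚ A]

/-- `E` is the operator induced by `t` on homomorphisms with values in `A`: it agrees with `t` on
periods after every functional to `ℂ`. -/
def Realizes (t : Module.End ℂ (CuspForm (Gamma0 N) 2))
    (E : (Additive (Gamma0 N) →+ A) →+ (Additive (Gamma0 N) →+ A)) : Prop :=
  ∀ (u : A →ₗ[ℚ] ℂ) (φ : Additive (Gamma0 N) →+ A) (f g : CuspForm (Gamma0 N) 2),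
    periodHomPair N (f, g) = u.toAddMonoidHom.comp φ →
      periodHomPair N (t f, t g) = u.toAddMonoidHom.comp (E φ)

theorem realizes_heckeTLin {l : ℕ} (hl : l.Prime) (hlN : ¬ l ∣ N) :
    Realizes (A := A) (heckeTLin 2 hl hlN)
      (Periods.heckeHomT ℕ (A := A) N hl hlN).toAddMonoidHom := by
  intro u φ f g h
  rw [Periods.periodHomPair_heckeTLin, h]
  exact AddMonoidHom.ext fun γ => by
    obtain ⟨γ, rfl⟩ := Additive.ofMul.surjective γ
    exact (map_sum u _ _).symm

omit [NeZero N] in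
theorem realizes_algebraMap (c : ℤ) :
    Realizes (A := A) (algebraMap ℤ (Module.End ℂ (CuspForm (Gamma0 N) 2)) c)
      (c • AddMonoidHom.id _) := by
  intro u φ f g h
  rw [Module.algebraMap_end_apply, Module.algebraMap_end_apply, ← Prod.smul_mk, map_zsmul, h]
  exact AddMonoidHom.ext fun γ => (map_zsmul u c _).symm

omit [NeZero N] in
theorem Realizes.add {s t : Module.End ℂ (CuspForm (Gamma0 N) 2)}
    {E F : (Additive (Gamma0 N) →+ A) →+ (Additive (Gamma0 N) →+ A)} (hs : Realizes s E)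
    (ht : Realizes t F) : Realizes (s + t) (E + F) := by
  intro u φ f g h
  rw [LinearMap.add_apply, LinearMap.add_apply, ← Prod.mk_add_mk, map_add, hs u φ f g h,
    ht u φ f g h]
  exact AddMonoidHom.ext fun γ => (map_add u _ _).symm

omit [NeZero N] in
theorem Realizes.mul {s t : Module.End ℂ (CuspForm (Gamma0 N) 2)}
    {E F : (Additive (Gamma0 N) →+ A) →+ (Additive (Gamma0 N) →+ A)} (hs : Realizes s E)
    (ht : Realizes t F) : Realizes (s * t) (E.comp F) :=
  fun u φ f g h => hs u (F φ) (t f) (t g) (ht u φ f g h)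

theorem exists_pair_of_parabolic {φ : Additive (Gamma0 N) →+ A}
    (hφ : IsParabolicHom (Gamma0 N) φ) (u : A →ₗ[ℚ] ℂ) :
    ∃ f g : CuspForm (Gamma0 N) 2, periodHomPair N (f, g) = u.toAddMonoidHom.comp φ := by
  have h : u.toAddMonoidHom.comp φ ∈ LinearMap.range (periodHomPair N) := by
    rw [ModCurve.Forms.range_periodHomPair, mem_parabolicHoms_iff]
    intro γ hγ
    simp [hφ γ hγ]
  obtain ⟨⟨f, g⟩, hfg⟩ := h
  exact ⟨f, g, hfg⟩

omit [NeZero N] in
theorem eq_of_forall_comp {φ ψ : Additive (Gamma0 N) →+ A}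
    (h : ∀ u : A →ₗ[ℚ] ℂ, u.toAddMonoidHom.comp φ = u.toAddMonoidHom.comp ψ) : φ = ψ := by
  refine AddMonoidHom.ext fun γ => sub_eq_zero.mp ?_
  by_contra hne
  obtain ⟨w, hw⟩ : ∃ w : A →ₗ[ℚ] ℚ, w (φ γ - ψ γ) ≠ 0 := by
    by_contra! h0
    exact hne ((Module.forall_dual_apply_eq_zero_iff ℚ _).mp h0)
  refine hw ?_
  have h1 := DFunLike.congr_fun (h ((Algebra.linearMap ℚ ℂ).comp w)) γ
  have h2 : algebraMap ℚ ℂ (w (φ γ)) = algebraMap ℚ ℂ (w (ψ γ)) := h1
  rw [map_sub, sub_eq_zero]
  exact (algebraMap ℚ ℂ).injective h2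

theorem Realizes.unique {t : Module.End ℂ (CuspForm (Gamma0 N) 2)}
    {E F : (Additive (Gamma0 N) →+ A) →+ (Additive (Gamma0 N) →+ A)} (hE : Realizes t E)
    (hF : Realizes t F) {φ : Additive (Gamma0 N) →+ A} (hφ : IsParabolicHom (Gamma0 N) φ) :
    E φ = F φ :=
  eq_of_forall_comp fun u => by
    obtain ⟨f, g, hfg⟩ := exists_pair_of_parabolic hφ u
    rw [← hE u φ f g hfg, hF u φ f g hfg]

variable {Λ : Type*} [CommRing Λ] [Module Λ A] {S : Set ℕ}

/-- On a simultaneous eigen homomorphism every element of the Hecke algebra acts by a scalar. -/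
theorem exists_eigenvalue (hS : ∀ q : ℕ, q.Prime → q ∣ N → q ∈ S) {a : ℕ → Λ}
    {φ : Additive (Gamma0 N) →+ A}
    (heig : ∀ (l : ℕ) (hl : l.Prime) (hlN : ¬ l ∣ N), l ∉ S →
      Periods.heckeHomT Λ N hl hlN φ = a l • φ)
    {t : Module.End ℂ (CuspForm (Gamma0 N) 2)} (ht : t ∈ heckeAlgebra N 2 S) :
    ∃ (E : (Additive (Gamma0 N) →+ A) →+ (Additive (Gamma0 N) →+ A)) (c : Λ), Realizes t E ∧
      (∀ (b : Λ) (ψ : Additive (Gamma0 N) →+ A), E (b • ψ) = b • E ψ) ∧ E φ = c • φ := by
  induction ht using Algebra.adjoin_induction with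
  | mem T hT =>
    rcases hT with ⟨l, hl, hlN, hlS, rfl⟩ | ⟨q, hqN, hq, hqS, rfl⟩
    · exact ⟨_, a l, realizes_heckeTLin hl hlN,
        fun b ψ => (Periods.heckeHomT Λ (A := A) N hl hlN).map_smul b ψ, heig l hl hlN hlS⟩
    · exact absurd (hS q hq hqN) hqS
  | algebraMap c =>
    refine ⟨_, (c : Λ), realizes_algebraMap c, fun b ψ => ?_, ?_⟩
    · simp only [AddMonoidHom.smul_apply, AddMonoidHom.id_apply]
      exact (smul_comm b c ψ).symm
    · simp only [AddMonoidHom.smul_apply, AddMonoidHom.id_apply]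
      rw [Int.cast_smul_eq_zsmul]
  | add s t _ _ hs ht =>
    obtain ⟨E, c, hE, hEl, hEφ⟩ := hs
    obtain ⟨F, d, hF, hFl, hFφ⟩ := ht
    exact ⟨E + F, c + d, hE.add hF, fun b ψ => by simp [hEl, hFl, smul_add],
      by simp [hEφ, hFφ, add_smul]⟩
  | mul s t _ _ hs ht =>
    obtain ⟨E, c, hE, hEl, hEφ⟩ := hs
    obtain ⟨F, d, hF, hFl, hFφ⟩ := ht
    exact ⟨E.comp F, c * d, hE.mul hF, fun b ψ => by simp [hEl, hFl],
      by rw [AddMonoidHom.comp_apply, hFφ, hEl, hEφ, smul_smul, mul_comm]⟩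

variable [IsDomain Λ] [Module.IsTorsionFree Λ A]

/-- **An eigen parabolic homomorphism gives a point of the Hecke algebra.** -/
theorem exists_point_of_eigenHom (hS : ∀ q : ℕ, q.Prime → q ∣ N → q ∈ S) {a : ℕ → Λ}
    {φ : Additive (Gamma0 N) →+ A} (hφ : IsParabolicHom (Gamma0 N) φ) (hφ0 : φ ≠ 0)
    (heig : ∀ (l : ℕ) (hl : l.Prime) (hlN : ¬ l ∣ N), l ∉ S →
      Periods.heckeHomT Λ N hl hlN φ = a l • φ) :
    ∃ χ : heckeAlgebra N 2 S →+* Λ,
      ∀ (l : ℕ) (hl : l.Prime) (hlN : ¬ l ∣ N) (hlS : l ∉ S),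
        χ (heckeAlgebra.T hl hlN hlS) = a l := by
  obtain ⟨γ, hγ⟩ : ∃ γ, φ γ ≠ 0 := by
    by_contra! h
    exact hφ0 (AddMonoidHom.ext h)
  have key : ∀ (t : Module.End ℂ (CuspForm (Gamma0 N) 2))
      {E F : (Additive (Gamma0 N) →+ A) →+ (Additive (Gamma0 N) →+ A)} {c d : Λ},
      Realizes t E → Realizes t F → E φ = c • φ → F φ = d • φ → c = d := by
    intro t E F c d hE hF hc hd
    have h := DFunLike.congr_fun ((hc.symm.trans (hE.unique hF hφ)).trans hd) γ
    exact smul_left_injective Λ hγ h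
  choose E c hE hEl hEc using fun t : heckeAlgebra N 2 S => exists_eigenvalue hS heig t.2
  refine ⟨{ toFun := c
            map_one' := ?_
            map_mul' := fun s t => ?_
            map_zero' := ?_
            map_add' := fun s t => ?_ }, fun l hl hlN hlS => ?_⟩
  · exact key _ (hE 1) (F := (1 : ℤ) • AddMonoidHom.id _)
      (by simpa using realizes_algebraMap (N := N) (A := A) 1) (hEc 1) (by simp)
  · exact key _ (hE (s * t)) ((hE s).mul (hE t)) (hEc _)
      (by rw [AddMonoidHom.comp_apply, hEc, hEl, hEc, smul_smul, mul_comm])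
  · exact key _ (hE 0) (F := (0 : ℤ) • AddMonoidHom.id _)
      (by simpa using realizes_algebraMap (N := N) (A := A) 0) (hEc 0) (by simp)
  · exact key _ (hE (s + t)) ((hE s).add (hE t)) (hEc _)
      (by rw [AddMonoidHom.add_apply, hEc, hEc, add_smul])
  · exact key _ (hE _) (realizes_heckeTLin hl hlN) (hEc _) (heig l hl hlN hlS)

end FermatAgent.RTLift.Systems

namespace FermatAgent.RTLift.Systems

open scoped MatrixGroups
open CongruenceSubgroup CuspForm

variable {N : ℕ} [NeZero N] {S : Set ℕ}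

/-- Each element of the Hecke algebra is killed by an integral polynomial which is squarefree over
`ℚ`. -/
theorem exists_squarefree_aeval (hS : ∀ q : ℕ, q.Prime → q ∣ N → q ∈ S)
    (t : heckeAlgebra N 2 S) :
    ∃ P : Polynomial ℤ, Squarefree (P.map (Int.castRingHom ℚ)) ∧ Polynomial.aeval t P = 0 := by
  classical
  have := Periods.moduleFinite_heckeAlgebra_all N 2 S
  have := Petersson.isReduced_heckeAlgebra (k := 2) hS
  have hex : ∃ d, ∃ P : Polynomial ℤ, P.natDegree = d ∧ P ≠ 0 ∧ Polynomial.aeval t P = 0 := by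
    obtain ⟨P, hP, hPt⟩ := IsIntegral.of_finite ℤ t
    exact ⟨_, P, rfl, hP.ne_zero, hPt⟩
  obtain ⟨P, hd, hP0, hPt⟩ := Nat.find_spec hex
  have hinj : Function.Injective (Int.castRingHom ℚ) := Int.cast_injective
  have hP0' : P.map (Int.castRingHom ℚ) ≠ 0 := (Polynomial.map_ne_zero_iff hinj).mpr hP0
  refine ⟨P, (squarefree_iff_no_irreducibles hP0').mpr fun R hR hRR => ?_, hPt⟩
  obtain ⟨Q, hQ⟩ := hRR
  have hnorm : ∀ G : Polynomial ℚ, ∃ (G' : Polynomial ℤ) (c : ℤ), c ≠ 0 ∧
      G'.map (Int.castRingHom ℚ) = Polynomial.C (c : ℚ) * G := fun G => by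
    obtain ⟨b, hb, h⟩ := IsLocalization.integerNormalization_spec (nonZeroDivisors ℤ) G
    refine ⟨IsLocalization.integerNormalization (nonZeroDivisors ℤ) G, b,
      nonZeroDivisors.ne_zero hb, ?_⟩
    rw [← algebraMap_int_eq]
    refine h.trans ?_
    rw [Algebra.smul_def, Polynomial.C_eq_intCast, eq_intCast]
  obtain ⟨G, c, hc, hG⟩ := hnorm (R * Q)
  obtain ⟨Q', e, he, hQ'⟩ := hnorm Q
  have hRQ : R * Q ≠ 0 := fun h => hP0' (by rw [hQ, mul_assoc, h, mul_zero])
  have hG0 : G ≠ 0 := fun h => by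
    rw [h, Polynomial.map_zero, eq_comm, mul_eq_zero] at hG
    exact hG.elim (by simp [hc]) hRQ
  -- `G * G` is a multiple of `P`, up to a constant
  have hGG : Polynomial.C e * (G * G) = Polynomial.C (c * c) * (P * Q') := by
    refine Polynomial.map_injective _ hinj ?_
    simp only [Polynomial.map_mul, Polynomial.map_intCast, hG, hQ', hQ, eq_intCast, map_mul,
      map_intCast]
    ring
  have hzero : Polynomial.aeval t G = 0 := by
    have h1 := congrArg (Polynomial.aeval t) hGG
    rw [map_mul, map_mul _ _ (P * Q'), map_mul _ P, hPt, zero_mul, mul_zero, map_mul _ G,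
      Polynomial.aeval_C] at h1
    refine eq_zero_of_pow_eq_zero (n := 2) ?_
    rw [sq]
    have hinst : Module.IsTorsionFree ℤ (heckeAlgebra N 2 S) := .of_smul_eq_zero fun r x h => by
      refine or_iff_not_imp_left.mpr fun hr => Subtype.ext ?_
      have h2 : (r : ℂ) • (x : Module.End ℂ (CuspForm (Gamma0 N) 2)) = 0 := by
        rw [Int.cast_smul_eq_zsmul]; exact congrArg Subtype.val h
      exact (smul_eq_zero.mp h2).resolve_left (by exact_mod_cast hr)
    rw [← Algebra.smul_def] at h1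
    exact (smul_eq_zero.mp h1).resolve_left he
  have hdeg : G.natDegree < P.natDegree := by
    rw [← Polynomial.natDegree_map_eq_of_injective hinj G,
      ← Polynomial.natDegree_map_eq_of_injective hinj P, hG, hQ,
      Polynomial.natDegree_C_mul (by exact_mod_cast hc), mul_assoc,
      Polynomial.natDegree_mul (left_ne_zero_of_mul hRQ) hRQ]
    have := hR.natDegree_pos
    omega
  exact Nat.find_min hex (hd ▸ hdeg) ⟨G, rfl, hG0, hzero⟩

open ModularCurve.Period in
/-- `T_l` acts on parabolic homomorphisms through a squarefree polynomial. -/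
theorem exists_squarefree_heckeHomT {Λ : Type*} [CommRing Λ] {A : Type*} [AddCommGroup A]
    [Module ℚ A] [Module Λ A] (hS : ∀ q : ℕ, q.Prime → q ∣ N → q ∈ S) {l : ℕ} (hl : l.Prime)
    (hlN : ¬ l ∣ N) (hlS : l ∉ S) :
    ∃ P : Polynomial ℤ, Squarefree (P.map (Int.castRingHom ℚ)) ∧
      ∀ φ : Additive (Gamma0 N) →+ A, IsParabolicHom (Gamma0 N) φ →
        Polynomial.aeval (Periods.heckeHomT Λ (A := A) N hl hlN) P φ = 0 := by
  obtain ⟨P, hP, hPt⟩ := exists_squarefree_aeval hS (heckeAlgebra.T (k := 2) hl hlN hlS)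
  refine ⟨P, hP, fun φ hφ => ?_⟩
  have key : ∀ Q : Polynomial ℤ, Realizes (A := A)
      (Polynomial.aeval (heckeTLin 2 hl hlN) Q)
      (Polynomial.aeval (Periods.heckeHomT Λ (A := A) N hl hlN) Q).toAddMonoidHom := fun Q => by
    induction Q using Polynomial.induction_on with
    | C c =>
      rw [Polynomial.aeval_C, Polynomial.aeval_C]
      convert realizes_algebraMap (N := N) (A := A) c using 1
      ext ψ γ
      simp
    | add Q R hQ hR =>
      rw [map_add, map_add]
      convert hQ.add hR using 1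
      all_goals rfl
    | monomial n c h =>
      rw [pow_succ, ← mul_assoc, map_mul _ _ Polynomial.X, map_mul _ _ Polynomial.X,
        Polynomial.aeval_X, Polynomial.aeval_X]
      convert h.mul (realizes_heckeTLin hl hlN) using 1
      all_goals rfl
  have h0 : Polynomial.aeval (heckeTLin 2 hl hlN) P = 0 :=
    (Polynomial.aeval_algHom_apply (heckeAlgebra N 2 S).val _ P).trans
      ((congrArg (heckeAlgebra N 2 S).val hPt).trans (map_zero _))
  have h1 := key P
  rw [h0] at h1
  have h2 := h1.unique (F := (0 : ℤ) • AddMonoidHom.id _)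
    (by simpa using realizes_algebraMap (N := N) (A := A) 0) hφ
  simpa using h2

end FermatAgent.RTLift.Systems
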