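import Mathlib
import Fermat.Agent.RTLift.Systems.Deep

/-!
The twist modulo `d` multiplies `U_q` by `κ q` for `q` prime to `d`.
-/

set_option autoImplicit false

noncomputable section

namespace FermatAgent.RTLift.Systems

open scoped MatrixGroups
open CongruenceSubgroup FermatAgent.RTLift.Modules

variable {Λ : Type*} [CommRing Λ] {d : ℕ} [NeZero d] {M M' M₀ : ℕ} (h : M₀ ∣ M) (h' : M₀ ∣ M')
  (hd : d ∣ M₀) (hM' : M * d ∣ M') (κ : (ZMod d)ˣ →* Λ) {θ θ' : (ZMod M₀)ˣ →* Λ}
  (hθ : ∀ a, θ a = θ' a * κ (ZMod.unitsMap hd a) ^ 2)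

theorem sep_twistCross : (twistCross h h' hd hM' κ hθ).Sep := by
  intro δ u v he
  rw [twistCross_rep, twistCross_rep] at he
  have hd0 : (d : ℤ) ≠ 0 := Nat.cast_ne_zero.mpr (NeZero.ne d)
  have e00 := congrFun (congrFun he 0) 0
  have e01 := congrFun (congrFun he 0) 1
  simp [rShift, coeMat, Matrix.mul_apply, Fin.sum_univ_two, -ZMod.natCast_val] at e00 e01
  have ha : (δ : SL(2, ℤ)) 0 0 = 1 := mul_right_cancel₀ hd0 (by linear_combination -e00)
  rw [ha, one_mul] at e01
  have h1 := congrArg (Int.cast : ℤ → ZMod d) e01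
  simpa using h1

theorem crossedExt_smul {A : Type*} [AddCommGroup A] [Module Λ A] {χ : Gamma0 M →* Λ} (c : Λ)
    (f : crossedHoms χ A) (x : SL(2, ℤ)) : crossedExt (c • f) x = c • crossedExt f x := by
  unfold crossedExt
  split_ifs
  · rfl
  · rw [smul_zero]

variable (A : Type*) [AddCommGroup A] [Module Λ A] [Module ℚ A] [NeZero M']

/-- **The twist multiplies `U_q` by `κ q`.** -/
theorem twistH1_heckeU {q : ℕ} [NeZero q] (hqM : q ∣ M) (hqM' : q ∣ M') (hqd : q.Coprime d)
    (x : H1 (levelChar h θ) A) :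
    heckeU h' θ' A hqM' (twistH1 h h' hd hM' κ hθ A x) =
      κ (ZMod.unitOfCoprime q hqd) • twistH1 h h' hd hM' κ hθ A (heckeU h θ A hqM x) := by
  induction x using Submodule.Quotient.induction_on with
  | H f =>
  rw [twistH1, heckeU, heckeU, CrossCorr.onH1_mk, CrossCorr.onH1_mk, CrossCorr.onH1_mk,
    CrossCorr.onH1_mk, ← Submodule.Quotient.mk_smul]
  have hM0 : M ≠ 0 := fun h0 => NeZero.ne M' (by simpa [h0] using hM')
  set L : ℕ := M * M' * (d * d) * q with hL
  set K : ℕ := L * (d * d * q) with hK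
  have : NeZero K := ⟨by simp [hK, hL, hM0, NeZero.ne M', NeZero.ne d, NeZero.ne q]⟩
  set ta := twistCross h h' hd hM' κ hθ
  set ua := uCross h θ hqM
  set ub := uCross h' θ' hqM'
  have hdt : ∀ u, (ta.rep u).det.natAbs = d * d := fun u => by
    rw [twistCross_rep, det_rShift, Int.natAbs_mul, Int.natAbs_natCast]
  have hdu : ∀ (i : ZMod q), (Periods.upperRep q (i.val : ℤ)).det.natAbs = q := fun i => by
    rw [Periods.det_upperRep, Int.natAbs_natCast]
  have hwb : ∀ i, ub.weight i = 1 := fun i => by simp [ub, uCross, CrossCorr.ofDelta]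
  have hwa : ∀ i, ua.weight i = 1 := fun i => by simp [ua, uCross, CrossCorr.ofDelta]
  set κq := κ (ZMod.unitOfCoprime q hqd)
  refine mk_eq_of_deep (K := K) _ _ fun y hy => ?_
  have hMu : M' * q ∣ K := ⟨M * (d * d) * (d * d * q), by rw [hK, hL]; ring⟩
  have hMt : M * (d * d) ∣ K := ⟨M' * q * (d * d * q), by rw [hK, hL]; ring⟩
  have hMtL : M * (d * d) ∣ L := ⟨M' * q, by rw [hL]; ring⟩
  have hMuL : M * q ∣ L := ⟨M' * (d * d), by rw [hL]; ring⟩
  rw [crossedExt_smul, crossedExt_apply ub (sep_uCross h' θ' hqM') ((dvd_mul_right M' q).trans hMu)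
      (fun i => by rw [show ub.rep i = Periods.upperRep q (i.val : ℤ) from rfl, hdu]; exact hMu) _ hy,
    crossedExt_apply ta (sep_twistCross h h' hd hM' κ hθ) ((dvd_mul_right M' q).trans hMu)
      (fun u => by rw [hdt]; exact hMt) _ hy]
  simp only [hwb, one_smul, Finset.smul_sum]
  have hlhs : ∀ i, deepVal (ta.apply f) (ub.rep i) y =
      ∑ u, ta.weight u • deepVal f (ta.rep u * ub.rep i) y := fun i =>
    deepVal_apply ta (sep_twistCross h h' hd hM' κ hθ) (L := L) ⟨M * (d * d) * q, by rw [hL]; ring⟩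
      (fun u => by rw [hdt]; exact hMtL) f (ub.det_ne i)
      (by rw [show ub.rep i = Periods.upperRep q (i.val : ℤ) from rfl, hdu, hK]
          exact mul_dvd_mul_left L (dvd_mul_left q _)) hy
  have hrhs : ∀ v, deepVal (ua.apply f) (ta.rep v) y =
      ∑ i, deepVal f (ua.rep i * ta.rep v) y := fun v => by
    rw [deepVal_apply ua (sep_uCross h θ hqM) (L := L) ⟨M' * (d * d) * q, by rw [hL]; ring⟩
      (fun i => by rw [show ua.rep i = Periods.upperRep q (i.val : ℤ) from rfl, hdu]; exact hMuL)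
      f (ta.det_ne v) (by rw [hdt, hK]; exact mul_dvd_mul_left L (dvd_mul_right _ q)) hy]
    simp [hwa]
  simp only [hlhs, hrhs, Finset.smul_sum]
  rw [← Fintype.sum_prod_type', ← Fintype.sum_prod_type']
  -- the matching of representatives
  have hex : ∀ x : ZMod q × ZMod d, ∃ (p : ZMod d × ZMod q) (t k : ℤ),
      p.1 = x.2 * (q : ZMod d) ∧ (d : ℤ) * k = x.2.val * q - p.1.val ∧
      (q : ℤ) * t = x.1.val + k - p.2.val := by
    rintro ⟨i, u⟩
    set v : ZMod d := u * (q : ZMod d)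
    obtain ⟨k, hk⟩ : (d : ℤ) ∣ (u.val : ℤ) * q - v.val := by
      rw [← ZMod.intCast_zmod_eq_zero_iff_dvd]
      simp [v]
    set i' : ZMod q := (((i.val : ℤ) + k : ℤ) : ZMod q)
    obtain ⟨t, ht⟩ : (q : ℤ) ∣ (i.val : ℤ) + k - i'.val := by
      rw [← ZMod.intCast_zmod_eq_zero_iff_dvd]
      simp [i']
    exact ⟨(v, i'), t, k, rfl, hk.symm, ht.symm⟩
  choose e t k he1 hk ht using hex
  have hinj : Function.Injective e := by
    rintro ⟨i, u⟩ ⟨j, w⟩ hxy
    have h1 := (he1 (i, u)).symm.trans ((congrArg Prod.fst hxy).trans (he1 (j, w)))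
    have huw : u = w := ((ZMod.isUnit_iff_coprime q d).mpr hqd).mul_right_cancel h1
    subst huw
    have hk' : k (i, u) = k (j, u) := mul_left_cancel₀
      (Nat.cast_ne_zero.mpr (NeZero.ne d) : (d : ℤ) ≠ 0) ((hk _).trans (by rw [hxy, ← hk (j, u)]))
    have h2 := congrArg (Int.cast : ℤ → ZMod q) (ht (i, u))
    have h3 := congrArg (Int.cast : ℤ → ZMod q) (ht (j, u))
    rw [hxy, hk'] at h2
    push_cast at h2 h3
    simp only [ZMod.natCast_self, zero_mul, ZMod.natCast_val, ZMod.cast_id', id] at h2 h3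
    simp only [Prod.mk.injEq, and_true]
    linear_combination h3 - h2
  have hcard : Fintype.card (ZMod q × ZMod d) = Fintype.card (ZMod d × ZMod q) := by
    simp [mul_comm]
  refine Fintype.sum_equiv
    (Equiv.ofBijective e ((Fintype.bijective_iff_injective_and_card e).mpr ⟨hinj, hcard⟩))
    _ _ fun x => ?_
  rw [Equiv.ofBijective_apply, smul_smul]
  have hrep : ta.rep x.2 * ub.rep x.1 =
      coeMat (Periods.shiftGamma0 M (t x)) * (ua.rep (e x).2 * ta.rep (e x).1) := by
    rw [show ub.rep x.1 = Periods.upperRep q (x.1.val : ℤ) from rfl,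
      show ua.rep (e x).2 = Periods.upperRep q ((e x).2.val : ℤ) from rfl, twistCross_rep,
      twistCross_rep]
    ext a b
    fin_cases a <;> fin_cases b <;>
      simp [rShift, Periods.upperRep, coeMat, Periods.shiftGamma0, Matrix.mul_apply,
        Fin.sum_univ_two, -ZMod.natCast_val]
    · linear_combination -(d : ℤ) * ht x - hk x
    · ring
  have hdet : (ua.rep (e x).2 * ta.rep (e x).1).det ≠ 0 := by
    rw [Matrix.det_mul]; exact mul_ne_zero (ua.det_ne _) (ta.det_ne _)
  rw [hrep, deepVal_gamma h f _ hdet (K := K) ?_ hy]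
  · have hone : levelChar h θ (Periods.shiftGamma0 M (t x)) = 1 := by
      rw [levelChar_apply, show aUnit h (Periods.shiftGamma0 M (t x)) = 1 from
        Units.ext (by simp [Periods.shiftGamma0]), map_one]
    rw [hone, one_smul]
    congr 1
    rw [show ta.weight x.2 = (twChar κ)⁻¹ x.2 from rfl,
      show ta.weight (e x).1 = (twChar κ)⁻¹ (e x).1 from rfl, he1, map_mul,
      ← ZMod.coe_unitOfCoprime q hqd, twChar_inv_coe, mul_left_comm, ← map_mul, mul_inv_cancel,
      map_one, mul_one]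
  · rw [Matrix.det_mul, Int.natAbs_mul, hdt,
      show ua.rep (e x).2 = Periods.upperRep q ((e x).2.val : ℤ) from rfl, hdu, hK]
    exact ⟨M' * (d * d * q), by rw [hL]; ring⟩

end FermatAgent.RTLift.Systems
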