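import Mathlib
import Fermat.Agent.RTLift.Systems.TwistU

/-!
Twisting by a character `κ` modulo a squarefree `M₀ ∥ M`: an injective map from the cohomology of
`Γ₀(M)` with character `κ²` to homomorphisms on `Γ₀(N)`, `M M₀ ∣ N`, multiplying `T_l` by `κ l` and
`U_r`, `r` prime to `M₀`, by `κ r`; also twisting by part of `κ` only.
-/

set_option autoImplicit false

noncomputable section

namespace FermatAgent.RTLift.Systems

open scoped MatrixGroups
open CongruenceSubgroup FermatAgent.RTLift.Modules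

variable {Λ : Type*} [CommRing Λ] [IsDomain Λ] (A : Type*) [AddCommGroup A] [Module Λ A]
  [Module ℚ A] [Module.IsTorsionFree Λ A]

/-- The linear form of `levelChange` over the same ring. -/
def levelChangeLin {M M₀ M₁ : ℕ} (h : M₀ ∣ M) (h₁ : M₁ ∣ M₀) {θ : (ZMod M₀)ˣ →* Λ}
    {θ₁ : (ZMod M₁)ˣ →* Λ} (hθ : ∀ a, θ a = algebraMap Λ Λ (θ₁ (ZMod.unitsMap h₁ a))) :
    H1 (levelChar h θ) A ≃ₗ[Λ] H1 (levelChar (h₁.trans h) θ₁) A :=
  ((levelChange h h₁ hθ A).toLinearEquiv fun c x => by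
    rw [levelChange, h1Change_smul]; rfl).symm

omit [IsDomain Λ] [Module ℚ A] [Module.IsTorsionFree Λ A] in
theorem levelChangeLin_heckeT {M M₀ M₁ : ℕ} (h : M₀ ∣ M) (h₁ : M₁ ∣ M₀) {θ : (ZMod M₀)ˣ →* Λ}
    {θ₁ : (ZMod M₁)ˣ →* Λ} (hθ : ∀ a, θ a = algebraMap Λ Λ (θ₁ (ZMod.unitsMap h₁ a))) {l : ℕ}
    (hl : l.Prime) (hlM : ¬ l ∣ M) (x : H1 (levelChar h θ) A) :
    levelChangeLin A h h₁ hθ (heckeT h θ A hl hlM x) =
      heckeT (h₁.trans h) θ₁ A hl hlM (levelChangeLin A h h₁ hθ x) := by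
  obtain ⟨y, rfl⟩ := (levelChangeLin A h h₁ hθ).symm.surjective x
  rw [LinearEquiv.apply_symm_apply]
  refine (congrArg _ (levelChange_heckeT h h₁ hθ hl hlM y).symm).trans ?_
  exact (levelChangeLin A h h₁ hθ).apply_symm_apply _

omit [IsDomain Λ] [Module ℚ A] [Module.IsTorsionFree Λ A] in
theorem levelChangeLin_heckeU {M M₀ M₁ : ℕ} (h : M₀ ∣ M) (h₁ : M₁ ∣ M₀) {θ : (ZMod M₀)ˣ →* Λ}
    {θ₁ : (ZMod M₁)ˣ →* Λ} (hθ : ∀ a, θ a = algebraMap Λ Λ (θ₁ (ZMod.unitsMap h₁ a))) {q : ℕ}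
    [NeZero q] (hq : q ∣ M) (x : H1 (levelChar h θ) A) :
    levelChangeLin A h h₁ hθ (heckeU h θ A hq x) =
      heckeU (h₁.trans h) θ₁ A hq (levelChangeLin A h h₁ hθ x) := by
  obtain ⟨y, rfl⟩ := (levelChangeLin A h h₁ hθ).symm.surjective x
  rw [LinearEquiv.apply_symm_apply]
  refine (congrArg _ (levelChange_heckeU h h₁ hθ hq y).symm).trans ?_
  exact (levelChangeLin A h h₁ hθ).apply_symm_apply _

omit [IsDomain Λ] [Module ℚ A] [Module.IsTorsionFree Λ A] in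
theorem h1ToHom_heckeU {M M₀ : ℕ} (h : M₀ ∣ M) {q : ℕ} [NeZero q] (hq : q ∣ M)
    (x : H1 (levelChar h (1 : (ZMod M₀)ˣ →* Λ)) A) :
    h1ToHom h A (heckeU h 1 A hq x) = Periods.heckeHomU Λ M hq (h1ToHom h A x) := by
  induction x using Submodule.Quotient.induction_on with
  | H f =>
    refine AddMonoidHom.ext fun γ => ?_
    obtain ⟨γ, rfl⟩ := Additive.ofMul.surjective γ
    rw [heckeU, CrossCorr.onH1_mk, h1ToHom_mk, CrossCorr.apply_apply]
    exact Finset.sum_congr rfl fun i _ => by simp [uCross, CrossCorr.ofDelta]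

theorem unitsMap_unitOfCoprime {a b l : ℕ} (h : a ∣ b) (hla : l.Coprime a) (hlb : l.Coprime b) :
    ZMod.unitsMap h (ZMod.unitOfCoprime l hlb) = ZMod.unitOfCoprime l hla :=
  Units.ext (by simp [ZMod.unitsMap_def])

set_option maxHeartbeats 800000 in
/-- **Twisting by part of `κ`**: the character keeps its component modulo `Q`. -/
theorem exists_twist_part (M₁ : ℕ) : ∀ (M₀ Q M : ℕ) (h : M₀ ∣ M) (hQ₀ : M₀ = Q * M₁) (R : ℕ),
    M = M₀ * R → M₀.Coprime R → Squarefree M₀ →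
    ∀ (κQ : (ZMod Q)ˣ →* Λ) (κ₁ : (ZMod M₁)ˣ →* Λ) (θ : (ZMod M₀)ˣ →* Λ),
    (∀ a, θ a = (κQ (ZMod.unitsMap (Dvd.intro M₁ hQ₀.symm) a) *
      κ₁ (ZMod.unitsMap (Dvd.intro_left Q hQ₀.symm) a)) ^ 2) →
    (∀ a, κ₁ a ^ 2 = 1 → κ₁ a = 1) → ∀ (M' : ℕ) [NeZero M'] (hQ : Q ∣ M'), M * M₁ ∣ M' →
    ∃ Φ : H1 (levelChar h θ) A →ₗ[Λ] H1 (levelChar hQ (κQ * κQ)) A, Function.Injective Φ ∧
      (∀ (l : ℕ) (hl : l.Prime) (hlM : ¬ l ∣ M) (hlM' : ¬ l ∣ M')
        (hl₁ : l.Coprime M₁) (x : H1 (levelChar h θ) A),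
        heckeT hQ (κQ * κQ) A hl hlM' (Φ x) =
          κ₁ (ZMod.unitOfCoprime l hl₁) • Φ (heckeT h θ A hl hlM x)) ∧
      ∀ (r : ℕ) [NeZero r] (hrM : r ∣ M) (hrM' : r ∣ M') (hr₁ : r.Coprime M₁)
        (x : H1 (levelChar h θ) A),
        heckeU hQ (κQ * κQ) A hrM' (Φ x) =
          κ₁ (ZMod.unitOfCoprime r hr₁) • Φ (heckeU h θ A hrM x) := by
  induction M₁ using Nat.strong_induction_on with
  | _ M₁ ih =>
    intro M₀ Q M h hQ₀ R hR hcop hsq κQ κ₁ θ hθ hκ M' _ hQ hM'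
    rcases eq_or_ne M₁ 1 with hone | hone
    · -- trivial modulus
      subst hone
      have hQM₀ : Q ∣ M₀ := Dvd.intro 1 hQ₀.symm
      have hc : ∀ a, θ a = algebraMap Λ Λ ((κQ * κQ) (ZMod.unitsMap hQM₀ a)) := fun a => by
        rw [hθ, Subsingleton.elim (ZMod.unitsMap _ a : (ZMod 1)ˣ) 1, map_one, mul_one, sq]
        rfl
      have hMM : M ∣ M' := by simpa using hM'
      refine ⟨(degI (hQM₀.trans h) hQ (κQ * κQ) A hMM).comp
          (levelChangeLin A h hQM₀ hc).toLinearMap,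
        (degI_injective (hQM₀.trans h) hQ (κQ * κQ) A hMM).comp
          (levelChangeLin A h hQM₀ hc).injective,
        fun l hl hlM hlM' hl₁ x => ?_, fun r _ hrM hrM' hr₁ x => ?_⟩
      · rw [show ZMod.unitOfCoprime l hl₁ = 1 from Subsingleton.elim _ _, map_one, one_smul,
          LinearMap.comp_apply, LinearMap.comp_apply, LinearEquiv.coe_coe,
          levelChangeLin_heckeT A h hQM₀ hc hl hlM, degI_heckeT _ hQ (κQ * κQ) hMM hl hlM']
      · rw [show ZMod.unitOfCoprime r hr₁ = 1 from Subsingleton.elim _ _, map_one, one_smul,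
          LinearMap.comp_apply, LinearMap.comp_apply, LinearEquiv.coe_coe,
          levelChangeLin_heckeU A h hQM₀ hc hrM, ← degI_heckeU _ hQ (κQ * κQ) hMM hrM]
    -- split off one prime
    obtain ⟨q, hq, M₂, rfl⟩ : ∃ q, q.Prime ∧ ∃ M₂, M₁ = q * M₂ :=
      ⟨M₁.minFac, Nat.minFac_prime hone, M₁.minFac_dvd⟩
    have := Fact.mk hq
    have hM₁M₀ : q * M₂ ∣ M₀ := Dvd.intro_left Q hQ₀.symm
    have hqM₂ : q.Coprime M₂ := Nat.coprime_of_squarefree_mul (hsq.squarefree_of_dvd hM₁M₀)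
    have hsq' : Squarefree (q * (Q * M₂)) := by
      rwa [show q * (Q * M₂) = M₀ by rw [hQ₀]; ring]
    have hqQ : q.Coprime (Q * M₂) := Nat.coprime_of_squarefree_mul hsq'
    have hM₂0 : M₂ ≠ 0 := fun h0 => by simp [h0] at hsq'
    have hlt : M₂ < q * M₂ := lt_mul_left (Nat.pos_of_ne_zero hM₂0) hq.one_lt
    have hd : q ∣ M₀ := (dvd_mul_right q M₂).trans hM₁M₀
    have h₂ : Q * M₂ ∣ M₀ := ⟨q, by rw [hQ₀]; ring⟩
    have hqR : ¬ q ∣ R := fun hd' => hq.ne_one (Nat.dvd_one.mp (hcop ▸ Nat.dvd_gcd hd hd'))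
    have hqQM₂ : ¬ q ∣ Q * M₂ := hq.coprime_iff_not_dvd.mp hqQ
    -- the two components of the character
    let E : (ZMod (q * M₂))ˣ ≃* (ZMod q)ˣ × (ZMod M₂)ˣ :=
      (Units.mapEquiv (ZMod.chineseRemainder hqM₂).toMulEquiv).trans MulEquiv.prodUnits
    have hE1 : ∀ a, (E a).1 = ZMod.unitsMap (dvd_mul_right q M₂) a := fun a => Units.ext <| by
      change (ZMod.chineseRemainder hqM₂ (a : ZMod (q * M₂))).1 =
        ZMod.castHom (dvd_mul_right q M₂) (ZMod q) a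
      exact DFunLike.congr_fun (Subsingleton.elim ((RingHom.fst _ _).comp
        (ZMod.chineseRemainder hqM₂).toRingHom) (ZMod.castHom (dvd_mul_right q M₂) (ZMod q))) _
    have hE2 : ∀ a, (E a).2 = ZMod.unitsMap (dvd_mul_left M₂ q) a := fun a => Units.ext <| by
      change (ZMod.chineseRemainder hqM₂ (a : ZMod (q * M₂))).2 =
        ZMod.castHom (dvd_mul_left M₂ q) (ZMod M₂) a
      exact DFunLike.congr_fun (Subsingleton.elim ((RingHom.snd _ _).comp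
        (ZMod.chineseRemainder hqM₂).toRingHom) (ZMod.castHom (dvd_mul_left M₂ q) (ZMod M₂))) _
    let κq : (ZMod q)ˣ →* Λ := κ₁.comp (E.symm.toMonoidHom.comp (MonoidHom.inl _ _))
    let κ₂ : (ZMod M₂)ˣ →* Λ := κ₁.comp (E.symm.toMonoidHom.comp (MonoidHom.inr _ _))
    have hsplit : ∀ a, κ₁ a = κq (ZMod.unitsMap (dvd_mul_right q M₂) a) *
        κ₂ (ZMod.unitsMap (dvd_mul_left M₂ q) a) := fun a => by
      simp only [κq, κ₂, MonoidHom.comp_apply, MulEquiv.coe_toMonoidHom, MonoidHom.inl_apply,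
        MonoidHom.inr_apply, ← map_mul, Prod.mk_mul_mk, one_mul, mul_one]
      rw [← hE1, ← hE2, Prod.mk.eta, MulEquiv.symm_apply_apply]
    let κ' : (ZMod (Q * M₂))ˣ →* Λ :=
      κQ.comp (ZMod.unitsMap (dvd_mul_right Q M₂)) * κ₂.comp (ZMod.unitsMap (dvd_mul_left M₂ Q))
    let θ' : (ZMod M₀)ˣ →* Λ := (κ' * κ').comp (ZMod.unitsMap h₂)
    have hcomp : ∀ {a b c : ℕ} (hab : a ∣ b) (hbc : b ∣ c) (u : (ZMod c)ˣ),
        ZMod.unitsMap hab (ZMod.unitsMap hbc u) = ZMod.unitsMap (hab.trans hbc) u :=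
      fun hab hbc u => by rw [← MonoidHom.comp_apply, ZMod.unitsMap_comp]
    have hθθ' : ∀ a, θ a = θ' a * κq (ZMod.unitsMap hd a) ^ 2 := fun a => by
      simp only [θ', κ', MonoidHom.comp_apply, MonoidHom.mul_apply, hθ, hsplit, hcomp]
      ring
    have h' : M₀ ∣ M * q := h.trans (dvd_mul_right M q)
    have hMqM' : M * q ∣ M' := (mul_dvd_mul_left M (dvd_mul_right q M₂)).trans hM'
    have : NeZero (M * q) := ⟨fun h0 => NeZero.ne M' (zero_dvd_iff.mp (h0 ▸ hMqM'))⟩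
    -- the twist or the degeneracy map at `q`
    obtain ⟨Θ, hΘinj, hΘ, hΘU⟩ : ∃ Θ : H1 (levelChar h θ) A →ₗ[Λ] H1 (levelChar h' θ') A,
        Function.Injective Θ ∧ (∀ (l : ℕ) (hl : l.Prime) (hlM : ¬ l ∣ M) (hlM' : ¬ l ∣ M * q)
          (hlq : l.Coprime q) (x : H1 (levelChar h θ) A),
          heckeT h' θ' A hl hlM' (Θ x) =
            κq (ZMod.unitOfCoprime l hlq) • Θ (heckeT h θ A hl hlM x)) ∧
        ∀ (r : ℕ) [NeZero r] (hrM : r ∣ M) (hrq : r.Coprime q) (x : H1 (levelChar h θ) A),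
          heckeU h' θ' A (hrM.trans (dvd_mul_right M q)) (Θ x) =
            κq (ZMod.unitOfCoprime r hrq) • Θ (heckeU h θ A hrM x) := by
      by_cases htriv : ∀ a, κq a = 1
      · have hθeq : θ = θ' := MonoidHom.ext fun a => by
          rw [hθθ', htriv, one_pow, mul_one]
        subst hθeq
        refine ⟨degI h h' θ' A (dvd_mul_right M q), degI_injective h h' θ' A _,
          fun l hl hlM hlM' hlq x => ?_, fun r _ hrM hrq x => ?_⟩
        · rw [htriv, one_smul, degI_heckeT h h' θ' (dvd_mul_right M q) hl hlM']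
        · rw [htriv, one_smul, degI_heckeU h h' θ' (dvd_mul_right M q) hrM]
      · refine ⟨twistH1 h h' hd dvd_rfl κq hθθ' A, ?_,
          fun l hl hlM hlM' hlq x => twistH1_heckeT h h' hd dvd_rfl κq hθθ' hl hlM' hlM hlq x,
          fun r _ hrM hrq x => twistH1_heckeU h h' hd dvd_rfl κq hθθ' A hrM _ hrq x⟩
        have hqM₁R : ¬ q ∣ Q * M₂ * R := fun hd' => (hq.dvd_mul.mp hd').elim hqQM₂ hqR
        refine twistH1_injective (M₁ := Q * M₂ * R) h h' hd (by rw [hR, hQ₀]; ring) hqM₁R dvd_rfl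
          κq hθθ' (fun g hg => ?_) ?_ A
        · have hu : ZMod.unitsMap h₂ (aUnit h g) = 1 := by
            rw [unitsMap_aUnit]
            refine Units.ext ?_
            rw [val_aUnit, Units.val_one]
            exact intCast_eq_one_of_dvd ((Dvd.intro (R : ℤ) (by push_cast; ring)).trans hg)
          simp only [θ', MonoidHom.comp_apply, hu, map_one]
        · push Not at htriv
          obtain ⟨a, ha⟩ := htriv
          exact ⟨a, fun h2 => ha (hκ _ h2)⟩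
    -- the rest of the modulus
    have hc : ∀ a, θ' a = algebraMap Λ Λ ((κ' * κ') (ZMod.unitsMap h₂ a)) := fun a => rfl
    obtain ⟨Φ, hΦinj, hΦ, hΦU⟩ := ih M₂ hlt (Q * M₂) Q (M * q) (h₂.trans h') rfl (R * q * q)
      (by rw [hR, hQ₀]; ring)
      (Nat.Coprime.mul_right (Nat.Coprime.mul_right (hcop.coprime_dvd_left h₂) hqQ.symm)
        hqQ.symm)
      (hsq.squarefree_of_dvd h₂) κQ κ₂ (κ' * κ')
      (fun a => by simp only [κ', MonoidHom.mul_apply, MonoidHom.comp_apply]; ring)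
      (fun a ha => hκ _ ha) M' hQ (by rwa [mul_assoc])
    refine ⟨Φ.comp ((levelChangeLin A h' h₂ hc).toLinearMap.comp Θ),
      hΦinj.comp ((levelChangeLin A h' h₂ hc).injective.comp hΘinj),
      fun l hl hlM hlM' hl₁ x => ?_, fun r _ hrM hrM' hr₁ x => ?_⟩
    · have hlq : l.Coprime q := hl₁.coprime_dvd_right (dvd_mul_right q M₂)
      have hl₂ : l.Coprime M₂ := hl₁.coprime_dvd_right (dvd_mul_left M₂ q)
      have hlMq : ¬ l ∣ M * q := fun hd' => hlM' (hd'.trans hMqM')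
      simp only [LinearMap.comp_apply, LinearEquiv.coe_coe]
      rw [hΦ l hl hlMq hlM' hl₂, ← levelChangeLin_heckeT A h' h₂ hc hl hlMq,
        hΘ l hl hlM hlMq hlq, map_smul, map_smul, smul_smul, hsplit,
        unitsMap_unitOfCoprime _ hlq, unitsMap_unitOfCoprime _ hl₂, mul_comm (κ₂ _) (κq _)]
    · have hrq : r.Coprime q := hr₁.coprime_dvd_right (dvd_mul_right q M₂)
      have hr₂ : r.Coprime M₂ := hr₁.coprime_dvd_right (dvd_mul_left M₂ q)
      simp only [LinearMap.comp_apply, LinearEquiv.coe_coe]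
      rw [hΦU r (hrM.trans (dvd_mul_right M q)) hrM' hr₂, ← levelChangeLin_heckeU A h' h₂ hc,
        hΘU r hrM hrq, map_smul, map_smul, smul_smul, hsplit,
        unitsMap_unitOfCoprime _ hrq, unitsMap_unitOfCoprime _ hr₂, mul_comm (κ₂ _) (κq _)]

/-- **The twist by `κ`, with its effect on `U_r` for `r` prime to `M₀`.** -/
theorem exists_twist_heckeU {M₀ M : ℕ} (h : M₀ ∣ M) (R : ℕ) (hR : M = M₀ * R)
    (hcop : M₀.Coprime R) (hsq : Squarefree M₀) (κ θ : (ZMod M₀)ˣ →* Λ)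
    (hθ : ∀ a, θ a = κ a ^ 2) (hκ : ∀ a, κ a ^ 2 = 1 → κ a = 1) (N : ℕ) [NeZero N]
    (hN : M * M₀ ∣ N) :
    ∃ Φ : H1 (levelChar h θ) A →ₗ[Λ] (Additive (Gamma0 N) →+ A), Function.Injective Φ ∧
      (∀ (l : ℕ) (hl : l.Prime) (hlM : ¬ l ∣ M) (hlN : ¬ l ∣ N)
        (hlM₀ : l.Coprime M₀) (x : H1 (levelChar h θ) A),
        Periods.heckeHomT Λ N hl hlN (Φ x) =
          κ (ZMod.unitOfCoprime l hlM₀) • Φ (heckeT h θ A hl hlM x)) ∧
      ∀ (r : ℕ) [NeZero r] (hrM : r ∣ M) (hrN : r ∣ N) (hrM₀ : r.Coprime M₀)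
        (x : H1 (levelChar h θ) A),
        Periods.heckeHomU Λ N hrN (Φ x) =
          κ (ZMod.unitOfCoprime r hrM₀) • Φ (heckeU h θ A hrM x) := by
  obtain ⟨Φ, hinj, hT, hU⟩ := exists_twist_part A M₀ M₀ 1 M h (one_mul M₀).symm R hR hcop hsq 1 κ θ
    (fun a => by rw [hθ, MonoidHom.one_apply, one_mul, ZMod.unitsMap_self, MonoidHom.id_apply]) hκ N (one_dvd N) hN
  have h11 : (1 : (ZMod 1)ˣ →* Λ) * 1 = 1 := one_mul 1
  revert Φ hinj hT hU
  rw [h11]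
  intro Φ hinj hT hU
  let J : H1 (levelChar (one_dvd N) (1 : (ZMod 1)ˣ →* Λ)) A →ₗ[Λ]
      (Additive (Gamma0 N) →+ A) := h1ToHom (one_dvd N) A
  let Φ' := J.comp Φ
  refine ⟨Φ', (h1ToHom_injective (one_dvd N) A).comp hinj,
    fun l hl hlM hlN hlM₀ x => ?_, fun r _ hrM hrN hrM₀ x => ?_⟩
  · rw [LinearMap.comp_apply, LinearMap.comp_apply, ← h1ToHom_heckeT, hT l hl hlM hlN hlM₀,
      map_smul]
  · rw [LinearMap.comp_apply, LinearMap.comp_apply, ← h1ToHom_heckeU, hU r hrM hrN hrM₀,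
      map_smul]

/-- **The twist by `κ`.** -/
theorem exists_twist (M₀ : ℕ) : ∀ (M : ℕ) (h : M₀ ∣ M) (R : ℕ), M = M₀ * R → M₀.Coprime R →
    Squarefree M₀ → ∀ (κ θ : (ZMod M₀)ˣ →* Λ), (∀ a, θ a = κ a ^ 2) →
    (∀ a, κ a ^ 2 = 1 → κ a = 1) → ∀ (N : ℕ) [NeZero N], M * M₀ ∣ N →
    ∃ Φ : H1 (levelChar h θ) A →ₗ[Λ] (Additive (Gamma0 N) →+ A), Function.Injective Φ ∧
      ∀ (l : ℕ) (hl : l.Prime) (hlM : ¬ l ∣ M) (hlN : ¬ l ∣ N)
        (hlM₀ : l.Coprime M₀) (x : H1 (levelChar h θ) A),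
        Periods.heckeHomT Λ N hl hlN (Φ x) =
          κ (ZMod.unitOfCoprime l hlM₀) • Φ (heckeT h θ A hl hlM x) := by
  intro M h R hR hcop hsq κ θ hθ hκ N _ hN
  obtain ⟨Φ, hinj, hT, -⟩ := exists_twist_heckeU A h R hR hcop hsq κ θ hθ hκ N hN
  exact ⟨Φ, hinj, hT⟩

end FermatAgent.RTLift.Systems
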