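import Mathlib
import Fermat.Agent.RTLift.Systems.Iterate
import Fermat.Agent.RTLift.Systems.Cusp
import Fermat.Agent.RTLift.Systems.HeckeAction

/-!
The Hecke operators with character `κ²` are semisimple away from the Eisenstein classes, by
twisting with `κ` to trivial character.
-/

set_option autoImplicit false

noncomputable section

namespace FermatAgent.RTLift.Systems

open scoped MatrixGroups
open CongruenceSubgroup FermatAgent.RTLift.Modules ModularCurve.Period CuspForm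

variable {M M₀ N : ℕ} [NeZero N] (h : M₀ ∣ M)

omit [NeZero N] in
theorem unitOfCoprime_eq_one (hM : M₀ ∣ N) {l : ℕ} (hl : (l : ZMod N) = 1) (hlM₀ : l.Coprime M₀) :
    ZMod.unitOfCoprime l hlM₀ = 1 := by
  refine Units.ext ?_
  rw [ZMod.coe_unitOfCoprime, Units.val_one, ← map_natCast (ZMod.castHom hM (ZMod M₀)), hl,
    map_one]

omit [NeZero N] in
/-- A linear map intertwining two endomorphisms intertwines their polynomials. -/
theorem apply_aeval_of_comm {Λ H H' : Type*} [CommRing Λ] [AddCommGroup H] [Module Λ H]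
    [AddCommGroup H'] [Module Λ H'] {f : Module.End Λ H} {g : Module.End Λ H'} (u : H →ₗ[Λ] H')
    (hu : ∀ y, u (f y) = g (u y)) (Q : Polynomial Λ) (y : H) :
    u (Polynomial.aeval f Q y) = Polynomial.aeval g Q (u y) := by
  induction Q using Polynomial.induction_on generalizing y with
  | C c => simp [Module.algebraMap_end_apply]
  | add P Q hP hQ => simp [hP, hQ]
  | monomial n c hn =>
    rw [pow_succ, ← mul_assoc, map_mul, map_mul _ _ Polynomial.X, Polynomial.aeval_X,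
      Polynomial.aeval_X, Module.End.mul_apply, Module.End.mul_apply, hn, hu]

omit [NeZero N] in
/-- Commuting endomorphisms killed on a stable subspace by squarefree polynomials generate an
algebra acting semisimply on it. -/
theorem isSemisimple_restrict_of_mem_adjoin {K V : Type*} [Field K] [PerfectField K]
    [AddCommGroup V] [Module K V] [FiniteDimensional K V] {W : Submodule K V}
    {ops : Set (Module.End K V)} (hcomm : ∀ T ∈ ops, ∀ T' ∈ ops, T * T' = T' * T)
    (hstab : ∀ T ∈ ops, ∀ y ∈ W, T y ∈ W)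
    (hQ : ∀ T ∈ ops, ∃ Q : Polynomial K, Squarefree Q ∧ ∀ y ∈ W, Polynomial.aeval T Q y = 0)
    {t : Module.End K V} (ht : t ∈ Algebra.adjoin K ops) :
    ∃ hW : ∀ y ∈ W, t y ∈ W, Module.End.IsSemisimple (t.restrict hW) := by
  have := Algebra.isMulCommutative_adjoin K hcomm
  induction ht using Algebra.adjoin_induction with
  | mem T hT =>
    obtain ⟨Q, hQ, hQ0⟩ := hQ T hT
    exact ⟨hstab T hT, Module.End.isSemisimple_of_squarefree_aeval_eq_zero hQ
      (LinearMap.ext fun y => Subtype.ext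
        ((apply_aeval_of_comm W.subtype (fun _ => rfl) Q y).trans (hQ0 y y.2)))⟩
  | algebraMap r =>
    have hW : ∀ y ∈ W, algebraMap K (Module.End K V) r y ∈ W := fun y hy => by
      rw [Module.algebraMap_end_apply]
      exact Submodule.smul_mem _ r hy
    refine ⟨hW, Module.End.isSemisimple_of_squarefree_aeval_eq_zero
      (Polynomial.irreducible_X_sub_C r).squarefree (LinearMap.ext fun y => Subtype.ext ?_)⟩
    simp [Module.algebraMap_end_apply]
  | add s t hs ht hs' ht' =>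
    obtain ⟨hWs, hss⟩ := hs'
    obtain ⟨hWt, htt⟩ := ht'
    have hst : ∀ y, s (t y) = t (s y) := fun y =>
      LinearMap.congr_fun (congrArg Subtype.val (this.is_comm.comm ⟨s, hs⟩ ⟨t, ht⟩)) y
    have hW : ∀ y ∈ W, (s + t) y ∈ W := fun y hy => add_mem (hWs y hy) (hWt y hy)
    have e : (s + t).restrict hW = (s.restrict hWs + t.restrict hWt : Module.End K W) :=
      LinearMap.ext fun y => Subtype.ext rfl
    refine ⟨hW, ?_⟩
    rw [e]
    exact Module.End.IsSemisimple.add_of_commute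
      (LinearMap.ext fun y => Subtype.ext (hst y)) hss htt
  | mul s t hs ht hs' ht' =>
    obtain ⟨hWs, hss⟩ := hs'
    obtain ⟨hWt, htt⟩ := ht'
    have hst : ∀ y, s (t y) = t (s y) := fun y =>
      LinearMap.congr_fun (congrArg Subtype.val (this.is_comm.comm ⟨s, hs⟩ ⟨t, ht⟩)) y
    have hW : ∀ y ∈ W, (s * t) y ∈ W := fun y hy => hWs _ (hWt y hy)
    have e : (s * t).restrict hW = (s.restrict hWs * t.restrict hWt : Module.End K W) :=
      LinearMap.ext fun y => Subtype.ext rfl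
    refine ⟨hW, ?_⟩
    rw [e]
    exact Module.End.IsSemisimple.mul_of_commute
      (LinearMap.ext fun y => Subtype.ext (hst y)) hss htt

section Semisimple

variable {K : Type*} [Field K] [CharZero K] (θ : (ZMod M₀)ˣ →* K)

omit [NeZero N] [CharZero K] in
/-- The image of `T_l₀ - (l₀ + 1)`. -/
def eisRange {l₀ : ℕ} (hl₀ : l₀.Prime) (hl₀M : ¬ l₀ ∣ M) :
    Submodule K (H1 (levelChar h θ) K) :=
  LinearMap.range (heckeT h θ K hl₀ hl₀M - ((l₀ + 1 : ℕ) : K) • 1)

variable {θ} {κ : (ZMod M₀)ˣ →* K} (hM : M * M₀ ∣ N) (hsq : Squarefree M₀)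
  (hcop : M₀.Coprime (M / M₀)) (hθ : ∀ a, θ a = κ a ^ 2) (hκ : ∀ a, κ a ^ 2 = 1 → κ a = 1)
  {S : Set ℕ} (hS : ∀ q : ℕ, q.Prime → q ∣ N → q ∈ S) {l₀ : ℕ} (hl₀ : l₀.Prime)
  (hl₀M : ¬ l₀ ∣ M) (hl₀S : l₀ ∉ S) (hl₀1 : (l₀ : ZMod N) = 1)

include hM hsq hcop hθ hκ hS hl₀S hl₀1 in
/-- Each `T_l` is killed on the image of `T_l₀ - (l₀ + 1)` by a squarefree polynomial. -/
theorem exists_squarefree_heckeT {l : ℕ} (hl : l.Prime) (hlM : ¬ l ∣ M) (hlS : l ∉ S) :
    ∃ Q : Polynomial K, Squarefree Q ∧ ∀ y ∈ eisRange h θ hl₀ hl₀M,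
      Polynomial.aeval (heckeT h θ K hl hlM) Q y = 0 := by
  have hMN : M ∣ N := (dvd_mul_right M M₀).trans hM
  have hM₀N : M₀ ∣ N := h.trans hMN
  have hlN : ¬ l ∣ N := fun hd => hlS (hS l hl hd)
  have hl₀N : ¬ l₀ ∣ N := fun hd => hl₀S (hS l₀ hl₀ hd)
  have hlM₀ : l.Coprime M₀ := hl.coprime_iff_not_dvd.mpr fun hd => hlN (hd.trans hM₀N)
  obtain ⟨Φ, hΦinj, hΦ⟩ := exists_twist K M₀ M h (M / M₀) (Nat.mul_div_cancel' h).symm hcop hsq
    κ θ hθ hκ N hM
  obtain ⟨P, hP, hPt⟩ := exists_squarefree_heckeHomT (Λ := K) (A := K) hS hl hlN hlS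
  set c := κ (ZMod.unitOfCoprime l hlM₀)
  have hc : IsUnit c := (Group.isUnit _).map κ
  have hPK : Squarefree (P.map (Int.castRingHom K)) := by
    rw [← PerfectField.separable_iff_squarefree] at hP ⊢
    have := hP.map (f := algebraMap ℚ K)
    rwa [Polynomial.map_map, RingHom.ext_int ((algebraMap ℚ K).comp (Int.castRingHom ℚ))
      (Int.castRingHom K)] at this
  refine ⟨(P.map (Int.castRingHom K)).comp (Polynomial.C c * Polynomial.X), ?_, fun y hy => ?_⟩
  · rw [← PerfectField.separable_iff_squarefree] at hPK ⊢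
    rw [Polynomial.separable_def] at hPK ⊢
    rw [Polynomial.derivative_comp, Polynomial.derivative_C_mul, Polynomial.derivative_X, mul_one]
    exact (isCoprime_mul_unit_left_right (Polynomial.isUnit_C.mpr hc) _ _).mpr
      (hPK.map (Polynomial.compRingHom (Polynomial.C c * Polynomial.X)))
  obtain ⟨z, rfl⟩ := hy
  refine hΦinj (Eq.trans ?_ (map_zero Φ).symm)
  rw [Polynomial.aeval_comp, map_mul, Polynomial.aeval_C, Polynomial.aeval_X,
    apply_aeval_of_comm (g := Periods.heckeHomT K N hl hlN) Φ (fun w => ?_), ← algebraMap_int_eq,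
    Polynomial.aeval_map_algebraMap]
  · refine hPt _ ?_
    intro γ hγ
    have h1 := isParabolicHom_sub hl₀ hl₀N hl₀1 (Φ z) γ hγ
    have hcop₀ : l₀.Coprime M₀ := hl₀.coprime_iff_not_dvd.mpr fun hd => hl₀N (hd.trans hM₀N)
    rw [AddMonoidHom.sub_apply,
      show Periods.heckeHomT ℕ N hl₀ hl₀N (Φ z) = Periods.heckeHomT K N hl₀ hl₀N (Φ z) from rfl,
      hΦ l₀ hl₀ hl₀M hl₀N hcop₀, unitOfCoprime_eq_one hM₀N hl₀1 hcop₀, map_one, one_smul] at h1
    rw [LinearMap.sub_apply, LinearMap.smul_apply, Module.End.one_apply, map_sub, map_smul,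
      Nat.cast_smul_eq_nsmul]
    exact h1
  · rw [Module.End.mul_apply, Module.algebraMap_end_apply, map_smul, hΦ l hl hlM hlN hlM₀]

omit [NeZero N] [CharZero K] in
/-- The Hecke operators away from `S`. -/
def heckeOps (θ : (ZMod M₀)ˣ →* K) (S : Set ℕ) : Set (Module.End K (H1 (levelChar h θ) K)) :=
  {T | ∃ (l : ℕ) (hl : l.Prime) (hlM : ¬ l ∣ M), l ∉ S ∧ T = heckeT h θ K hl hlM}

include hM hsq hcop hθ hκ hS hl₀S hl₀1 in
/-- **Semisimplicity**: the algebra of Hecke operators acts semisimply on the image of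
`T_l₀ - (l₀ + 1)`. -/
theorem isSemisimple_restrict_eisRange {t : Module.End K (H1 (levelChar h θ) K)}
    (ht : t ∈ Algebra.adjoin K (heckeOps h θ S)) :
    ∃ hW : ∀ y ∈ eisRange h θ hl₀ hl₀M, t y ∈ eisRange h θ hl₀ hl₀M,
      Module.End.IsSemisimple (t.restrict hW) := by
  have hMN : M ∣ N := (dvd_mul_right M M₀).trans hM
  have : NeZero M := ⟨fun h0 => NeZero.ne N (zero_dvd_iff.mp (h0 ▸ hMN))⟩
  have hθ1 : θ (-1) = 1 := by rw [hθ, ← map_pow, neg_one_sq, map_one]
  have hfin := (isGoodChar_levelChar h hθ1 (IsUnit.mk0 (2 : K) two_ne_zero)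
    (Or.inl (IsUnit.mk0 (3 : K) three_ne_zero))).finite_h1 (A := K)
  refine isSemisimple_restrict_of_mem_adjoin ?_ ?_ ?_ ht
  · rintro _ ⟨l, hl, hlM, -, rfl⟩ _ ⟨l', hl', hlM', -, rfl⟩
    exact LinearMap.ext fun y => heckeT_comm h θ hl hlM hl' hlM' y
  · rintro _ ⟨l, hl, hlM, -, rfl⟩ _ ⟨z, rfl⟩
    refine ⟨heckeT h θ K hl hlM z, ?_⟩
    simp only [LinearMap.sub_apply, LinearMap.smul_apply, Module.End.one_apply, map_sub,
      map_smul, heckeT_comm h θ hl₀ hl₀M hl hlM z]
  · rintro _ ⟨l, hl, hlM, hlS, rfl⟩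
    exact exists_squarefree_heckeT h hM hsq hcop hθ hκ hS hl₀ hl₀M hl₀S hl₀1 hl hlM hlS

include hM hsq hcop hθ hκ hS hl₀S hl₀1 in
/-- A Hecke operator nilpotent on a class in the image of `T_l₀ - (l₀ + 1)` kills it. -/
theorem eq_zero_of_pow_apply {t : Module.End K (H1 (levelChar h θ) K)}
    (ht : t ∈ Algebra.adjoin K (heckeOps h θ S)) {y : H1 (levelChar h θ) K}
    (hy : y ∈ eisRange h θ hl₀ hl₀M) {n : ℕ} (hn : (t ^ n) y = 0) : t y = 0 := by
  obtain ⟨hW, hss⟩ :=
    isSemisimple_restrict_eisRange h hM hsq hcop hθ hκ hS hl₀ hl₀M hl₀S hl₀1 ht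
  have hmem : (⟨y, hy⟩ : eisRange h θ hl₀ hl₀M) ∈
      Module.End.genEigenspace (t.restrict hW) 0 (n + 1 : ℕ) := by
    rw [Module.End.genEigenspace_zero_nat, LinearMap.mem_ker]
    refine Subtype.ext ?_
    rw [Module.End.pow_restrict, LinearMap.coe_restrict_apply, pow_succ', Module.End.mul_apply, hn,
      map_zero, ZeroMemClass.coe_zero]
  rw [hss.isFinitelySemisimple.genEigenspace_eq_eigenspace 0 (by exact_mod_cast n.succ_pos),
    Module.End.mem_eigenspace_iff, zero_smul] at hmem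
  exact congrArg Subtype.val hmem

end Semisimple

end FermatAgent.RTLift.Systems
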