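import Mathlib
import Fermat.Agent.RTLift.Systems.Change
import Fermat.Agent.RTLift.Systems.Main

/-!
Reduction of cohomology with coefficients in a reduced ring at a minimal prime, and translation
of Hecke polynomials.
-/

set_option autoImplicit false

noncomputable section

namespace FermatAgent.RTLift.Systems

open scoped MatrixGroups
open CongruenceSubgroup FermatAgent.RTLift.Modules

/-- In a reduced Noetherian ring a minimal prime is killed by an element outside it. -/
theorem exists_mul_mem_eq_zero {Λ : Type*} [CommRing Λ] [IsNoetherianRing Λ] [IsReduced Λ]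
    {P : Ideal Λ} (hP : P ∈ minimalPrimes Λ) : ∃ e ∉ P, ∀ a ∈ P, e * a = 0 := by
  classical
  let others := (minimalPrimes.finite_of_isNoetherianRing Λ).toFinset.erase P
  have hne : ∀ Q ∈ others, ∃ a ∈ Q, a ∉ P := fun Q hQ => by
    rw [Finset.mem_erase, Set.Finite.mem_toFinset] at hQ
    by_contra! hle
    exact hQ.1 (le_antisymm hle (hP.2 ⟨hQ.2.1.1, bot_le⟩ hle))
  choose a ha haP using hne
  have := hP.1.1
  refine ⟨∏ Q ∈ others.attach, a Q.1 Q.2, fun h => ?_, fun b hb => ?_⟩
  · obtain ⟨Q, -, hQ⟩ := (Ideal.IsPrime.prod_mem_iff (p := P)).mp h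
    exact haP Q.1 Q.2 hQ
  · have hnil : (∏ Q ∈ others.attach, a Q.1 Q.2) * b ∈ nilradical Λ := by
      rw [nilradical, ← Ideal.sInf_minimalPrimes, Ideal.mem_sInf]
      intro Q hQ
      rcases eq_or_ne Q P with rfl | hne
      · exact Ideal.mul_mem_left _ _ hb
      · refine Ideal.mul_mem_right _ _ (Ideal.mem_of_dvd _ (Finset.dvd_prod_of_mem _
          (Finset.mem_attach _ ⟨Q, ?_⟩)) (ha Q _))
        rw [Finset.mem_erase, Set.Finite.mem_toFinset]
        exact ⟨hne, hQ⟩
    exact mem_nilradical.mp hnil |>.eq_zero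

variable {Λ : Type} [CommRing Λ] {M M₀ : ℕ} (h : M₀ ∣ M) (θ : (ZMod M₀)ˣ →* Λ)
  (K : Type) [Field K] [Algebra Λ K]

/-- The character with values in `K`. -/
abbrev mapChar : (ZMod M₀)ˣ →* K := (algebraMap Λ K : Λ →* K).comp θ

theorem mapChar_eq (a : (ZMod M₀)ˣ) :
    mapChar θ K a = algebraMap Λ K (θ (ZMod.unitsMap (dvd_refl M₀) a)) := by
  rw [ZMod.unitsMap_self]; rfl

/-- Reduction of coefficients to `K`. -/
def toFieldH1 : H1 (levelChar h θ) Λ →+ H1 (levelChar h (mapChar θ K)) K :=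
  (levelChange h (dvd_refl M₀) (mapChar_eq θ K) K).toAddMonoidHom.comp
    (h1Map (Algebra.linearMap Λ K)).toAddMonoidHom

theorem toFieldH1_smul (c : Λ) (x : H1 (levelChar h θ) Λ) :
    toFieldH1 h θ K (c • x) = algebraMap Λ K c • toFieldH1 h θ K x := by
  simp only [toFieldH1, AddMonoidHom.comp_apply, LinearMap.toAddMonoidHom_coe, map_smul]
  exact h1Change_smul _ _ c _

theorem toFieldH1_heckeT {l : ℕ} (hl : l.Prime) (hlM : ¬ l ∣ M) (x : H1 (levelChar h θ) Λ) :
    toFieldH1 h θ K (heckeT h θ Λ hl hlM x) =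
      heckeT h (mapChar θ K) K hl hlM (toFieldH1 h θ K x) := by
  have : NeZero l := ⟨hl.ne_zero⟩
  refine Eq.trans ?_ (levelChange_heckeT h (dvd_refl M₀) (mapChar_eq θ K) hl hlM _)
  exact congrArg (levelChange h (dvd_refl M₀) (mapChar_eq θ K) K)
    (CrossCorr.onH1_h1Map (tCross h θ hl hlM) (Algebra.linearMap Λ K) x).symm

theorem toFieldH1_heckeU {q : ℕ} [NeZero q] (hq : q ∣ M) (x : H1 (levelChar h θ) Λ) :
    toFieldH1 h θ K (heckeU h θ Λ hq x) =
      heckeU h (mapChar θ K) K hq (toFieldH1 h θ K x) := by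
  refine Eq.trans ?_ (levelChange_heckeU h (dvd_refl M₀) (mapChar_eq θ K) hq _)
  exact congrArg (levelChange h (dvd_refl M₀) (mapChar_eq θ K) K)
    (CrossCorr.onH1_h1Map (uCross h θ hq) (Algebra.linearMap Λ K) x).symm

/-- A class vanishing over the fraction field of the quotient by a minimal prime of a reduced
ring is killed by an element outside the prime. -/
theorem exists_smul_eq_zero [IsNoetherianRing Λ] [IsReduced Λ] {P : Ideal Λ}
    (hP : P ∈ minimalPrimes Λ) (hker : RingHom.ker (algebraMap Λ K) = P)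
    (hfrac : ∀ z : K, ∃ b c : Λ, c ∉ P ∧ z * algebraMap Λ K c = algebraMap Λ K b)
    {x : H1 (levelChar h θ) Λ} (hx : toFieldH1 h θ K x = 0) : ∃ c ∉ P, c • x = 0 := by
  obtain ⟨e, he, heP⟩ := exists_mul_mem_eq_zero hP
  induction x using Submodule.Quotient.induction_on with
  | H f =>
    have h0 : h1Map (Algebra.linearMap Λ K)
        (Submodule.Quotient.mk f : H1 (levelChar h θ) Λ) = 0 :=
      (levelChange h (dvd_refl M₀) (mapChar_eq θ K) K).injective (hx.trans (map_zero _).symm)
    rw [h1Map_mk, Submodule.Quotient.mk_eq_zero] at h0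
    obtain ⟨z, hz⟩ := h0
    obtain ⟨b, c, hc, hzc⟩ := hfrac z
    have := hP.1.1
    refine ⟨e * c, fun hec => (this.mem_or_mem hec).elim he hc, ?_⟩
    rw [← Submodule.Quotient.mk_smul, Submodule.Quotient.mk_eq_zero]
    refine ⟨e * b, Subtype.ext (funext fun g => ?_)⟩
    have hg := congrFun (congrArg Subtype.val hz) g
    simp only [coboundary_apply, crossedMap_apply, Algebra.linearMap_apply,
      Algebra.smul_def] at hg
    have hmem : levelChar h θ g * b - b - c * (f : Gamma0 M → Λ) g ∈ P := by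
      rw [← hker, RingHom.mem_ker, map_sub, map_sub, map_mul, map_mul, ← hzc, ← hg]
      ring
    simp only [coboundary_apply, Submodule.coe_smul, Pi.smul_apply, smul_eq_mul]
    linear_combination heP _ hmem

variable {J : Type} (pr : J → Nat.Primes) {S : Set ℕ}

/-- Hecke polynomials away from `S` become elements of the algebra of Hecke operators. -/
theorem exists_adjoin_toFieldH1 (hS : ∀ j, (pr j : ℕ) ∉ S → ¬ (pr j : ℕ) ∣ M)
    {s : MvPolynomial J Λ}
    (hs : s ∈ Algebra.adjoin Λ (MvPolynomial.X '' {j | (pr j : ℕ) ∉ S})) :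
    ∃ t ∈ Algebra.adjoin K (heckeOps h (mapChar θ K) S), ∀ x,
      toFieldH1 h θ K (heckeHom h θ Λ pr s x) = t (toFieldH1 h θ K x) := by
  induction hs using Algebra.adjoin_induction with
  | mem s hs =>
    obtain ⟨j, hj, rfl⟩ := hs
    refine ⟨_, Algebra.subset_adjoin ⟨_, (pr j).2, hS j hj, hj, rfl⟩, fun x => ?_⟩
    rw [heckeHom_X, heckeOp_of_not_dvd h θ Λ (hS j hj), toFieldH1_heckeT]
  | algebraMap r =>
    refine ⟨_, Subalgebra.algebraMap_mem _ (algebraMap Λ K r), fun x => ?_⟩
    rw [AlgHom.commutes, Module.algebraMap_end_apply, toFieldH1_smul, Module.algebraMap_end_apply]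
  | add a b _ _ ha hb =>
    obtain ⟨s, hs, hs'⟩ := ha
    obtain ⟨t, ht, ht'⟩ := hb
    exact ⟨s + t, add_mem hs ht, fun x => by simp [hs', ht']⟩
  | mul a b _ _ ha hb =>
    obtain ⟨s, hs, hs'⟩ := ha
    obtain ⟨t, ht, ht'⟩ := hb
    exact ⟨s * t, mul_mem hs ht, fun x => by
      rw [map_mul, Module.End.mul_apply, hs', ht', Module.End.mul_apply]⟩

end FermatAgent.RTLift.Systems
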