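import Mathlib
import Fermat.Agent.RTLift.Systems.Coeff

/-!
An annihilator prime of a class gives a point of the twisted Hecke algebra: the functionals
`b ↦ Φ (b • x) γ` form an eigen homomorphism.
-/

set_option autoImplicit false

noncomputable section

namespace FermatAgent.RTLift.Systems

open scoped MatrixGroups
open CongruenceSubgroup FermatAgent.RTLift.Modules ModularCurve.Period CuspForm

variable {Λ : Type} [CommRing Λ] {M M₀ N : ℕ} (h : M₀ ∣ M)
  {J : Type} (pr : J → Nat.Primes) {θ κ : (ZMod M₀)ˣ →* Λ}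

theorem mapChar_sq (hθ : ∀ a, θ a = κ a ^ 2) (K : Type) [Field K] [Algebra Λ K]
    (a : (ZMod M₀)ˣ) : mapChar θ K a = mapChar κ K a ^ 2 := by
  simp [mapChar, hθ]

theorem mapChar_eq_one_of_sq (hκ : ∀ a, ∃ n : ℕ, Odd n ∧ κ a ^ n = 1) (K : Type) [Field K]
    [Algebra Λ K] (a : (ZMod M₀)ˣ) (ha : mapChar κ K a ^ 2 = 1) : mapChar κ K a = 1 := by
  obtain ⟨n, ⟨m, rfl⟩, hn⟩ := hκ a
  have h1 := congrArg (algebraMap Λ K) hn
  rw [map_pow, map_one, pow_succ, pow_mul] at h1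
  change (mapChar κ K a ^ 2) ^ m * mapChar κ K a = 1 at h1
  rwa [ha, one_pow, one_mul] at h1

omit [CommRing Λ] in
/-- The operator `T_l` commutes with additive maps of the values, over any scalars. -/
theorem heckeHomT_comp_apply {R R' A B : Type*} [CommRing R] [CommRing R'] [AddCommGroup A]
    [Module R A] [AddCommGroup B] [Module R' B] {l : ℕ} (hl : l.Prime) (hlN : ¬ l ∣ N)
    (u : A →+ B) (ψ : Additive (Gamma0 N) →+ A) (γ : Additive (Gamma0 N)) :
    Periods.heckeHomT R' N hl hlN (u.comp ψ) γ = u (Periods.heckeHomT R N hl hlN ψ γ) :=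
  DFunLike.congr_fun (Periods.heckeHomT_map (R := ℕ) N hl hlN u ψ) γ

/-- `C c * X j` acts as `c • T_l`, also after reduction to `K`. -/
theorem toFieldH1_C_mul_X (K : Type) [Field K] [Algebra Λ K] (c : Λ) (j : J)
    (hlM : ¬ (pr j : ℕ) ∣ M) (s : MvPolynomial J Λ) (x : H1 (levelChar h θ) Λ) :
    toFieldH1 h θ K (heckeHom h θ Λ pr (MvPolynomial.C c * MvPolynomial.X j * s) x) =
      algebraMap Λ K c • heckeT h (mapChar θ K) K (pr j).2 hlM
        (toFieldH1 h θ K (heckeHom h θ Λ pr s x)) := by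
  have hC : ∀ y, heckeHom h θ Λ pr (MvPolynomial.C c : MvPolynomial J Λ) y = c • y := fun y => by
    rw [← MvPolynomial.algebraMap_eq, AlgHom.commutes, Module.algebraMap_end_apply]
  have hX : ∀ y, heckeHom h θ Λ pr (MvPolynomial.X j : MvPolynomial J Λ) y =
      heckeT h θ Λ (pr j).2 hlM y := fun y =>
    LinearMap.congr_fun ((heckeHom_X h θ Λ pr j).trans (heckeOp_of_not_dvd h θ Λ hlM)) y
  rw [map_mul, map_mul, Module.End.mul_apply, Module.End.mul_apply, hC, hX]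
  exact (toFieldH1_smul h θ K c _).trans
    (congrArg (fun y => algebraMap Λ K c • y) (toFieldH1_heckeT h θ K (pr j).2 hlM _))

/-- The twist turns the action of `κ l T_l` into `T_l`. -/
theorem heckeHomT_twist_apply (K : Type) [Field K] [Algebra Λ K]
    (Φ : H1 (levelChar h (mapChar θ K)) K →ₗ[K] (Additive (Gamma0 N) →+ K))
    (j : J) (hlM : ¬ (pr j : ℕ) ∣ M) (hlN : ¬ (pr j : ℕ) ∣ N) (c : Λ)
    (hΦ : ∀ y, Periods.heckeHomT K N (pr j).2 hlN (Φ y) =
      algebraMap Λ K c • Φ (heckeT h (mapChar θ K) K (pr j).2 hlM y))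
    (s : MvPolynomial J Λ) (x : H1 (levelChar h θ) Λ) (γ : Additive (Gamma0 N)) :
    Periods.heckeHomT K N (pr j).2 hlN (Φ (toFieldH1 h θ K (heckeHom h θ Λ pr s x))) γ =
      Φ (toFieldH1 h θ K (heckeHom h θ Λ pr (MvPolynomial.C c * MvPolynomial.X j * s) x)) γ := by
  rw [toFieldH1_C_mul_X h pr K c j hlM s x, hΦ, map_smul]

variable [NeZero N]

/-- **An annihilator prime of a class gives a point.** -/
theorem exists_point_of_killed (hM : M * M₀ ∣ N) (hsq : Squarefree M₀)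
    (hcop : M₀.Coprime (M / M₀)) (hθ : ∀ a, θ a = κ a ^ 2)
    (hκ : ∀ a, ∃ n : ℕ, Odd n ∧ κ a ^ n = 1)
    {S : Set ℕ} (hS : ∀ q : ℕ, q.Prime → q ∣ N → q ∈ S)
    (hJ : ∀ l : ℕ, l.Prime → l ∉ S → ∃ j, (pr j : ℕ) = l)
    (D : Type) [CommRing D] [IsDomain D] [Algebra Λ D] [Algebra.IsIntegral Λ D]
    (σ : MvPolynomial J Λ →ₐ[Λ] D) (hσ : Function.Surjective σ) (x : H1 (levelChar h θ) Λ)
    (hx : ∀ s, σ s = 0 → heckeHom h θ Λ pr s x = 0)
    (K : Type) [Field K] [CharZero K] [Algebra Λ K]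
    (hK : RingHom.ker (algebraMap Λ K) = RingHom.ker (algebraMap Λ D))
    (hy : toFieldH1 h θ K x ≠ 0) {j₀ : J} (hj₀ : (pr j₀ : ℕ) ∉ S)
    (hj1 : ((pr j₀ : ℕ) : ZMod N) = 1) (hne : σ (MvPolynomial.X j₀) ≠ ((pr j₀ : ℕ) : D) + 1) :
    ∃ χ : heckeAlgebra N 2 S →+* D,
      ∀ (j : J) (hlN : ¬ (pr j : ℕ) ∣ N) (hlS : (pr j : ℕ) ∉ S)
        (hlM₀ : (pr j : ℕ).Coprime M₀),
        χ (heckeAlgebra.T (pr j).2 hlN hlS) =
          σ (MvPolynomial.C (κ (ZMod.unitOfCoprime (pr j) hlM₀)) * MvPolynomial.X j) := by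
  classical
  have hMN : M ∣ N := (dvd_mul_right M M₀).trans hM
  have hM₀N : M₀ ∣ N := h.trans hMN
  obtain ⟨Φ, hΦinj, hΦ⟩ := exists_twist K M₀ M h (M / M₀) (Nat.mul_div_cancel' h).symm hcop hsq
    (mapChar κ K) (mapChar θ K) (mapChar_sq hθ K) (mapChar_eq_one_of_sq hκ K) N hM
  -- the functionals
  let F : Additive (Gamma0 N) → MvPolynomial J Λ →ₗ[Λ] K := fun γ =>
    { toFun := fun s => Φ (toFieldH1 h θ K (heckeHom h θ Λ pr s x)) γ
      map_add' := fun s t => by simp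
      map_smul' := fun c s => by
        rw [map_smul, LinearMap.smul_apply, toFieldH1_smul, map_smul, RingHom.id_apply,
          AddMonoidHom.smul_apply, smul_eq_mul, Algebra.smul_def] }
  have hF : ∀ γ s t, σ s = σ t → F γ s = F γ t := fun γ s t hst => by
    rw [← sub_eq_zero, ← map_sub]
    change Φ (toFieldH1 h θ K (heckeHom h θ Λ pr (s - t) x)) γ = 0
    rw [hx _ (by rw [map_sub, hst, sub_self]), map_zero, map_zero, AddMonoidHom.zero_apply]
  let A := D →ₗ[Λ] K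
  let _ : Module D A :=
    { smul := fun b f => f.comp (LinearMap.mulLeft Λ b)
      one_smul := fun f => LinearMap.ext fun c => congrArg f (one_mul c)
      mul_smul := fun a b f => LinearMap.ext fun c => congrArg f (by
        change a * b * c = b * (a * c); ring)
      smul_zero := fun b => LinearMap.ext fun c => rfl
      smul_add := fun b f g => LinearMap.ext fun c => rfl
      add_smul := fun a b f => LinearMap.ext fun c => by
        change f ((a + b) * c) = f (a * c) + f (b * c)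
        rw [add_mul, map_add]
      zero_smul := fun f => LinearMap.ext fun c => by
        change f (0 * c) = 0
        rw [zero_mul, map_zero] }
  have hsmul : ∀ (b : D) (f : A) (c : D), (b • f) c = f (b * c) := fun _ _ _ => rfl
  have : SMulCommClass Λ ℚ K := ⟨fun a b c => by
    simp only [Algebra.smul_def]; ring⟩
  have : Module.IsTorsionFree D A := .of_smul_eq_zero fun b f hbf => by
    refine or_iff_not_imp_left.mpr fun hb => LinearMap.ext fun c => ?_
    obtain ⟨r, hr, hr0⟩ : ∃ r : Λ, algebraMap Λ D r ∈ Ideal.span {b} ∧ algebraMap Λ D r ≠ 0 := by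
      have : (⊥ : Ideal D).IsPrime := Ideal.isPrime_bot
      obtain ⟨-, r, hr, hr'⟩ := SetLike.lt_iff_le_and_exists.mp
        (Ideal.comap_lt_comap_of_integral_mem_sdiff (R := Λ) (bot_le : (⊥ : Ideal D) ≤ Ideal.span {b})
          (x := b) ⟨Ideal.subset_span rfl, hb⟩ (Algebra.IsIntegral.isIntegral b))
      exact ⟨r, hr, hr'⟩
    obtain ⟨b', hb'⟩ := Ideal.mem_span_singleton.mp hr
    have h1 := LinearMap.congr_fun hbf (b' * c)
    rw [hsmul, ← mul_assoc, ← hb', ← Algebra.smul_def, map_smul, LinearMap.zero_apply,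
      Algebra.smul_def, mul_eq_zero] at h1
    refine h1.resolve_left fun h2 => hr0 ?_
    rwa [← RingHom.mem_ker, ← hK, RingHom.mem_ker]
  let ψ : Additive (Gamma0 N) →+ A := AddMonoidHom.mk' (fun γ =>
    { toFun := fun b => F γ (Function.surjInv hσ b)
      map_add' := fun b c => by
        rw [← map_add]
        exact hF γ _ _ (by simp [Function.surjInv_eq hσ])
      map_smul' := fun r b => by
        rw [RingHom.id_apply, ← map_smul]
        exact hF γ _ _ (by simp [Function.surjInv_eq hσ]) })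
    fun γ δ => LinearMap.ext fun b => map_add (Φ _) γ δ
  have hψ : ∀ γ s, ψ γ (σ s) = Φ (toFieldH1 h θ K (heckeHom h θ Λ pr s x)) γ := fun γ s =>
    hF γ _ s (Function.surjInv_eq hσ _)
  have hlift : ∀ l, l.Prime → l ∉ S → ∃ j, (pr j : ℕ) = l := hJ
  let a' : ℕ → D := fun l =>
    if hl : l.Prime ∧ l ∉ S ∧ l.Coprime M₀ then
      σ (MvPolynomial.C (κ (ZMod.unitOfCoprime l hl.2.2)) *
        MvPolynomial.X (hlift l hl.1 hl.2.1).choose)
    else 0
  have hop : ∀ (l : ℕ) (hl : l.Prime) (hlN : ¬ l ∣ N) (hlS : l ∉ S) (hlM₀ : l.Coprime M₀) (j : J),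
      (pr j : ℕ) = l →
      Periods.heckeHomT D N hl hlN ψ =
        σ (MvPolynomial.C (κ (ZMod.unitOfCoprime l hlM₀)) * MvPolynomial.X j) • ψ := by
    intro l hl hlN hlS hlM₀ j hj
    subst hj
    have hlM : ¬ (pr j : ℕ) ∣ M := fun hd => hlN (hd.trans hMN)
    refine AddMonoidHom.ext fun γ => LinearMap.ext fun b => ?_
    obtain ⟨s, rfl⟩ := hσ b
    have h1 : (LinearMap.applyₗ (R := Λ) (σ s)).toAddMonoidHom.comp ψ =
        Φ (toFieldH1 h θ K (heckeHom h θ Λ pr s x)) := AddMonoidHom.ext fun δ => hψ δ s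
    have h2 := heckeHomT_comp_apply (R := D) (R' := K) hl hlN
      (LinearMap.applyₗ (R := Λ) (σ s)).toAddMonoidHom ψ γ
    rw [h1] at h2
    have h3 : Periods.heckeHomT K N hl hlN (Φ (toFieldH1 h θ K (heckeHom h θ Λ pr s x))) γ =
        Periods.heckeHomT D N hl hlN ψ γ (σ s) := h2.trans (LinearMap.applyₗ_apply_apply _ _)
    rw [AddMonoidHom.smul_apply, hsmul, ← map_mul, hψ]
    exact h3.symm.trans (heckeHomT_twist_apply h pr K Φ j hlM hlN _
      (fun y => hΦ (pr j) hl hlM hlN hlM₀ y) s x γ)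
  have heig : ∀ (l : ℕ) (hl : l.Prime) (hlN : ¬ l ∣ N), l ∉ S →
      Periods.heckeHomT D N hl hlN ψ = a' l • ψ := by
    intro l hl hlN hlS
    have hlM₀ : l.Coprime M₀ := hl.coprime_iff_not_dvd.mpr fun hd => hlN (hd.trans hM₀N)
    simp only [a', dif_pos (show l.Prime ∧ l ∉ S ∧ l.Coprime M₀ from ⟨hl, hlS, hlM₀⟩)]
    exact hop l hl hlN hlS hlM₀ _ (hlift l hl hlS).choose_spec
  have hl₀N : ¬ (pr j₀ : ℕ) ∣ N := fun hd => hj₀ (hS _ (pr j₀).2 hd)
  have hcop₀ : (pr j₀ : ℕ).Coprime M₀ :=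
    (pr j₀).2.coprime_iff_not_dvd.mpr fun hd => hl₀N (hd.trans hM₀N)
  have hpar : IsParabolicHom (Gamma0 N) ψ := by
    intro γ hγ
    have h1 := isParabolicHom_sub (pr j₀).2 hl₀N hj1 ψ γ hγ
    rw [AddMonoidHom.sub_apply, AddMonoidHom.smul_apply,
      show Periods.heckeHomT ℕ N (pr j₀).2 hl₀N ψ = Periods.heckeHomT D N (pr j₀).2 hl₀N ψ from rfl,
      hop _ (pr j₀).2 hl₀N hj₀ hcop₀ j₀ rfl, AddMonoidHom.smul_apply, ← Nat.cast_smul_eq_nsmul D,
      ← sub_smul] at h1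
    refine (smul_eq_zero.mp h1).resolve_left fun h2 => hne ?_
    rw [unitOfCoprime_eq_one hM₀N hj1 hcop₀, map_one, MvPolynomial.C_1, one_mul, sub_eq_zero] at h2
    simpa using h2
  have hψ0 : ψ ≠ 0 := fun h0 => by
    refine hy (hΦinj (AddMonoidHom.ext fun γ => ?_))
    have h1 := hψ γ 1
    rw [h0, AddMonoidHom.zero_apply, LinearMap.zero_apply, map_one, Module.End.one_apply] at h1
    rw [← h1, map_zero, AddMonoidHom.zero_apply]
  obtain ⟨χ, hχ⟩ := exists_point_of_eigenHom hS hpar hψ0 heig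
  refine ⟨χ, fun j hlN hlS hlM₀ => ?_⟩
  have h1 := (heig _ (pr j).2 hlN hlS).symm.trans (hop _ (pr j).2 hlN hlS hlM₀ j rfl)
  rw [hχ _ (pr j).2 hlN hlS]
  obtain ⟨γ, hγ⟩ : ∃ γ, ψ γ ≠ 0 := by
    by_contra! h0
    exact hψ0 (AddMonoidHom.ext h0)
  exact smul_left_injective D hγ (DFunLike.congr_fun h1 γ)

end FermatAgent.RTLift.Systems
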