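import Mathlib
import Fermat.Agent.RTLift.Systems.Eigen
import Fermat.Agent.RTLift.Systems.DVR

/-!
A stable submodule of cohomology with coefficients in a reduced finite `O`-algebra `Λ` has
finitely many points: they are points of the twisted Hecke algebra with values in finite
extensions of `O`, they detect the action up to nilpotence, and exactly away from `S`.
-/

set_option autoImplicit false

noncomputable section

namespace FermatAgent.RTLift.Systems

open scoped MatrixGroups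
open IsLocalRing CongruenceSubgroup FermatAgent.RTLift.Modules CuspForm

/-- A point of a family: a complete discrete valuation ring finite over `O`, the values of the
Hecke symbols and of `Λ`, and the point of the Hecke algebra of level `N` with values
`κ l · X_l`. -/
structure FamPoint (O : Type) [CommRing O] (Λ : Type) [CommRing Λ] [Algebra O Λ] {J : Type}
    (pr : J → Nat.Primes) {M₀ : ℕ} (κ : (ZMod M₀)ˣ →* Λ) (N : ℕ) [NeZero N] (S : Set ℕ) where
  /-- the ring of values -/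
  R : Type
  [commRing : CommRing R]
  [isDomain : IsDomain R]
  [isDVR : IsDiscreteValuationRing R]
  [isAdicComplete : IsAdicComplete (maximalIdeal R) R]
  [finiteResidue : Finite (ResidueField R)]
  [charZero : CharZero R]
  [algebra : Algebra O R]
  [finite : Module.Finite O R]
  [isLocalHom : IsLocalHom (algebraMap O R)]
  injective : Function.Injective (algebraMap O R)
  /-- the values -/
  x : MvPolynomial J Λ →ₐ[O] R
  /-- the point of the Hecke algebra -/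
  χ : heckeAlgebra N 2 S →+* R
  χ_T : ∀ (j : J) (hlN : ¬ (pr j : ℕ) ∣ N) (hlS : (pr j : ℕ) ∉ S)
    (hlM₀ : (pr j : ℕ).Coprime M₀),
    χ (heckeAlgebra.T (pr j).2 hlN hlS) =
      x (MvPolynomial.C (κ (ZMod.unitOfCoprime (pr j) hlM₀)) * MvPolynomial.X j)

attribute [instance] FamPoint.commRing FamPoint.isDomain FamPoint.isDVR FamPoint.isAdicComplete
  FamPoint.finiteResidue FamPoint.charZero FamPoint.algebra FamPoint.finite FamPoint.isLocalHom

/-- In a finite faithful module every minimal prime is the annihilator of a vector. -/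
theorem exists_ann_of_minimalPrime {O Λ T V : Type} [CommRing O] [IsNoetherianRing O]
    [CommRing Λ] [Algebra O Λ] [CommRing T] [Algebra Λ T] [Algebra O T] [IsScalarTower O Λ T]
    [AddCommGroup V] [Module Λ V] [Module O V] [IsScalarTower O Λ V] [Module.Finite O V]
    (ρ : T →ₐ[Λ] Module.End Λ V) (hρ : Function.Injective ρ) {P : Ideal T}
    (hP : P ∈ minimalPrimes T) :
    Module.Finite O T ∧ ∃ x : V, ∀ t, ρ t x = 0 ↔ t ∈ P := by
  have hfin : Module.Finite O T :=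
    Module.Finite.of_injective
      ((LinearMap.restrictScalarsₗ O Λ V V O).comp (ρ.toLinearMap.restrictScalars O))
      ((LinearMap.restrictScalars_injective O).comp hρ)
  refine ⟨hfin, ?_⟩
  let _ : Module T V := Module.compHom V ρ.toRingHom
  have hsmul : ∀ (t : T) (v : V), t • v = ρ t v := fun _ _ => rfl
  have : IsScalarTower O T V := ⟨fun r t v => by
    rw [hsmul, hsmul, LinearMap.map_smul_of_tower ρ.toLinearMap |> fun h => (show ρ (r • t) = r • ρ t
      from h r t), LinearMap.smul_apply]⟩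
  have : IsNoetherianRing T := IsNoetherianRing.of_finite O T
  have : Module.Finite T V := Module.Finite.of_restrictScalars_finite O T V
  have hann : Module.annihilator T V = ⊥ := (Submodule.eq_bot_iff _).mpr fun t ht =>
    hρ ((map_zero ρ).symm ▸ LinearMap.ext fun v => (hsmul t v).symm.trans
      (Module.mem_annihilator.mp ht v))
  obtain ⟨-, x, hx⟩ := isAssociatedPrime_iff.mp
    (Module.associatedPrimes.minimalPrimes_annihilator_subset_associatedPrimes T V
      (show P ∈ (Module.annihilator T V).minimalPrimes by rw [hann]; exact hP))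
  refine ⟨x, fun t => ?_⟩
  rw [hx, Submodule.mem_colon_singleton, Submodule.mem_bot, hsmul]

/-- Below a prime meeting the base in zero in an integral extension there is no other prime. -/
theorem mem_minimalPrimes_of_comap_eq_bot {O Λ : Type} [CommRing O] [IsDomain O] [CommRing Λ]
    [Algebra O Λ] [Algebra.IsIntegral O Λ] {P : Ideal Λ} [P.IsPrime]
    (hP : P.comap (algebraMap O Λ) = ⊥) : P ∈ minimalPrimes Λ := by
  refine ⟨⟨inferInstance, bot_le⟩, fun Q hQ hQP => ?_⟩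
  by_contra hne
  obtain ⟨x, hx, hx'⟩ := SetLike.not_le_iff_exists.mp hne
  have := hQ.1
  obtain ⟨-, r, hr, hr'⟩ := SetLike.lt_iff_le_and_exists.mp
    (Ideal.comap_lt_comap_of_integral_mem_sdiff (R := O) hQP (x := x) ⟨hx, hx'⟩
      (Algebra.IsIntegral.isIntegral x))
  rw [hP, Ideal.mem_bot] at hr
  exact hr' (hr ▸ zero_mem _)

/-- The kernel and the fractions of the map to the fraction field of a quotient by a prime. -/
theorem ker_fractionRing_quotient {Λ : Type} [CommRing Λ] (𝔮 : Ideal Λ) [𝔮.IsPrime] :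
    RingHom.ker (algebraMap Λ (FractionRing (Λ ⧸ 𝔮))) = 𝔮 := by
  rw [IsScalarTower.algebraMap_eq Λ (Λ ⧸ 𝔮) (FractionRing (Λ ⧸ 𝔮)),
    RingHom.ker_comp_of_injective _ (IsFractionRing.injective (Λ ⧸ 𝔮) _)]
  exact Ideal.mk_ker

theorem exists_fraction_quotient {Λ : Type} [CommRing Λ] (𝔮 : Ideal Λ) [𝔮.IsPrime]
    (z : FractionRing (Λ ⧸ 𝔮)) : ∃ b c : Λ, c ∉ 𝔮 ∧
      z * algebraMap Λ (FractionRing (Λ ⧸ 𝔮)) c = algebraMap Λ (FractionRing (Λ ⧸ 𝔮)) b := by
  obtain ⟨⟨b, c⟩, hbc⟩ := IsLocalization.surj (nonZeroDivisors (Λ ⧸ 𝔮)) z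
  obtain ⟨b, rfl⟩ := Ideal.Quotient.mk_surjective b
  obtain ⟨c', hc'⟩ := Ideal.Quotient.mk_surjective (c : Λ ⧸ 𝔮)
  refine ⟨b, c', fun hm => nonZeroDivisors.coe_ne_zero c ?_, ?_⟩
  · rw [← hc']; exact Ideal.Quotient.eq_zero_iff_mem.mpr hm
  · rw [IsScalarTower.algebraMap_apply Λ (Λ ⧸ 𝔮) (FractionRing (Λ ⧸ 𝔮)),
      IsScalarTower.algebraMap_apply Λ (Λ ⧸ 𝔮) (FractionRing (Λ ⧸ 𝔮)),
      Ideal.Quotient.algebraMap_eq, hc']
    exact hbc

variable {O : Type} [CommRing O] [IsDomain O] [IsDiscreteValuationRing O]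
  [IsAdicComplete (maximalIdeal O) O] [Finite (ResidueField O)] [CharZero O]
  {Λ : Type} [CommRing Λ] [Algebra O Λ] [Module.Finite O Λ] [IsReduced Λ]
  {M M₀ N : ℕ} [NeZero N] (h : M₀ ∣ M) {J : Type} (pr : J → Nat.Primes)
  {θ κ : (ZMod M₀)ˣ →* Λ}

/-- The action on a stable submodule. -/
def restrictHom (V : Submodule Λ (H1 (levelChar h θ) Λ))
    (hV : ∀ (s : MvPolynomial J Λ), ∀ y ∈ V, heckeHom h θ Λ pr s y ∈ V) :
    MvPolynomial J Λ →ₐ[Λ] Module.End Λ V where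
  toFun s := (heckeHom h θ Λ pr s).restrict (hV s)
  map_one' := LinearMap.ext fun y => Subtype.ext (by simp)
  map_mul' s t := LinearMap.ext fun y => Subtype.ext (by simp)
  map_zero' := LinearMap.ext fun y => Subtype.ext (by simp)
  map_add' s t := LinearMap.ext fun y => Subtype.ext (by simp)
  commutes' c := LinearMap.ext fun y => Subtype.ext (by
    simp [Module.algebraMap_end_apply])

variable (hM : M * M₀ ∣ N) (hsq : Squarefree M₀) (hcop : M₀.Coprime (M / M₀))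
  (hθ : ∀ a, θ a = κ a ^ 2) (hκ : ∀ a, ∃ n : ℕ, Odd n ∧ κ a ^ n = 1)
  {S : Set ℕ} (hS : ∀ q : ℕ, q.Prime → q ∣ N → q ∈ S)
  (hJ : ∀ l : ℕ, l.Prime → l ∉ S → ∃ j, (pr j : ℕ) = l) {j₀ : J} (hj₀ : (pr j₀ : ℕ) ∉ S)
  (hj1 : ((pr j₀ : ℕ) : ZMod N) = 1) (V : Submodule Λ (H1 (levelChar h θ) Λ))
  (hV : ∀ (s : MvPolynomial J Λ), ∀ y ∈ V, heckeHom h θ Λ pr s y ∈ V)
  [Module.Finite O V]
  (htf : ∀ c : O, c ≠ 0 → ∀ y ∈ V, algebraMap O Λ c • y = 0 → y = 0)
  (hred : ∀ y ∈ V, (∀ Q ∈ minimalPrimes Λ, ∃ c ∉ Q, c • y = 0) → y = 0)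
  (hinj : ∀ y ∈ V, heckeHom h θ Λ pr
    (MvPolynomial.X j₀ - MvPolynomial.C (((pr j₀ : ℕ) + 1 : ℕ) : Λ)) y = 0 → y = 0)

include hM hsq hcop hθ hκ hS hJ hj₀ hj1 htf hinj in
omit [Module.Finite O ↥V] in
theorem exists_famPoint_of_ann (x₀ : V)
    (P : Ideal (MvPolynomial J Λ)) [P.IsPrime]
    (hann : ∀ s, heckeHom h θ Λ pr s (x₀ : H1 (levelChar h θ) Λ) = 0 ↔ s ∈ P)
    (hfin : Module.Finite O (MvPolynomial J Λ ⧸ P)) :
    ∃ pt : FamPoint O Λ pr κ N S, (∀ s, pt.x s = 0 ↔ s ∈ P) ∧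
      ∀ s, pt.x s ∉ maximalIdeal pt.R → ∃ s', s * s' - 1 ∈ P := by
  have hx0 : (x₀ : H1 (levelChar h θ) Λ) ≠ 0 := fun h0 => by
    refine Ideal.IsPrime.ne_top inferInstance ((Ideal.eq_top_iff_one P).mpr ((hann 1).mp ?_))
    rw [h0, map_zero]
  let D := MvPolynomial J Λ ⧸ P
  let σ : MvPolynomial J Λ →ₐ[Λ] D := Ideal.Quotient.mkₐ Λ P
  have hσ : Function.Surjective σ := Ideal.Quotient.mkₐ_surjective Λ P
  have hOD : Function.Injective (algebraMap O D) := by
    refine (injective_iff_map_eq_zero _).mpr fun c hc => by_contra fun hc0 => hx0 ?_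
    refine htf c hc0 _ x₀.2 ?_
    rw [IsScalarTower.algebraMap_apply O Λ D] at hc
    have h1 := (hann (algebraMap Λ _ (algebraMap O Λ c))).mpr (Ideal.Quotient.eq_zero_iff_mem.mp hc)
    rwa [AlgHom.commutes, Module.algebraMap_end_apply] at h1
  let 𝔮 : Ideal Λ := RingHom.ker (algebraMap Λ D)
  have : 𝔮.IsPrime := RingHom.ker_isPrime _
  have : Algebra.IsIntegral O Λ := Algebra.IsIntegral.of_finite O Λ
  have h𝔮0 : 𝔮.comap (algebraMap O Λ) = ⊥ := by
    rw [Submodule.eq_bot_iff]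
    intro c hc
    rw [Ideal.mem_comap, RingHom.mem_ker, ← IsScalarTower.algebraMap_apply] at hc
    exact (injective_iff_map_eq_zero _).mp hOD c hc
  have h𝔮 : 𝔮 ∈ minimalPrimes Λ := mem_minimalPrimes_of_comap_eq_bot h𝔮0
  have : IsNoetherianRing Λ := IsNoetherianRing.of_finite O Λ
  let K := FractionRing (Λ ⧸ 𝔮)
  have hker : RingHom.ker (algebraMap Λ K) = 𝔮 := ker_fractionRing_quotient 𝔮
  have hOQ : Function.Injective (algebraMap O (Λ ⧸ 𝔮)) := by
    refine (injective_iff_map_eq_zero _).mpr fun c hc => ?_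
    rw [IsScalarTower.algebraMap_apply O Λ (Λ ⧸ 𝔮)] at hc
    have h1 : c ∈ 𝔮.comap (algebraMap O Λ) := (Ideal.Quotient.eq_zero_iff_mem (I := 𝔮)).mp hc
    rwa [h𝔮0, Ideal.mem_bot] at h1
  have : CharZero (Λ ⧸ 𝔮) := charZero_of_injective_algebraMap hOQ
  have : CharZero K := charZero_of_injective_algebraMap (IsFractionRing.injective (Λ ⧸ 𝔮) K)
  have hfrac := exists_fraction_quotient 𝔮
  have hy : toFieldH1 h θ K x₀ ≠ 0 := fun h0 => by
    obtain ⟨c, hc, hc0⟩ := exists_smul_eq_zero h θ K h𝔮 hker hfrac h0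
    refine hc (RingHom.mem_ker.mpr (Ideal.Quotient.eq_zero_iff_mem.mpr ((hann _).mp ?_)))
    rw [AlgHom.commutes, Module.algebraMap_end_apply, hc0]
  have : Algebra.IsIntegral Λ D := Algebra.IsIntegral.tower_top (R := O)
  have : CharZero D := charZero_of_injective_algebraMap hOD
  have hne : σ (MvPolynomial.X j₀) ≠ ((pr j₀ : ℕ) : D) + 1 := fun he => by
    refine hx0 (hinj _ x₀.2 ((hann _).mpr (Ideal.Quotient.eq_zero_iff_mem.mp ?_)))
    change σ (MvPolynomial.X j₀ - MvPolynomial.C _) = 0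
    rw [map_sub, he, sub_eq_zero]
    simp
  obtain ⟨χ, hχ⟩ := exists_point_of_killed h pr hM hsq hcop hθ hκ hS hJ D σ hσ x₀
    (fun s hs => (hann s).mpr (Ideal.Quotient.eq_zero_iff_mem.mp hs)) K hker hy hj₀ hj1 hne
  obtain ⟨R, i1, i2, i3, i4, i5, i6, i7, i8, hloc, hinjR, ι, hι⟩ :=
    exists_dvr_extension (O := O) D hOD
  refine ⟨{ R := R
            injective := hinjR
            x := ι.comp (σ.restrictScalars O)
            χ := ι.toRingHom.comp χ
            χ_T := fun j hlN hlS hlM₀ => congrArg ι (hχ j hlN hlS hlM₀) }, fun s => ?_,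
    fun s hs => ?_⟩
  · exact (map_eq_zero_iff ι hι).trans Ideal.Quotient.eq_zero_iff_mem
  · have hu : IsUnit (ι (σ s)) := notMem_maximalIdeal.mp hs
    have : Algebra.IsIntegral O R := Algebra.IsIntegral.of_finite O R
    have hint : ι.toRingHom.IsIntegral := RingHom.IsIntegral.tower_top (algebraMap O D) _
      (by rw [AlgHom.toRingHom_eq_coe, AlgHom.comp_algebraMap]
          exact fun r => Algebra.IsIntegral.isIntegral r)
    obtain ⟨u, hu'⟩ := ((RingHom.IsIntegral.isLocalHom hint hι).map_nonunit (σ s) hu).exists_right_inv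
    obtain ⟨s', rfl⟩ := hσ u
    refine ⟨s', Ideal.Quotient.eq_zero_iff_mem.mp ?_⟩
    change σ (s * s' - 1) = 0
    rw [map_sub, map_mul, hu', map_one, sub_self]

theorem apply_pow_of_intertwine {A B R R' : Type} [CommRing R] [CommRing R'] [AddCommGroup A]
    [Module R A] [AddCommGroup B] [Module R' B] (u : A →+ B) (f : Module.End R A)
    (t : Module.End R' B) (hu : ∀ x, u (f x) = t (u x)) (k : ℕ) (x : A) :
    u ((f ^ k) x) = (t ^ k) (u x) := by
  induction k with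
  | zero => simp
  | succ k ih => rw [pow_succ' f, pow_succ' t, Module.End.mul_apply, Module.End.mul_apply, hu, ih]

set_option maxHeartbeats 800000 in
include hM hsq hcop hθ hκ hS hj₀ hj1 htf hred in
omit [IsAdicComplete (maximalIdeal O) O] [Finite (ResidueField O)]
  [Module.Finite O ↥V] in
/-- A Hecke polynomial away from `S` acting nilpotently on a non-Eisenstein submodule acts as
zero. -/
theorem heckeHom_eq_zero_of_pow
    (hsurj : ∀ y ∈ V, ∃ z, y = heckeHom h θ Λ pr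
      (MvPolynomial.X j₀ - MvPolynomial.C (((pr j₀ : ℕ) + 1 : ℕ) : Λ)) z)
    (hV' : ∀ s : MvPolynomial J Λ, ∀ y ∈ V, heckeHom h θ Λ pr s y ∈ V)
    {s : MvPolynomial J Λ}
    (hgood : s ∈ Algebra.adjoin Λ (MvPolynomial.X '' {j | (pr j : ℕ) ∉ S})) {k : ℕ}
    (hk : ∀ y ∈ V, heckeHom h θ Λ pr (s ^ k) y = 0) {y : H1 (levelChar h θ) Λ} (hy : y ∈ V) :
    heckeHom h θ Λ pr s y = 0 := by
  have : IsNoetherianRing Λ := IsNoetherianRing.of_finite O Λ
  refine hred _ (hV' s y hy) fun 𝔮 h𝔮 => ?_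
  have := h𝔮.1.1
  let K := FractionRing (Λ ⧸ 𝔮)
  have hker : RingHom.ker (algebraMap Λ K) = 𝔮 := ker_fractionRing_quotient 𝔮
  have hfrac := exists_fraction_quotient 𝔮
  by_cases hchar : CharZero (Λ ⧸ 𝔮)
  swap
  · obtain ⟨m, hm0, hm⟩ : ∃ m : ℕ, m ≠ 0 ∧ (m : Λ ⧸ 𝔮) = 0 := by
      by_contra! hne
      exact hchar (charZero_of_inj_zero fun m hm => by_contra fun h0 => hne m h0 hm)
    -- the integer `m` lies in `𝔮` but is a unit times a power of the uniformiser
    obtain ⟨e', he', he'm⟩ := exists_mul_mem_eq_zero h𝔮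
    refine ⟨e', he', htf (m : O) (by exact_mod_cast hm0) _ (Submodule.smul_mem _ _ (hV' s y hy)) ?_⟩
    rw [smul_smul, map_natCast,
      show (m : Λ) * e' = e' * (m : Λ) from mul_comm _ _,
      he'm _ (Ideal.Quotient.eq_zero_iff_mem.mp (by rwa [map_natCast])), zero_smul]
  have : CharZero K := charZero_of_injective_algebraMap (IsFractionRing.injective (Λ ⧸ 𝔮) K)
  refine exists_smul_eq_zero h θ K h𝔮 hker hfrac ?_
  have hSM : ∀ j, (pr j : ℕ) ∉ S → ¬ (pr j : ℕ) ∣ M := fun j hj hd =>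
    hj (hS _ (pr j).2 ((hd.trans (dvd_mul_right M M₀)).trans hM))
  obtain ⟨t, ht, ht'⟩ := exists_adjoin_toFieldH1 h θ K pr hSM hgood
  have hjM := hSM j₀ hj₀
  have hy' : toFieldH1 h θ K y ∈ eisRange h (mapChar θ K) (pr j₀).2 hjM := by
    obtain ⟨z, rfl⟩ := hsurj y hy
    refine ⟨toFieldH1 h θ K z, ?_⟩
    rw [map_sub, heckeHom_X, heckeOp_of_not_dvd h θ Λ hjM, ← MvPolynomial.algebraMap_eq,
      AlgHom.commutes, LinearMap.sub_apply, LinearMap.sub_apply, map_sub, toFieldH1_heckeT,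
      LinearMap.smul_apply, Module.End.one_apply, Module.algebraMap_end_apply, toFieldH1_smul,
      map_natCast]
  have hpow : (t ^ k) (toFieldH1 h θ K y) = 0 := by
    rw [← apply_pow_of_intertwine _ _ t ht' k, ← map_pow, hk y hy, map_zero]
  rw [ht']
  exact eq_zero_of_pow_apply h hM hsq hcop (mapChar_sq hθ K) (mapChar_eq_one_of_sq hκ K) hS
    (pr j₀).2 hjM hj₀ hj1 ht hy' hpow

include hM hsq hcop hθ hκ hS hJ hj₀ hj1 htf hinj in
theorem exists_famPoint_of_minimalPrime (T : Type) [CommRing T] [Algebra Λ T] [Algebra O T]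
    [IsScalarTower O Λ T] (π : MvPolynomial J Λ →ₐ[Λ] T) (hπ : Function.Surjective π)
    (ρT : T →ₐ[Λ] Module.End Λ V) (hρT : Function.Injective ρT)
    (hcompat : ∀ s (y : V), ((ρT (π s) y : V) : H1 (levelChar h θ) Λ) = heckeHom h θ Λ pr s y)
    {Q : Ideal T} (hQ : Q ∈ minimalPrimes T) :
    ∃ pt : FamPoint O Λ pr κ N S, (∀ s, pt.x s = 0 ↔ π s ∈ Q) ∧
      (∀ s, pt.x s ∉ maximalIdeal pt.R → ∃ s', ∃ y ∈ V, y ≠ 0 ∧
        heckeHom h θ Λ pr (s * s' - 1) y = 0) := by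
  have := hQ.1.1
  obtain ⟨hTfin, x₀, hx₀⟩ := exists_ann_of_minimalPrime (O := O) ρT hρT hQ
  let P : Ideal (MvPolynomial J Λ) := Q.comap π
  have : P.IsPrime := Ideal.IsPrime.comap _
  have hann : ∀ s, heckeHom h θ Λ pr s (x₀ : H1 (levelChar h θ) Λ) = 0 ↔ s ∈ P := fun s => by
    rw [Ideal.mem_comap, ← hx₀, ← hcompat, ZeroMemClass.coe_eq_zero]
  let g : T →ₗ[O] MvPolynomial J Λ ⧸ P :=
    { toFun := fun t => Ideal.Quotient.mk P (Function.surjInv hπ t)
      map_add' := fun a b => by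
        rw [← map_add, Ideal.Quotient.eq, Ideal.mem_comap, map_sub, map_add]
        simp [Function.surjInv_eq hπ]
      map_smul' := fun c a => by
        rw [RingHom.id_apply, ← Ideal.Quotient.mkₐ_eq_mk O P, ← map_smul, Ideal.Quotient.mkₐ_eq_mk,
          Ideal.Quotient.eq, Ideal.mem_comap, map_sub, AlgHom.map_smul_of_tower,
          Function.surjInv_eq hπ, Function.surjInv_eq hπ, sub_self]
        exact zero_mem _ }
  have hfin : Module.Finite O (MvPolynomial J Λ ⧸ P) :=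
    Module.Finite.of_surjective g fun y => by
      obtain ⟨s, rfl⟩ := Ideal.Quotient.mk_surjective y
      refine ⟨π s, Ideal.Quotient.eq.mpr ?_⟩
      rw [Ideal.mem_comap, map_sub, Function.surjInv_eq hπ, sub_self]
      exact zero_mem _
  obtain ⟨pt, hpt, hmax⟩ := exists_famPoint_of_ann h pr hM hsq hcop hθ hκ hS hJ hj₀ hj1 V htf
    hinj x₀ P hann hfin
  refine ⟨pt, fun s => (hpt s).trans Ideal.mem_comap, fun s hs => ?_⟩
  obtain ⟨s', hs'⟩ := hmax s hs
  refine ⟨s', x₀, x₀.2, fun h0 => ?_, (hann _).mpr hs'⟩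
  refine Ideal.IsPrime.ne_top (I := P) inferInstance ((Ideal.eq_top_iff_one P).mpr ((hann 1).mp ?_))
  rw [h0, map_zero]

include hM hsq hcop hθ hκ hS hJ hj₀ hj1 hV htf hred hinj in
theorem exists_family_of_quotient (T : Type) [CommRing T] [Algebra Λ T] [Algebra O T]
    [IsScalarTower O Λ T] (π : MvPolynomial J Λ →ₐ[Λ] T) (hπ : Function.Surjective π)
    (ρT : T →ₐ[Λ] Module.End Λ V) (hρT : Function.Injective ρT)
    (hcompat : ∀ s (y : V), ((ρT (π s) y : V) : H1 (levelChar h θ) Λ) = heckeHom h θ Λ pr s y)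
    (hsurj : ∀ y ∈ V, ∃ z, y = heckeHom h θ Λ pr
      (MvPolynomial.X j₀ - MvPolynomial.C (((pr j₀ : ℕ) + 1 : ℕ) : Λ)) z) :
    ∃ (n : ℕ) (pt : Fin n → FamPoint O Λ pr κ N S),
      (∀ i s, (∀ y ∈ V, heckeHom h θ Λ pr s y = 0) → (pt i).x s = 0) ∧
      (∀ i s, (∀ s', ∀ y ∈ V, heckeHom h θ Λ pr (s * s' - 1) y = 0 → y = 0) →
        (pt i).x s ∈ maximalIdeal (pt i).R) ∧
      (∀ s, (∀ i, (pt i).x s = 0) → ∃ k, ∀ y ∈ V, heckeHom h θ Λ pr (s ^ k) y = 0) ∧
      (∀ s ∈ Algebra.adjoin Λ (MvPolynomial.X '' {j | (pr j : ℕ) ∉ S}),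
        (∀ i, (pt i).x s = 0) → ∀ y ∈ V, heckeHom h θ Λ pr s y = 0) := by
  classical
  have hρ0 : ∀ s, π s = 0 ↔ ∀ y ∈ V, heckeHom h θ Λ pr s y = 0 := fun s =>
    ⟨fun h0 y hy => by rw [← hcompat s ⟨y, hy⟩, h0, map_zero]; rfl,
      fun h0 => hρT (LinearMap.ext fun y => Subtype.ext (by
        rw [hcompat, h0 y y.2, map_zero]; rfl))⟩
  have hTfin : Module.Finite O T := Module.Finite.of_injective
    ((LinearMap.restrictScalarsₗ O Λ V V O).comp (ρT.toLinearMap.restrictScalars O))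
    ((LinearMap.restrictScalars_injective O).comp hρT)
  have : IsNoetherianRing T := IsNoetherianRing.of_finite O T
  let mins := (minimalPrimes.finite_of_isNoetherianRing T).toFinset
  have key : ∀ Q : mins, ∃ pt : FamPoint O Λ pr κ N S,
      (∀ s, pt.x s = 0 ↔ π s ∈ (Q : Ideal T)) ∧
      (∀ s, pt.x s ∉ maximalIdeal pt.R → ∃ s', ∃ y ∈ V, y ≠ 0 ∧
        heckeHom h θ Λ pr (s * s' - 1) y = 0) := fun Q =>
    exists_famPoint_of_minimalPrime h pr hM hsq hcop hθ hκ hS hJ hj₀ hj1 V htf hinj T π hπ ρT hρT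
      hcompat ((minimalPrimes.finite_of_isNoetherianRing T).mem_toFinset.mp Q.2)
  choose pt hpt hptmax using key
  have hkills : ∀ s, (∀ Q, (pt Q).x s = 0) → ∃ k, ∀ y ∈ V, heckeHom h θ Λ pr (s ^ k) y = 0 := by
    intro s hs
    have hnil : π s ∈ nilradical T := by
      rw [nilradical, ← Ideal.sInf_minimalPrimes, Ideal.mem_sInf]
      intro Q hQ
      exact (hpt ⟨Q, (minimalPrimes.finite_of_isNoetherianRing T).mem_toFinset.mpr hQ⟩ s).mp (hs _)
    obtain ⟨k, hk⟩ := mem_nilradical.mp hnil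
    rw [← map_pow] at hk
    exact ⟨k, (hρ0 _).mp hk⟩
  let e := mins.equivFin
  refine ⟨mins.card, fun i => pt (e.symm i), fun i s hs => ?_, fun i s hs => ?_, fun s hs => ?_,
    fun s hgood hs y hy => ?_⟩
  · refine (hpt _ s).mpr ?_
    rw [(hρ0 s).mpr hs]
    exact zero_mem _
  · by_contra hnm
    obtain ⟨s', y, hy, hy0, hy1⟩ := hptmax _ s hnm
    exact hy0 (hs s' y hy hy1)
  · exact hkills s fun Q => e.symm_apply_apply Q ▸ hs (e Q)
  · obtain ⟨k, hk⟩ := hkills s fun Q => e.symm_apply_apply Q ▸ hs (e Q)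
    exact heckeHom_eq_zero_of_pow h pr hM hsq hcop hθ hκ hS hj₀ hj1 V htf hred hsurj hV hgood hk hy

include hM hsq hcop hθ hκ hS hJ hj₀ hj1 hV htf hred hinj in
/-- **The points of a stable non-Eisenstein submodule.** -/
theorem exists_family
    (hsurj : ∀ y ∈ V, ∃ z, y = heckeHom h θ Λ pr
      (MvPolynomial.X j₀ - MvPolynomial.C (((pr j₀ : ℕ) + 1 : ℕ) : Λ)) z) :
    ∃ (n : ℕ) (pt : Fin n → FamPoint O Λ pr κ N S),
      (∀ i s, (∀ y ∈ V, heckeHom h θ Λ pr s y = 0) → (pt i).x s = 0) ∧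
      (∀ i s, (∀ s', ∀ y ∈ V, heckeHom h θ Λ pr (s * s' - 1) y = 0 → y = 0) →
        (pt i).x s ∈ maximalIdeal (pt i).R) ∧
      (∀ s, (∀ i, (pt i).x s = 0) → ∃ k, ∀ y ∈ V, heckeHom h θ Λ pr (s ^ k) y = 0) ∧
      (∀ s ∈ Algebra.adjoin Λ (MvPolynomial.X '' {j | (pr j : ℕ) ∉ S}),
        (∀ i, (pt i).x s = 0) → ∀ y ∈ V, heckeHom h θ Λ pr s y = 0) :=
  exists_family_of_quotient h pr hM hsq hcop hθ hκ hS hJ hj₀ hj1 V hV htf hred hinj
    (MvPolynomial J Λ ⧸ RingHom.ker (restrictHom h pr V hV)) (Ideal.Quotient.mkₐ Λ _)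
    (Ideal.Quotient.mkₐ_surjective Λ _) (Ideal.kerLiftAlg (restrictHom h pr V hV))
    (Ideal.kerLiftAlg_injective _) (fun _ _ => rfl) hsurj

end FermatAgent.RTLift.Systems
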