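import Mathlib
import Fermat.Agent.RTLift.Systems.Family

/-!
A point of a family is carried by a vector of the submodule; Hecke polynomials in good primes act
on period homomorphisms through the symbols.
-/

set_option autoImplicit false

noncomputable section

namespace FermatAgent.RTLift.Systems

open scoped MatrixGroups
open IsLocalRing CongruenceSubgroup FermatAgent.RTLift.Modules CuspForm

section Vector

variable {O : Type} [CommRing O] [IsDomain O] [IsDiscreteValuationRing O]
  {Λ : Type} [CommRing Λ] [Algebra O Λ] [Module.Finite O Λ] [IsReduced Λ]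
  {M M₀ N : ℕ} [NeZero N] (h : M₀ ∣ M) {J : Type} (pr : J → Nat.Primes)
  {θ κ : (ZMod M₀)ˣ →* Λ} {S : Set ℕ} (pt : FamPoint O Λ pr κ N S)

variable {pr}

/-- The values of a point on `Λ`. -/
def FamPoint.baseHom (pt : FamPoint O Λ pr κ N S) : Λ →ₐ[O] pt.R :=
  pt.x.comp (IsScalarTower.toAlgHom O Λ (MvPolynomial J Λ))

omit [IsDomain O] [IsDiscreteValuationRing O] [Module.Finite O Λ] [IsReduced Λ] in
theorem FamPoint.baseHom_apply (c : Λ) : pt.baseHom c = pt.x (MvPolynomial.C c) := rfl

omit [IsDiscreteValuationRing O] [IsReduced Λ] in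
/-- The prime of `Λ` below a point is minimal. -/
theorem FamPoint.ker_baseHom_mem_minimalPrimes :
    RingHom.ker pt.baseHom ∈ minimalPrimes Λ := by
  have : (RingHom.ker pt.baseHom).IsPrime := RingHom.ker_isPrime _
  have : Algebra.IsIntegral O Λ := Algebra.IsIntegral.of_finite O Λ
  refine mem_minimalPrimes_of_comap_eq_bot (O := O) ((Submodule.eq_bot_iff _).mpr fun c hc => ?_)
  rw [Ideal.mem_comap, RingHom.mem_ker, AlgHom.commutes] at hc
  exact (injective_iff_map_eq_zero _).mp pt.injective c hc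

variable (pr)

/-- **A point killing the annihilator of `V` is carried by a vector of `V`.** -/
theorem exists_vector_of_famPoint (V : Submodule Λ (H1 (levelChar h θ) Λ))
    (hV : ∀ (s : MvPolynomial J Λ), ∀ y ∈ V, heckeHom h θ Λ pr s y ∈ V) [Module.Finite O V]
    (hpt : ∀ s, (∀ y ∈ V, heckeHom h θ Λ pr s y = 0) → pt.x s = 0) (K : Type) [Field K]
    [Algebra Λ K] (hK : RingHom.ker (algebraMap Λ K) = RingHom.ker pt.baseHom)
    (hfrac : ∀ z : K, ∃ b c : Λ, c ∉ RingHom.ker pt.baseHom ∧
      z * algebraMap Λ K c = algebraMap Λ K b) :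
    ∃ x₀ : H1 (levelChar h θ) Λ, (∀ s, pt.x s = 0 → heckeHom h θ Λ pr s x₀ = 0) ∧
      ∀ s, pt.x s ≠ 0 → toFieldH1 h θ K (heckeHom h θ Λ pr s x₀) ≠ 0 := by
  have : IsNoetherianRing Λ := IsNoetherianRing.of_finite O Λ
  let π := restrictHom h pr V hV
  let T := MvPolynomial J Λ ⧸ RingHom.ker π
  let ρT : T →ₐ[Λ] Module.End Λ V := Ideal.kerLiftAlg π
  have hker : ∀ s ∈ RingHom.ker π, pt.x s = 0 := fun s hs => hpt s fun y hy => by
    have h1 := congrArg Subtype.val (LinearMap.congr_fun (RingHom.mem_ker.mp hs) ⟨y, hy⟩)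
    exact h1
  let g : T →+* pt.R := Ideal.Quotient.lift _ pt.x.toRingHom hker
  have : (RingHom.ker g).IsPrime := RingHom.ker_isPrime g
  have : Module.Finite O T := Module.Finite.of_injective
    ((LinearMap.restrictScalarsₗ O Λ V V O).comp (ρT.toLinearMap.restrictScalars O))
    ((LinearMap.restrictScalars_injective O).comp (Ideal.kerLiftAlg_injective π))
  have : Algebra.IsIntegral O T := Algebra.IsIntegral.of_finite O T
  have hQ : RingHom.ker g ∈ minimalPrimes T := by
    refine mem_minimalPrimes_of_comap_eq_bot (O := O) ((Submodule.eq_bot_iff _).mpr fun c hc => ?_)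
    rw [Ideal.mem_comap, RingHom.mem_ker] at hc
    replace hc : pt.x (algebraMap O (MvPolynomial J Λ) c) = 0 := hc
    rw [AlgHom.commutes] at hc
    exact (injective_iff_map_eq_zero _).mp pt.injective c hc
  obtain ⟨-, x₀, hx₀⟩ := exists_ann_of_minimalPrime (O := O) ρT (Ideal.kerLiftAlg_injective π) hQ
  have hiff : ∀ s, heckeHom h θ Λ pr s (x₀ : H1 (levelChar h θ) Λ) = 0 ↔ pt.x s = 0 := fun s => by
    rw [show heckeHom h θ Λ pr s (x₀ : H1 (levelChar h θ) Λ) =
      ((ρT (Ideal.Quotient.mk _ s) x₀ : V) : H1 (levelChar h θ) Λ) from rfl, ZeroMemClass.coe_eq_zero,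
      hx₀, RingHom.mem_ker, Ideal.Quotient.lift_mk]
    rfl
  refine ⟨x₀, fun s hs => (hiff s).mpr hs, fun s hs h0 => hs ?_⟩
  obtain ⟨c, hc, hc0⟩ := exists_smul_eq_zero h θ K pt.ker_baseHom_mem_minimalPrimes hK hfrac h0
  have h1 := (hiff (MvPolynomial.C c * s)).mp (by
    rw [map_mul, Module.End.mul_apply, ← MvPolynomial.algebraMap_eq, AlgHom.commutes,
      Module.algebraMap_end_apply, hc0])
  rw [map_mul, mul_eq_zero] at h1
  exact h1.resolve_left fun h2 => hc (RingHom.mem_ker.mpr h2)

end Vector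

section Periods

open ModularCurve ModularCurve.Period

variable {N : ℕ} [NeZero N]

omit [NeZero N] in
/-- Transfer operators commute with functionals to `ℂ`. -/
theorem heckeHomU_comp {R A : Type*} [CommRing R] [AddCommGroup A] [Module R A] {q : ℕ} [NeZero q]
    (hqN : q ∣ N) (u : A →+ ℂ) (ψ : Additive (Gamma0 N) →+ A) :
    Periods.heckeHomU ℂ N hqN (u.comp ψ) = u.comp (Periods.heckeHomU R N hqN ψ) :=
  Periods.heckeHomU_map (R := ℕ) N hqN u ψ

omit [NeZero N] in
theorem heckeHomT_comp {R A : Type*} [CommRing R] [AddCommGroup A] [Module R A] {l : ℕ}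
    (hl : l.Prime) (hlN : ¬ l ∣ N) (u : A →+ ℂ) (ψ : Additive (Gamma0 N) →+ A) :
    Periods.heckeHomT ℂ N hl hlN (u.comp ψ) = u.comp (Periods.heckeHomT R N hl hlN ψ) :=
  Periods.heckeHomT_map (R := ℕ) N hl hlN u ψ

/-- Polynomials in good Hecke operators act on periods through the symbols. -/
theorem periodHomPair_aeval {K : Type*} [Field K] {A P₀ : Type*} [AddCommGroup A] [Module K A]
    [CommRing P₀] (φ : P₀ →+ (Additive (Gamma0 N) →+ A)) (u : A →+ ℂ) {G : Type*} (l : G → ℕ)
    (hl : ∀ i, (l i).Prime) (hlN : ∀ i, ¬ l i ∣ N) (e : G → P₀)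
    (hφ : ∀ i s, Periods.heckeHomT K N (hl i) (hlN i) (φ s) = φ (e i * s))
    (P : MvPolynomial G ℤ) (s : P₀) (f g : CuspForm (Gamma0 N) 2)
    (h : periodHomPair N (f, g) = u.comp (φ s)) :
    periodHomPair N
      ((MvPolynomial.aeval (fun i => heckeAlgebra.T (k := 2) (hl i) (hlN i)
        (Set.notMem_empty (l i))) P : heckeAlgebra N 2 (∅ : Set ℕ)).1 f,
      (MvPolynomial.aeval (fun i => heckeAlgebra.T (k := 2) (hl i) (hlN i)
        (Set.notMem_empty (l i))) P : heckeAlgebra N 2 (∅ : Set ℕ)).1 g) =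
      u.comp (φ (MvPolynomial.aeval e P * s)) := by
  induction P using MvPolynomial.induction_on generalizing s f g with
  | C n =>
    rw [MvPolynomial.aeval_C, MvPolynomial.aeval_C, eq_intCast, eq_intCast]
    simp only [SubringClass.coe_intCast, Module.End.intCast_apply]
    rw [← Prod.smul_mk, map_zsmul, h, ← zsmul_eq_mul, map_zsmul]
    exact AddMonoidHom.ext fun γ => (map_zsmul u n _).symm
  | add P Q hP hQ =>
    simp only [map_add, Subalgebra.coe_add, LinearMap.add_apply]
    rw [← Prod.mk_add_mk, map_add, hP s f g h, hQ s f g h, add_mul, map_add, AddMonoidHom.comp_add]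
  | mul_X P i hP =>
    simp only [map_mul, MvPolynomial.aeval_X, Subalgebra.coe_mul, Module.End.mul_apply]
    rw [hP (e i * s), ← mul_assoc]
    show periodHomPair N (heckeTLin 2 (hl i) (hlN i) f, heckeTLin 2 (hl i) (hlN i) g) = _
    rw [Periods.periodHomPair_heckeTLin, h, heckeHomT_comp (R := K), hφ]

end Periods

end FermatAgent.RTLift.Systems
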