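import Mathlib
import Fermat.Agent.RTLift.Systems.Family

/-!
The points of the non-Eisenstein local part of cohomology with coefficients in a reduced algebra
`Λ` finite over `O`. The local part is cut out by the symbols `J`; the points carry values at a
larger set of symbols `J'`.
-/

set_option autoImplicit false

noncomputable section

namespace FermatAgent.RTLift.Systems

open scoped MatrixGroups
open IsLocalRing CongruenceSubgroup FermatAgent.RTLift.Modules CuspForm

variable {O : Type} [CommRing O] {Λ : Type} [CommRing Λ] [Algebra O Λ] {J J' : Type}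

/-- Hecke polynomials over `O` in the symbols `J` as polynomials over `Λ` in the symbols `J'`. -/
def symbolHom (f : J → J') : MvPolynomial J O →ₐ[O] MvPolynomial J' Λ :=
  MvPolynomial.aeval fun j => MvPolynomial.X (f j)

@[simp] theorem symbolHom_X (f : J → J') (j : J) :
    symbolHom (O := O) (Λ := Λ) f (MvPolynomial.X j) = MvPolynomial.X (f j) :=
  MvPolynomial.aeval_X _ _

theorem symbolHom_C (f : J → J') (c : O) :
    symbolHom (Λ := Λ) f (MvPolynomial.C c) = MvPolynomial.C (algebraMap O Λ c) :=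
  MvPolynomial.aeval_C _ c

variable {M M₀ : ℕ} (h : M₀ ∣ M) (θ : (ZMod M₀)ˣ →* Λ) (pr : J → Nat.Primes)
  (pr' : J' → Nat.Primes) {f : J → J'} (hf : ∀ j, pr' (f j) = pr j)

include hf in
theorem heckeHom_symbolHom (s : MvPolynomial J O) (y : H1 (levelChar h θ) Λ) :
    heckeHom h θ Λ pr' (symbolHom f s : MvPolynomial J' Λ) y = heckeHom h θ Λ pr s y := by
  induction s using MvPolynomial.induction_on generalizing y with
  | C c =>
    rw [symbolHom_C, ← MvPolynomial.algebraMap_eq, AlgHom.commutes, ← MvPolynomial.algebraMap_eq,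
      AlgHom.commutes, Module.algebraMap_end_apply, Module.algebraMap_end_apply, algebraMap_smul]
  | add a b ha hb => simp only [map_add, LinearMap.add_apply, ha, hb]
  | mul_X a j ha =>
    rw [map_mul, symbolHom_X, map_mul, Module.End.mul_apply, heckeHom_X, hf, map_mul,
      Module.End.mul_apply, heckeHom_X, ha]

include hf in
/-- The local part at the symbols `J` is stable under the symbols `J'`. -/
theorem heckeHom_mem_localH1 [IsLocalRing O] (ξ : J → ResidueField O) (s : MvPolynomial J' Λ)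
    {y : H1 (levelChar h θ) Λ} (hy : y ∈ localH1 h θ Λ pr ξ) :
    heckeHom h θ Λ pr' s y ∈ localH1 h θ Λ pr ξ := by
  rw [localH1, mem_part_iff] at hy ⊢
  intro t ht
  obtain ⟨z, rfl⟩ := hy t ht
  refine ⟨heckeHom h θ Λ pr' s z, ?_⟩
  rw [← heckeHom_symbolHom h θ pr pr' hf, ← heckeHom_symbolHom h θ pr pr' hf,
    ← Module.End.mul_apply, ← map_mul, mul_comm, map_mul, Module.End.mul_apply]

/-- A vector of a projective module over a reduced ring is zero as soon as it vanishes at every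
minimal prime. -/
theorem eq_zero_of_forall_minimalPrimes {Λ V : Type*} [CommRing Λ] [IsReduced Λ] [AddCommGroup V]
    [Module Λ V] [Module.Projective Λ V] {y : V}
    (hy : ∀ Q ∈ minimalPrimes Λ, ∃ c ∉ Q, c • y = 0) : y = 0 := by
  obtain ⟨s, hs⟩ := Module.projective_def.mp ‹Module.Projective Λ V›
  have h0 : s y = 0 := Finsupp.ext fun v => by
    refine (mem_nilradical.mp ?_).eq_zero
    rw [nilradical, ← Ideal.sInf_minimalPrimes, Ideal.mem_sInf]
    intro Q hQ
    obtain ⟨c, hc, hcy⟩ := hy Q hQ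
    have h1 : c * s y v = 0 := by
      rw [← smul_eq_mul, ← Finsupp.smul_apply, ← map_smul, hcy, map_zero, Finsupp.zero_apply]
    exact (hQ.1.1.mem_or_mem (h1 ▸ Q.zero_mem)).resolve_left hc
  rw [← hs y, h0, map_zero]

/-- A vector of a projective module over an algebra without torsion has no torsion. -/
theorem eq_zero_of_smul_eq_zero {Λ V : Type*} [CommRing Λ] [AddCommGroup V] [Module Λ V]
    [Module.Projective Λ V] {c : Λ} (hc : ∀ a, c * a = 0 → a = 0) {y : V} (hy : c • y = 0) :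
    y = 0 := by
  obtain ⟨s, hs⟩ := Module.projective_def.mp ‹Module.Projective Λ V›
  have h0 : s y = 0 := Finsupp.ext fun v => hc _ (by
    rw [← smul_eq_mul, ← Finsupp.smul_apply, ← map_smul, hy, map_zero, Finsupp.zero_apply])
  rw [← hs y, h0, map_zero]

/-- On the part at `m`, an element of `m` times a commuting endomorphism fixes only zero. -/
theorem eq_zero_of_apply_fix {R : Type} [CommRing R] [IsNoetherianRing R] {Λ H : Type}
    [CommRing Λ] [Algebra R Λ] [AddCommGroup H] [Module Λ H] [Module R H] [IsScalarTower R Λ H]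
    [Module.Finite R H] {T : Type} [CommRing T] [Algebra R T] {ρ : T →ₐ[R] Module.End Λ H}
    {m : Ideal T} (hm : m ≠ ⊤) {s₀ : T} (hs₀ : IsProjector ρ m s₀) {s : T} (hs : s ∈ m)
    (u : Module.End Λ H) (hu : ∀ t v, ρ t (u v) = u (ρ t v)) {y : H} (hy : y ∈ part ρ m)
    (h0 : ρ s (u y) = y) : y = 0 := by
  let _ : Module T H := Module.compHom H ρ.toRingHom
  have hsmul : ∀ (t : T) (v : H), t • v = ρ t v := fun _ _ => rfl
  have : IsScalarTower R T H := ⟨fun c t v => by
    rw [hsmul, hsmul, map_smul, LinearMap.smul_apply]⟩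
  have hpart : ∀ t v, v ∈ part ρ m → ρ t v ∈ part ρ m := fun t v hv => by
    rw [← hs₀.apply_of_mem hv, ← Module.End.mul_apply, ← map_mul, mul_comm, map_mul,
      Module.End.mul_apply]
    exact hs₀.apply_mem _
  let W : Submodule T H :=
    { carrier := {v | v ∈ part ρ m ∧ ρ s (u v) = v}
      add_mem' := fun ha hb => ⟨add_mem ha.1 hb.1, by rw [map_add, map_add, ha.2, hb.2]⟩
      zero_mem' := ⟨zero_mem _, by rw [map_zero, map_zero]⟩
      smul_mem' := fun t v hv => by
        refine ⟨hpart t v hv.1, ?_⟩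
        rw [hsmul, ← hu, ← Module.End.mul_apply, ← map_mul, mul_comm, map_mul,
          Module.End.mul_apply, hv.2] }
  have hH : IsNoetherian R H := isNoetherian_of_isNoetherianRing_of_finite R H
  have : IsNoetherian T H := isNoetherian_of_tower R hH
  obtain ⟨r, hr, hr0⟩ := Submodule.exists_sub_one_mem_and_smul_eq_zero_of_fg_of_le_smul
    (Ideal.span {s}) W (IsNoetherian.noetherian W) fun v hv => by
      have huv : u v ∈ W := by
        refine ⟨?_, ?_⟩
        · rw [← hs₀.apply_of_mem hv.1, ← hu]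
          exact hs₀.apply_mem _
        · rw [hu, hv.2]
      rw [← hv.2, ← hsmul]
      exact Submodule.smul_mem_smul (Ideal.mem_span_singleton_self s) huv
  refine hs₀.eq_zero_of_mem hy (fun hr' => hm ((Ideal.eq_top_iff_one _).mpr ?_))
    (hr0 y ⟨hy, h0⟩)
  have h1 := m.sub_mem hr' ((Ideal.span_le.mpr (Set.singleton_subset_iff.mpr hs)) hr)
  rwa [sub_sub_cancel] at h1

include hf in
/-- Elements of the maximal ideal of the residual system act topologically nilpotently on the
local part: `1 - s s'` kills nothing there. -/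
theorem eq_zero_of_mul_sub_one [IsLocalRing O] [IsNoetherianRing O]
    [IsAdicComplete (maximalIdeal O) O] [NeZero M] [Module.Finite O Λ]
    (hχ : IsGoodChar (levelChar h θ)) {ξ : J → ResidueField O} {s : MvPolynomial J O}
    (hs : s ∈ systemIdeal ξ) (s' : MvPolynomial J' Λ) {y : H1 (levelChar h θ) Λ}
    (hy : y ∈ localH1 h θ Λ pr ξ)
    (h0 : heckeHom h θ Λ pr' (symbolHom f s * s' - 1) y = 0) : y = 0 := by
  have hfinH := finite_h1 (R := O) (A := Λ) h θ hχ
  obtain ⟨s₀, hs₀⟩ := exists_isProjector (heckeHom h θ Λ pr) (systemIdeal ξ)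
  refine eq_zero_of_apply_fix (isMaximal_systemIdeal ξ).ne_top hs₀ hs (heckeHom h θ Λ pr' s')
    (fun t v => ?_) hy ?_
  · rw [← heckeHom_symbolHom h θ pr pr' hf, ← Module.End.mul_apply, ← map_mul, mul_comm, map_mul,
      Module.End.mul_apply, heckeHom_symbolHom h θ pr pr' hf]
  · rw [← heckeHom_symbolHom h θ pr pr' hf]
    rwa [map_sub, map_mul, map_one, LinearMap.sub_apply, Module.End.mul_apply, Module.End.one_apply,
      sub_eq_zero] at h0

variable [IsDomain O] [IsDiscreteValuationRing O] [IsAdicComplete (maximalIdeal O) O]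
  [Finite (ResidueField O)] [CharZero O] [Module.Finite O Λ] [Module.IsTorsionFree O Λ]
  [IsReduced Λ] {κ : (ZMod M₀)ˣ →* Λ} [NeZero M] {N : ℕ} [NeZero N]

include hf in
/-- **The points of the local part**: values at the symbols `J'`, reducing to the residual
system on `J`, and detecting the action on the local part exactly away from `S`. -/
theorem exists_family_localH1 (hχ : IsGoodChar (levelChar h θ)) (hM : M * M₀ ∣ N)
    (hsq : Squarefree M₀) (hcop : M₀.Coprime (M / M₀)) (hθ : ∀ a, θ a = κ a ^ 2)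
    (hκ : ∀ a, ∃ n : ℕ, Odd n ∧ κ a ^ n = 1)
    {S : Set ℕ} (hS : ∀ q : ℕ, q.Prime → q ∣ N → q ∈ S)
    (hJ : ∀ l : ℕ, l.Prime → l ∉ S → ∃ j, (pr' j : ℕ) = l) (ξ : J → ResidueField O) {j₀ : J}
    (hj₀ : (pr j₀ : ℕ) ∉ S) (hj1 : ((pr j₀ : ℕ) : ZMod N) = 1)
    (hξ : ξ j₀ ≠ ((pr j₀ : ℕ) : ResidueField O) + 1) :
    ∃ (n : ℕ) (pt : Fin n → FamPoint O Λ pr' κ N S),
      (∀ i s, (∀ y ∈ localH1 h θ Λ pr ξ, heckeHom h θ Λ pr' s y = 0) → (pt i).x s = 0) ∧
      (∀ i, ∀ t ∈ systemIdeal ξ, (pt i).x (symbolHom f t) ∈ maximalIdeal (pt i).R) ∧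
      (∀ s, (∀ i, (pt i).x s = 0) →
        ∃ k, ∀ y ∈ localH1 h θ Λ pr ξ, heckeHom h θ Λ pr' (s ^ k) y = 0) ∧
      (∀ s ∈ Algebra.adjoin Λ (MvPolynomial.X '' {j | (pr' j : ℕ) ∉ S}),
        (∀ i, (pt i).x s = 0) → ∀ y ∈ localH1 h θ Λ pr ξ, heckeHom h θ Λ pr' s y = 0) := by
  have hjM : ¬ (pr j₀ : ℕ) ∣ M := fun hd =>
    hj₀ (hS _ (pr j₀).2 ((hd.trans (dvd_mul_right M M₀)).trans hM))
  have hj1' : ((pr j₀ : ℕ) : ZMod M₀) = 1 := by
    have h1 := congrArg (ZMod.castHom ((h.trans (dvd_mul_right M M₀)).trans hM) (ZMod M₀)) hj1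
    rwa [map_natCast, map_one] at h1
  have hnon : NonEis pr ξ M₀ M := ⟨j₀, hjM, hj1', hξ⟩
  have hproj := projective_localH1 h θ pr ξ hχ hnon
  have hfinH := finite_h1 (R := O) (A := Λ) h θ hχ
  have : IsNoetherian O (H1 (levelChar h θ) Λ) := isNoetherian_of_isNoetherianRing_of_finite O _
  have hfinV : Module.Finite O (localH1 h θ Λ pr ξ) :=
    Module.Finite.of_injective ((localH1 h θ Λ pr ξ).subtype.restrictScalars O)
      Subtype.val_injective
  have ht₀ : MvPolynomial.X j₀ - MvPolynomial.C (((pr j₀ : ℕ) + 1 : ℕ) : O) ∉ systemIdeal ξ := by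
    rw [mem_systemIdeal, MvPolynomial.eval₂_sub, MvPolynomial.eval₂_X, MvPolynomial.eval₂_C,
      sub_eq_zero, map_natCast]
    push_cast
    exact hξ
  have ht₀' : symbolHom f (MvPolynomial.X j₀ - MvPolynomial.C (((pr j₀ : ℕ) + 1 : ℕ) : O)) =
      (MvPolynomial.X (f j₀) - MvPolynomial.C (((pr j₀ : ℕ) + 1 : ℕ) : Λ) : MvPolynomial J' Λ) := by
    rw [map_sub, symbolHom_X, symbolHom_C, map_natCast]
  obtain ⟨n, pt, h1, h2, h3, h4⟩ := exists_family (O := O) h pr' hM hsq hcop hθ hκ hS hJ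
    (j₀ := f j₀) (by rwa [hf]) (by rwa [hf]) (localH1 h θ Λ pr ξ)
    (fun s y hy => heckeHom_mem_localH1 h θ pr pr' hf ξ s hy)
    (fun c hc y hy h0 => congrArg Subtype.val (eq_zero_of_smul_eq_zero (c := algebraMap O Λ c)
      (y := (⟨y, hy⟩ : localH1 h θ Λ pr ξ)) (fun a ha => by
        rw [← Algebra.smul_def] at ha
        exact (smul_eq_zero.mp ha).resolve_left hc) (Subtype.ext h0)))
    (fun y hy h0 => congrArg Subtype.val (eq_zero_of_forall_minimalPrimes (y := (⟨y, hy⟩ :
      localH1 h θ Λ pr ξ)) fun Q hQ => by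
        obtain ⟨c, hc, hc0⟩ := h0 Q hQ
        exact ⟨c, hc, Subtype.ext hc0⟩))
    (fun y hy h0 => by
      obtain ⟨s₀, hs₀⟩ := exists_isProjector (heckeHom h θ Λ pr) (systemIdeal ξ)
      refine hs₀.eq_zero_of_mem hy ht₀ ?_
      rw [← heckeHom_symbolHom h θ pr pr' hf, ht₀']
      rwa [hf] at h0)
    (fun y hy => by
      obtain ⟨z, hz⟩ := (mem_part_iff _ _).mp hy _ ht₀
      refine ⟨z, ?_⟩
      rw [hf, ← ht₀', heckeHom_symbolHom h θ pr pr' hf, hz])
  exact ⟨n, pt, h1, fun i t ht => h2 i _ fun s' y hy h0 =>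
    eq_zero_of_mul_sub_one h θ pr pr' hf hχ ht s' hy h0, h3, h4⟩

end FermatAgent.RTLift.Systems
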