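import Fermat.Agent.RTLift.Systems.Main
import Fermat.Agent.GalRep.Construct.Main
import Fermat.Agent.RTLift.Systems.FamilyLocal

/-!
The Galois representations of the points of a family.
-/

set_option autoImplicit false

noncomputable section

namespace FermatAgent.RTLift.Systems

open scoped MatrixGroups
open IsLocalRing CongruenceSubgroup FermatAgent.RTLift.Modules CuspForm FermatAgent.GalRep Polynomial

local notation "Qb" => AlgebraicClosure ℚ
local notation "GQ" => AlgebraicClosure ℚ ≃ₐ[ℚ] AlgebraicClosure ℚ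

variable {O : Type} [CommRing O] [IsDomain O] [IsDiscreteValuationRing O]
  {Λ : Type} [CommRing Λ] [Algebra O Λ] {J : Type} {pr : J → Nat.Primes} {M₀ : ℕ}
  {κ : (ZMod M₀)ˣ →* Λ} {N : ℕ} [NeZero N] {S : Finset ℕ}

/-- **A point of a family has a Galois representation** over its ring of values,
with Frobenius traces `x (κ l * X_l)` and cyclotomic determinant. -/
theorem exists_galoisRep_famPoint (p : ℕ) [Fact p.Prime] (hp : (p : O) ∈ maximalIdeal O)
    (hpS : p ∈ S) (hS : ∀ q : ℕ, q.Prime → q ∣ N → q ∈ S)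
    (pt : FamPoint O Λ pr κ N (↑S : Set ℕ)) :
    ∃ (hpR : (p : pt.R) ∈ maximalIdeal pt.R) (ρ : GaloisRepAdic pt.R),
      (∀ (j : J) (_ : (pr j : ℕ) ∉ (↑S : Set ℕ)) (hlM₀ : (pr j : ℕ).Coprime M₀),
        ∀ A : ValuationSubring Qb, A.LiesOverPrime (pr j) → ∀ σ : GQ, A.IsFrobeniusAt σ (pr j) →
          LinearMap.charpoly (ρ.ρ σ) =
            X ^ 2 - C (pt.x (MvPolynomial.C (κ (ZMod.unitOfCoprime (pr j) hlM₀)) *
              MvPolynomial.X j)) * X + C (((pr j : ℕ) : pt.R))) ∧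
      (∀ q : ℕ, q.Prime → ¬ q ∣ N → q ≠ p → ρ.IsUnramifiedAt q) ∧
      (∀ σ : GQ, LinearMap.det (ρ.ρ σ) = padicToRing hpR (cycChar p σ)) := by
  have hpR : (p : pt.R) ∈ maximalIdeal pt.R := by
    rw [← map_natCast (algebraMap O pt.R)]
    exact (mem_maximalIdeal _).mpr fun hu => (mem_maximalIdeal _).mp hp (isUnit_of_map_unit (algebraMap O pt.R) _ hu)
  obtain ⟨ρ, hρ, hunr, hdet⟩ := exists_galoisRepAdic_of_point p N S hpS hS pt.R hpR pt.χ
  refine ⟨hpR, ρ, fun j hjS hlM₀ A hA σ hσ => ?_, hunr, hdet⟩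
  have hlN : ¬ (pr j : ℕ) ∣ N := fun hd => hjS (hS _ (pr j).2 hd)
  rw [hρ _ (pr j).2 hlN hjS A hA σ hσ, pt.χ_T j hlN hjS hlM₀]

/-- The points of a family reduce to the residual system. -/
theorem x_X_sub_mem {J₀ : Type} {S' : Set ℕ} {pr' : J → Nat.Primes}
    (pt : FamPoint O Λ pr' κ N S') {f : J₀ → J} {ξ : J₀ → ResidueField O}
    (h : ∀ t ∈ systemIdeal ξ, pt.x (symbolHom f t) ∈ maximalIdeal pt.R) (j : J₀) {c : O}
    (hc : residue O c = ξ j) :
    pt.x (MvPolynomial.X (f j)) - algebraMap O pt.R c ∈ maximalIdeal pt.R := by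
  have h1 := h (MvPolynomial.X j - MvPolynomial.C c) (by
    rw [mem_systemIdeal, MvPolynomial.eval₂_sub, MvPolynomial.eval₂_X, MvPolynomial.eval₂_C, hc,
      sub_self])
  rwa [← MvPolynomial.algebraMap_eq, map_sub, symbolHom_X, AlgHom.commutes, map_sub,
    AlgHom.commutes] at h1

end FermatAgent.RTLift.Systems
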