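import Mathlib
import Fermat.Agent.RTLift.Systems.PointVector

/-!
An eigen class of a point of a family, over the fraction field of its ring of values.
-/

set_option autoImplicit false

noncomputable section

namespace FermatAgent.RTLift.Systems

open scoped MatrixGroups
open IsLocalRing CongruenceSubgroup FermatAgent.RTLift.Modules

section Change

variable {Λ Λ' : Type} [CommRing Λ] [CommRing Λ'] [Algebra Λ Λ'] {M M₀ : ℕ} (h : M₀ ∣ M)
  {θ : (ZMod M₀)ˣ →* Λ'} {θ₁ : (ZMod M₀)ˣ →* Λ}
  (hθ : ∀ a, θ a = algebraMap Λ Λ' (θ₁ (ZMod.unitsMap (dvd_refl M₀) a)))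
  {A : Type} [AddCommGroup A] [Module Λ A] [Module Λ' A] [IsScalarTower Λ Λ' A]

theorem levelChange_heckeOp (l : Nat.Primes) (x : H1 (levelChar h θ₁) A) :
    levelChange h (dvd_refl M₀) hθ A (heckeOp h θ₁ A l x) =
      heckeOp h θ A l (levelChange h (dvd_refl M₀) hθ A x) := by
  have : NeZero (l : ℕ) := ⟨l.2.ne_zero⟩
  by_cases hl : (l : ℕ) ∣ M
  · rw [heckeOp_of_dvd h θ₁ A hl, heckeOp_of_dvd h θ A hl]
    exact levelChange_heckeU h (dvd_refl M₀) hθ hl x
  · rw [heckeOp_of_not_dvd h θ₁ A hl, heckeOp_of_not_dvd h θ A hl]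
    exact levelChange_heckeT h (dvd_refl M₀) hθ l.2 hl x

theorem levelChange_h1Map_smul (c : Λ') (u : A →ₗ[Λ] A) (hu : ∀ a, u a = c • a)
    (x : H1 (levelChar h θ₁) A) :
    levelChange h (dvd_refl M₀) hθ A (h1Map u x) =
      c • levelChange h (dvd_refl M₀) hθ A x := by
  induction x using Submodule.Quotient.induction_on with
  | H f =>
    rw [h1Map_mk]
    show h1Change _ A (Submodule.Quotient.mk _) = c • h1Change _ A (Submodule.Quotient.mk _)
    rw [h1Change_mk, h1Change_mk, ← Submodule.Quotient.mk_smul]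
    exact congrArg _ (Subtype.ext (funext fun g => by simp [hu]))

end Change

section Scalars

variable {K : Type} [CommRing K] {G : Type*} [Group G] {χ : G →* K}
  {A B C : Type} [AddCommGroup A] [Module K A] [AddCommGroup B] [Module K B] [AddCommGroup C]
  [Module K C]

theorem h1Map_h1Map (u : A →ₗ[K] B) (v : B →ₗ[K] C) (x : H1 χ A) :
    h1Map v (h1Map u x) = h1Map (v.comp u) x := by
  induction x using Submodule.Quotient.induction_on with
  | H f => exact congrArg Submodule.Quotient.mk (Subtype.ext (funext fun g => rfl))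

/-- `h1Map` is linear in the map of coefficients. -/
theorem h1Map_sum_smul {ι : Type*} (s : Finset ι) (c : ι → K) (u : ι → A →ₗ[K] B) (x : H1 χ A) :
    h1Map (∑ i ∈ s, c i • u i) x = ∑ i ∈ s, c i • h1Map (u i) x := by
  induction x using Submodule.Quotient.induction_on with
  | H f =>
    simp only [h1Map_mk, ← Submodule.Quotient.mk_smul]
    rw [← Submodule.mkQ_apply, show crossedMap (χ := χ) (∑ i ∈ s, c i • u i) f =
      ∑ i ∈ s, c i • crossedMap (u i) f from Subtype.ext (funext fun g => by
        simp [LinearMap.sum_apply, Finset.sum_apply]), map_sum]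
    rfl

theorem h1Map_smul_eq (c : K) (u : A →ₗ[K] A) (hu : ∀ a, u a = c • a) (x : H1 χ A) :
    h1Map u x = c • x := by
  induction x using Submodule.Quotient.induction_on with
  | H f =>
    rw [h1Map_mk, ← Submodule.Quotient.mk_smul]
    exact congrArg _ (Subtype.ext (funext fun g => hu _))

end Scalars

section Dual

variable {K E : Type} [Field K] [Field E] [Algebra K E] [CharZero K] {Γ : Type*} [Group Γ]
  {χ : Γ →* K}

/-- **A class carrying a field of values gives an eigen class with those values.** -/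
theorem exists_eigen_of_field (F : IntermediateField K E) [FiniteDimensional K F]
    (φ : F →ₗ[K] H1 χ K) (h1 : φ 1 ≠ 0) {J : Type} (op : J → Module.End K (H1 χ K))
    (opE : J → Module.End K (H1 χ E))
    (hop : ∀ j (u : K →ₗ[K] E) x, h1Map u (op j x) = opE j (h1Map u x))
    (a : J → F) (ha : ∀ j f, op j (φ f) = φ (a j * f)) :
    ∃ z : H1 χ E, z ≠ 0 ∧ ∀ j, opE j z = h1Map (LinearMap.mulLeft K (a j : E)) z := by
  classical
  let B := Algebra.traceForm K F
  have hB : B.Nondegenerate := traceForm_nondegenerate K F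
  let b := Module.finBasis K F
  let d := B.dualBasis hB b
  let w : F → K →ₗ[K] E := fun f => LinearMap.toSpanSingleton K E (f : E)
  refine ⟨∑ i, h1Map (w (d i)) (φ (b i)), fun hz => h1 ?_, fun j => ?_⟩
  · obtain ⟨ε, hε⟩ := LinearMap.exists_extend (p := Subalgebra.toSubmodule F.toSubalgebra)
      (Algebra.trace K F)
    have h := congrArg (h1Map (χ := χ) ε) hz
    rw [map_zero, map_sum] at h
    rw [← h]
    have h2 : ∀ i, h1Map ε (h1Map (w (d i)) (φ (b i))) = Algebra.trace K F (d i) • φ (b i) :=
      fun i => by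
        rw [h1Map_h1Map]
        refine h1Map_smul_eq _ _ (fun c => ?_) _
        show ε (c • ((d i : F) : E)) = Algebra.trace K F (d i) * c
        rw [map_smul, smul_eq_mul, mul_comm]
        exact congrArg (· * c) (LinearMap.congr_fun hε (d i))
    simp only [h2, ← map_smul, ← map_sum]
    refine congrArg φ (Eq.trans ?_ (Finset.sum_congr rfl fun i _ => rfl))
    have h3 : ∀ i, Algebra.trace K F (d i) = b.repr 1 i := fun i => by
      have h4 := congrArg (B (d i)) (b.sum_repr 1)
      simp only [map_sum, map_smul, smul_eq_mul] at h4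
      rw [show B (d i) 1 = Algebra.trace K F (d i) by
        simp [B, Algebra.traceForm_apply], Finset.sum_eq_single i (fun k _ hk => ?_)
        (fun hi => absurd (Finset.mem_univ i) hi), LinearMap.BilinForm.apply_dualBasis_left,
        if_pos rfl, mul_one] at h4
      · exact h4.symm
      · rw [LinearMap.BilinForm.apply_dualBasis_left, if_neg hk, mul_zero]
    simp only [h3]
    exact (b.sum_repr 1).symm
  · rw [map_sum, map_sum]
    simp only [← hop, ha]
    -- both sides in the two bases
    have hl : ∀ i, φ (a j * b i) = ∑ k, B (d k) (a j * b i) • φ (b k) := fun i => by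
      simp only [← map_smul, ← map_sum]
      refine congrArg φ ?_
      conv_lhs => rw [← b.sum_repr (a j * b i)]
      refine Finset.sum_congr rfl fun k _ => ?_
      congr 1
      have h4 := congrArg (B (d k)) (b.sum_repr (a j * b i))
      simp only [map_sum, map_smul, smul_eq_mul] at h4
      rw [Finset.sum_eq_single k (fun m _ hm => by
        rw [LinearMap.BilinForm.apply_dualBasis_left, if_neg hm, mul_zero])
        (fun hk => absurd (Finset.mem_univ k) hk), LinearMap.BilinForm.apply_dualBasis_left,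
        if_pos rfl, mul_one] at h4
      exact h4
    have hr : ∀ k, (LinearMap.mulLeft K (a j : E)).comp (w (d k)) =
        ∑ i, B (d k) (a j * b i) • w (d i) := fun k => by
      refine LinearMap.ext_ring ?_
      have h4 : a j * d k = ∑ i, B (d k) (a j * b i) • d i := by
        conv_lhs => rw [← d.sum_repr (a j * d k)]
        refine Finset.sum_congr rfl fun i _ => ?_
        congr 1
        rw [LinearMap.BilinForm.dualBasis_repr_apply]
        show Algebra.trace K F (a j * d k * b i) = Algebra.trace K F (d k * (a j * b i))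
        ring_nf
      have h5 := congrArg (fun f : F => (f : E)) h4
      simp only [IntermediateField.coe_mul, IntermediateField.coe_sum,
        IntermediateField.coe_smul] at h5
      simpa [w, LinearMap.sum_apply] using h5
    simp only [hl, map_sum, map_smul, h1Map_h1Map, hr, h1Map_sum_smul]
    exact Finset.sum_comm

end Dual

section Point

variable {O : Type} [CommRing O] [IsDomain O] [IsDiscreteValuationRing O]
  {Λ : Type} [CommRing Λ] [Algebra O Λ] [Module.Finite O Λ] [IsReduced Λ]
  {M M₀ N : ℕ} [NeZero N] (h : M₀ ∣ M) {J : Type} (pr : J → Nat.Primes)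
  {θ κ : (ZMod M₀)ˣ →* Λ} {S : Set ℕ} (pt : FamPoint O Λ pr κ N S)

/-- The values of the base in the field of values. -/
def FamPoint.baseField (pt : FamPoint O Λ pr κ N S) : Λ →+* FractionRing pt.R :=
  (algebraMap pt.R (FractionRing pt.R)).comp pt.baseHom.toRingHom

/-- The character of a point over its field of values. -/
abbrev FamPoint.fieldChar (pt : FamPoint O Λ pr κ N S) (χ : (ZMod M₀)ˣ →* Λ) :
    (ZMod M₀)ˣ →* FractionRing pt.R :=
  (pt.baseField pr : Λ →* FractionRing pt.R).comp χ

omit [IsDomain O] [IsDiscreteValuationRing O] [Module.Finite O Λ] [IsReduced Λ] in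
/-- Hecke operators commute with the reduction of coefficients. -/
theorem toFieldH1_heckeOp (K : Type) [Field K] [Algebra Λ K] (l : Nat.Primes)
    (x : H1 (levelChar h θ) Λ) :
    toFieldH1 h θ K (heckeOp h θ Λ l x) =
      heckeOp h (mapChar θ K) K l (toFieldH1 h θ K x) := by
  have : NeZero (l : ℕ) := ⟨l.2.ne_zero⟩
  by_cases hl : (l : ℕ) ∣ M
  · rw [heckeOp_of_dvd h θ Λ hl, heckeOp_of_dvd h (mapChar θ K) K hl, toFieldH1_heckeU]
  · rw [heckeOp_of_not_dvd h θ Λ hl, heckeOp_of_not_dvd h (mapChar θ K) K hl,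
      toFieldH1_heckeT h θ K l.2 hl]

omit [IsDomain O] [IsDiscreteValuationRing O] [Module.Finite O Λ] [IsReduced Λ] in
/-- Hecke polynomials commute with the reduction of coefficients. -/
theorem toFieldH1_heckeHom (K : Type) [Field K] [Algebra Λ K] (s : MvPolynomial J Λ)
    (x : H1 (levelChar h θ) Λ) :
    toFieldH1 h θ K (heckeHom h θ Λ pr s x) =
      heckeHom h (mapChar θ K) K pr (MvPolynomial.map (algebraMap Λ K) s)
        (toFieldH1 h θ K x) := by
  induction s using MvPolynomial.induction_on generalizing x with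
  | C c =>
    rw [MvPolynomial.map_C, ← MvPolynomial.algebraMap_eq, ← MvPolynomial.algebraMap_eq,
      AlgHom.commutes, AlgHom.commutes, Module.algebraMap_end_apply, Module.algebraMap_end_apply,
      toFieldH1_smul]
  | add a b ha hb => simp only [map_add, LinearMap.add_apply, ha, hb]
  | mul_X a j ha =>
    rw [map_mul (heckeHom h θ Λ pr), Module.End.mul_apply, ha,
      map_mul (MvPolynomial.map (algebraMap Λ K)), map_mul (heckeHom h (mapChar θ K) K pr),
      Module.End.mul_apply, MvPolynomial.map_X]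
    refine congrArg _ ?_
    rw [heckeHom_X (R := Λ) h θ Λ pr j, heckeHom_X (R := K) h (mapChar θ K) K pr j]
    exact toFieldH1_heckeOp h K (pr j) x

/-- Denominators of a polynomial over a field of fractions. -/
theorem exists_clear {R K : Type} [CommRing R] [Field K] [Algebra R K]
    (hfrac : ∀ z : K, ∃ b c : R, algebraMap R K c ≠ 0 ∧
      z * algebraMap R K c = algebraMap R K b) (s : MvPolynomial J K) :
    ∃ (c : R) (s₀ : MvPolynomial J R), algebraMap R K c ≠ 0 ∧
      MvPolynomial.map (algebraMap R K) s₀ = MvPolynomial.C (algebraMap R K c) * s := by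
  induction s using MvPolynomial.induction_on with
  | C z =>
    obtain ⟨b, c, hc, hzc⟩ := hfrac z
    exact ⟨c, MvPolynomial.C b, hc, by rw [MvPolynomial.map_C, ← MvPolynomial.C_mul, ← hzc, mul_comm]⟩
  | add s t hs ht =>
    obtain ⟨c, s₀, hc, hs₀⟩ := hs
    obtain ⟨d, t₀, hd, ht₀⟩ := ht
    refine ⟨c * d, MvPolynomial.C d * s₀ + MvPolynomial.C c * t₀,
      by rw [map_mul]; exact mul_ne_zero hc hd, ?_⟩
    simp only [map_add, map_mul, MvPolynomial.map_C, hs₀, ht₀]
    ring
  | mul_X s j hs =>
    obtain ⟨c, s₀, hc, hs₀⟩ := hs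
    refine ⟨c, s₀ * MvPolynomial.X j, hc, ?_⟩
    rw [map_mul, hs₀, MvPolynomial.map_X, mul_assoc]

set_option maxHeartbeats 1000000 in
set_option synthInstance.maxHeartbeats 200000 in
/-- **An eigen class of a point**, for all the operators of the symbols. -/
theorem exists_eigen_of_famPoint (V : Submodule Λ (H1 (levelChar h θ) Λ))
    (hV : ∀ (s : MvPolynomial J Λ), ∀ y ∈ V, heckeHom h θ Λ pr s y ∈ V) [Module.Finite O V]
    (hpt : ∀ s, (∀ y ∈ V, heckeHom h θ Λ pr s y = 0) → pt.x s = 0) :
    ∃ z : H1 (levelChar h (pt.fieldChar pr θ)) (FractionRing pt.R), z ≠ 0 ∧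
      ∀ j, heckeOp h (pt.fieldChar pr θ) (FractionRing pt.R) (pr j) z =
        algebraMap pt.R (FractionRing pt.R) (pt.x (MvPolynomial.X j)) • z := by
  classical
  have : IsNoetherianRing Λ := IsNoetherianRing.of_finite O Λ
  let 𝔮 := RingHom.ker pt.baseHom
  have : 𝔮.IsPrime := RingHom.ker_isPrime _
  let K := FractionRing (Λ ⧸ 𝔮)
  let E := FractionRing pt.R
  have hK : RingHom.ker (algebraMap Λ K) = 𝔮 := by
    rw [IsScalarTower.algebraMap_eq Λ (Λ ⧸ 𝔮) K, RingHom.ker_comp_of_injective _
      (IsFractionRing.injective (Λ ⧸ 𝔮) K), Ideal.Quotient.algebraMap_eq, Ideal.mk_ker]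
  have : CharZero (Λ ⧸ 𝔮) := (RingHom.kerLift pt.baseHom.toRingHom).charZero
  have : CharZero K := charZero_of_injective_algebraMap (IsFractionRing.injective (Λ ⧸ 𝔮) K)
  have hfrac : ∀ z : K, ∃ b c : Λ, c ∉ 𝔮 ∧ z * algebraMap Λ K c = algebraMap Λ K b := fun z => by
    obtain ⟨⟨b, c⟩, hbc⟩ := IsLocalization.surj (nonZeroDivisors (Λ ⧸ 𝔮)) z
    obtain ⟨b, rfl⟩ := Ideal.Quotient.mk_surjective b
    obtain ⟨c', hc'⟩ := Ideal.Quotient.mk_surjective (c : Λ ⧸ 𝔮)
    refine ⟨b, c', fun h0 => ?_, ?_⟩
    · exact nonZeroDivisors.coe_ne_zero c (hc'.symm.trans (Ideal.Quotient.eq_zero_iff_mem.mpr h0))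
    · simp only [IsScalarTower.algebraMap_apply Λ (Λ ⧸ 𝔮) K, Ideal.Quotient.algebraMap_eq, hc']
      exact hbc
  let base : Λ ⧸ 𝔮 →+* pt.R := Ideal.Quotient.lift 𝔮 pt.baseHom.toRingHom fun c hc => hc
  have hbase : Function.Injective ((algebraMap pt.R E).comp base) := by
    rw [RingHom.coe_comp]
    refine (IsFractionRing.injective pt.R E).comp
      (RingHom.lift_injective_of_ker_le_ideal _ _ (le_refl _))
  let ι : K →+* E := IsFractionRing.lift hbase
  let _ : Algebra K E := ι.toAlgebra
  let _ : Algebra Λ E := (pt.baseField pr).toAlgebra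
  have hι : ∀ c : Λ, algebraMap K E (algebraMap Λ K c) =
      algebraMap pt.R E (pt.baseHom c) := fun c => by
    show ι (algebraMap (Λ ⧸ 𝔮) K (Ideal.Quotient.mk 𝔮 c)) = _
    rw [IsFractionRing.lift_algebraMap]
    rfl
  have : IsScalarTower Λ K E := IsScalarTower.of_algebraMap_eq fun c => (hι c).symm
  let val : J → E := fun j => algebraMap pt.R E (pt.x (MvPolynomial.X j))
  let ev : MvPolynomial J K →ₐ[K] E := MvPolynomial.aeval val
  have hev : ∀ s₀ : MvPolynomial J Λ, ev (MvPolynomial.map (algebraMap Λ K) s₀) =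
      algebraMap pt.R E (pt.x s₀) := fun s₀ => by
    induction s₀ using MvPolynomial.induction_on with
    | C c =>
      rw [MvPolynomial.map_C, MvPolynomial.aeval_C, hι]
      rfl
    | add a b ha hb => simp only [map_add, ha, hb]
    | mul_X a j ha => rw [map_mul, map_mul, map_mul, ha, MvPolynomial.map_X, MvPolynomial.aeval_X,
        map_mul]
  have hclear := exists_clear (J := J) (R := Λ) (K := K) fun z => by
    obtain ⟨b, c, hc, hzc⟩ := hfrac z
    exact ⟨b, c, fun h0 => hc (hK ▸ RingHom.mem_ker.mpr h0), hzc⟩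
  obtain ⟨x₀, hx₀, hx₀'⟩ := exists_vector_of_famPoint h pr pt V hV hpt K hK hfrac
  set ξ := toFieldH1 h θ K x₀
  let act : MvPolynomial J K →ₗ[K] H1 (levelChar h (mapChar θ K)) K :=
    (LinearMap.applyₗ ξ).comp (heckeHom h (mapChar θ K) K pr).toLinearMap
  have hkerl : LinearMap.ker ev.toLinearMap ≤ LinearMap.ker act := fun s hs => by
    obtain ⟨c, s₀, hc, hs₀⟩ := hclear s
    rw [LinearMap.mem_ker] at hs ⊢
    have h1 : pt.x s₀ = 0 := IsFractionRing.injective pt.R E (by
      rw [← hev, hs₀, map_mul, map_zero]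
      exact mul_eq_zero_of_right _ hs)
    have h2 := toFieldH1_heckeHom h pr K s₀ x₀
    rw [hx₀ s₀ h1, map_zero, hs₀, map_mul, ← MvPolynomial.algebraMap_eq, AlgHom.commutes,
      Module.End.mul_apply, Module.algebraMap_end_apply] at h2
    exact (smul_eq_zero.mp h2.symm).resolve_left hc
  -- the field of values
  have hspan : Module.Finite K (LinearMap.range ev.toLinearMap) := by
    obtain ⟨T, hT⟩ := (Module.Finite.fg_top : (⊤ : Submodule O pt.R).FG)
    have : Module.Finite K (Submodule.span K (algebraMap pt.R E '' (T : Set pt.R))) :=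
      Module.Finite.span_of_finite K (T.finite_toSet.image _)
    refine Submodule.finiteDimensional_of_le
      (S₂ := Submodule.span K (algebraMap pt.R E '' (T : Set pt.R))) ?_
    rintro _ ⟨s, rfl⟩
    obtain ⟨c, s₀, hc, hs₀⟩ := hclear s
    have h1 : ev s = algebraMap K E (algebraMap Λ K c)⁻¹ * algebraMap pt.R E (pt.x s₀) := by
      rw [← hev, hs₀, map_mul, MvPolynomial.aeval_C, ← mul_assoc, ← map_mul, inv_mul_cancel₀ hc,
        map_one, one_mul]
    show ev s ∈ _
    rw [h1, ← Algebra.smul_def]
    refine Submodule.smul_mem _ _ ?_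
    have hmem : pt.x s₀ ∈ Submodule.span O (T : Set pt.R) := hT ▸ Submodule.mem_top
    refine Submodule.span_induction (fun y hy => Submodule.subset_span ⟨y, hy, rfl⟩)
      (by rw [map_zero]; exact zero_mem _) (fun a b _ _ ha hb => by rw [map_add]; exact add_mem ha hb)
      (fun o y _ hy => ?_) hmem
    rw [Algebra.smul_def, map_mul, ← pt.baseHom.commutes o, ← hι, ← Algebra.smul_def]
    exact Submodule.smul_mem _ _ hy
  have : Module.Finite K ev.range := hspan
  let F : IntermediateField K E :=
    Subalgebra.toIntermediateField' ev.range (isField_of_isIntegral_of_isField'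
      (Field.toIsField K))
  have : FiniteDimensional K F := hspan
  let evF : MvPolynomial J K →ₐ[K] F := ev.rangeRestrict
  have hsurj : Function.Surjective evF.toLinearMap := ev.rangeRestrict_surjective
  have hkerF : LinearMap.ker evF.toLinearMap ≤ LinearMap.ker act := fun s hs =>
    hkerl (LinearMap.mem_ker.mpr (congrArg Subtype.val (LinearMap.mem_ker.mp hs)))
  let φ : F →ₗ[K] H1 (levelChar h (mapChar θ K)) K :=
    (Submodule.liftQ _ act hkerF).comp
      (LinearMap.quotKerEquivOfSurjective evF.toLinearMap hsurj).symm.toLinearMap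
  have hφ : ∀ s, φ (evF s) = act s := fun s => by
    have h1 : (LinearMap.quotKerEquivOfSurjective evF.toLinearMap hsurj).symm (evF s) =
        Submodule.Quotient.mk s :=
      (LinearEquiv.symm_apply_eq _).mpr rfl
    simp only [φ, LinearMap.comp_apply, LinearEquiv.coe_coe, h1, Submodule.liftQ_apply]
  let a : J → F := fun j => evF (MvPolynomial.X j)
  obtain ⟨z, hz, hzj⟩ := exists_eigen_of_field F φ
    (by
      rw [← map_one evF, hφ]
      show heckeHom h (mapChar θ K) K pr (1 : MvPolynomial J K) ξ ≠ 0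
      rw [map_one, Module.End.one_apply]
      have h2 := hx₀' 1 (by rw [map_one]; exact one_ne_zero)
      rwa [map_one, Module.End.one_apply] at h2)
    (fun j => heckeOp h (mapChar θ K) K (pr j)) (fun j => heckeOp h (mapChar θ K) E (pr j))
    (fun j u x => h1Map_heckeOp h (mapChar θ K) u (pr j) x) a
    (fun j f => by
      obtain ⟨s, rfl⟩ := hsurj f
      show heckeOp h (mapChar θ K) K (pr j) (φ (evF s)) = φ (a j * evF s)
      rw [hφ, ← map_mul, hφ]
      show _ = heckeHom h (mapChar θ K) K pr (MvPolynomial.X j * s) ξ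
      rw [map_mul, Module.End.mul_apply, heckeHom_X]
      rfl)
  have hθE : ∀ u, pt.fieldChar pr θ u =
      algebraMap K E (mapChar θ K (ZMod.unitsMap (dvd_refl M₀) u)) := fun u => by
    rw [ZMod.unitsMap_self]
    exact (hι _).symm
  refine ⟨levelChange h (dvd_refl M₀) hθE E z, fun h0 => hz ?_, fun j => ?_⟩
  · exact (levelChange h (dvd_refl M₀) hθE E).injective (h0.trans (map_zero _).symm)
  · rw [← levelChange_heckeOp, hzj]
    refine levelChange_h1Map_smul h hθE _ _ (fun c => ?_) z
    show (a j : E) * c = _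
    rw [smul_eq_mul]
    congr 1
    exact MvPolynomial.aeval_X _ _

end Point

end FermatAgent.RTLift.Systems
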