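import Mathlib
import Fermat.Agent.RTLift.Systems.PointEigen
import Fermat.Agent.RTLift.Modules.Level

/-!
An eigen class over the field of fractions has an integral model which is nonzero residually.
-/

set_option autoImplicit false

noncomputable section

namespace FermatAgent.RTLift.Systems

open scoped MatrixGroups
open IsLocalRing CongruenceSubgroup FermatAgent.RTLift.Modules

variable {R : Type} [CommRing R] [IsDomain R] [IsDiscreteValuationRing R] {M M₀ : ℕ} [NeZero M]
  (h : M₀ ∣ M) {θ : (ZMod M₀)ˣ →* R}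

omit [IsDomain R] [IsDiscreteValuationRing R] [NeZero M] in
/-- The inclusion of coefficients in the fraction field. -/
theorem crossedMap_injective :
    Function.Injective (crossedMap (χ := levelChar h θ) (Algebra.linearMap R (FractionRing R))) :=
  fun _ _ hfg => Subtype.ext (funext fun γ =>
    IsFractionRing.injective R (FractionRing R) (congrFun (congrArg Subtype.val hfg) γ))

omit [NeZero M] in
/-- An element whose character value is the closest to one. -/
theorem exists_min_levelChar [NeZero M₀] :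
    ∃ γ₀ : Gamma0 M, ∀ γ, ∃ r : R, levelChar h θ γ - 1 = r * (levelChar h θ γ₀ - 1) := by
  classical
  have hfin : (Set.range fun γ : Gamma0 M => levelChar h θ γ).Finite :=
    (Set.finite_range θ).subset (by rintro _ ⟨γ, rfl⟩; exact ⟨_, rfl⟩)
  obtain ⟨c, hc, hmin⟩ := hfin.toFinset.exists_min_image
    (fun c => IsDiscreteValuationRing.addVal R (c - 1))
    ⟨levelChar h θ 1, hfin.mem_toFinset.mpr ⟨1, rfl⟩⟩
  obtain ⟨γ₀, rfl⟩ := hfin.mem_toFinset.mp hc
  refine ⟨γ₀, fun γ => ?_⟩
  obtain ⟨r, hr⟩ := IsDiscreteValuationRing.addVal_le_iff_dvd.mp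
    (hmin (levelChar h θ γ) (hfin.mem_toFinset.mpr ⟨γ, rfl⟩))
  exact ⟨r, by rw [hr, mul_comm]⟩

omit [IsDomain R] [IsDiscreteValuationRing R] [NeZero M] in
/-- A class vanishing over the fraction field is killed by `T_l - (l + 1)`, `l ≡ 1`. -/
theorem sub_succ_eq_zero_of_map_eq_zero {l : Nat.Primes} (hlM : ¬ (l : ℕ) ∣ M)
    (hl1 : ((l : ℕ) : ZMod M₀) = 1) {u : H1 (levelChar h θ) R}
    (hu : h1Map (Algebra.linearMap R (FractionRing R)) u = 0) :
    heckeOp h θ R l u - ((l : ℕ) + 1) • u = 0 := by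
  have : NeZero (l : ℕ) := ⟨l.2.ne_zero⟩
  induction u using Submodule.Quotient.induction_on with
  | H F =>
    rw [h1Map_mk, Submodule.Quotient.mk_eq_zero] at hu
    obtain ⟨v, hv⟩ := hu
    rw [heckeOp_of_not_dvd h θ R hlM, heckeT, CrossCorr.onH1_mk, ← Submodule.Quotient.mk_smul,
      sub_eq_zero]
    refine congrArg _ (crossedMap_injective h ?_)
    rw [← CrossCorr.apply_crossedMap, map_nsmul, ← hv, apply_tCross_coboundary h θ l.2 hlM hl1]

set_option maxHeartbeats 1000000 in
/-- **An integral eigen class, nonzero residually.** -/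
theorem exists_integral_eigen (hχ : IsGoodChar (levelChar h θ)) [NeZero M₀]
    {z : H1 (levelChar h (mapChar θ (FractionRing R))) (FractionRing R)} (hz : z ≠ 0)
    (a : Nat.Primes → R) {P : Set Nat.Primes}
    (heig : ∀ l ∈ P, heckeOp h (mapChar θ (FractionRing R)) (FractionRing R) l z =
      algebraMap R (FractionRing R) (a l) • z)
    {l₀ : Nat.Primes} (hl₀ : l₀ ∈ P) (hl₀M : ¬ (l₀ : ℕ) ∣ M)
    (hl₀1 : ((l₀ : ℕ) : ZMod M₀) = 1) (hne : IsUnit (a l₀ - ((l₀ : ℕ) + 1 : ℕ))) :
    ∃ f : crossedHoms (levelChar h θ) R,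
      (∀ l ∈ P, heckeOp h θ R l (Submodule.Quotient.mk f) = a l • Submodule.Quotient.mk f) ∧
      ∃ γ, (f : Gamma0 M → R) γ ∉ maximalIdeal R := by
  classical
  have : NeZero (l₀ : ℕ) := ⟨l₀.2.ne_zero⟩
  set E := FractionRing R
  set lev := levelChange h (dvd_refl M₀) (mapChar_eq θ E) E
  set ι : R →ₗ[R] E := Algebra.linearMap R E
  -- the class over `E` with scalars in `R`
  set w : H1 (levelChar h θ) E := lev.symm z
  have hweig : ∀ l ∈ P, heckeOp h θ E l w = h1Map (LinearMap.lsmul R E (a l)) w := fun l hl => by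
    refine lev.injective ?_
    rw [levelChange_heckeOp]
    refine Eq.trans ?_ (levelChange_h1Map_smul h (mapChar_eq θ E) (algebraMap R E (a l)) _
      (fun c => (algebraMap_smul E (a l) c).symm) w).symm
    simp only [w, lev, AddEquiv.apply_symm_apply]
    exact heig l hl
  obtain ⟨f₀, hf₀⟩ := Submodule.Quotient.mk_surjective _ w
  -- normalisation
  obtain ⟨γ₀, f₁, hf₁, hγ₀, hmin⟩ : ∃ (γ₀ : Gamma0 M) (f₁ : crossedHoms (levelChar h θ) E),
      Submodule.Quotient.mk f₁ = w ∧ (f₁ : Gamma0 M → E) γ₀ = 0 ∧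
        ∀ γ, ∃ r : R, levelChar h θ γ - 1 = r * (levelChar h θ γ₀ - 1) := by
    obtain ⟨γ₀, hmin⟩ := exists_min_levelChar h (θ := θ)
    by_cases h1 : levelChar h θ γ₀ = 1
    · refine ⟨1, f₀, hf₀, crossed_one f₀, fun γ => ⟨0, ?_⟩⟩
      obtain ⟨r, hr⟩ := hmin γ
      rw [hr, h1, sub_self, mul_zero, zero_mul]
    · set v : E := (algebraMap R E (levelChar h θ γ₀ - 1))⁻¹ * (f₀ : Gamma0 M → E) γ₀
      refine ⟨γ₀, f₀ - coboundary (levelChar h θ) E v, ?_, ?_, hmin⟩
      · rw [← hf₀]
        exact (Submodule.Quotient.eq _).mpr ⟨-v, by rw [map_neg, sub_sub_cancel_left]⟩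
      · have h0 : algebraMap R E (levelChar h θ γ₀ - 1) ≠ 0 := fun e =>
          h1 (sub_eq_zero.mp ((injective_iff_map_eq_zero _).mp (IsFractionRing.injective R E) _ e))
        rw [Submodule.coe_sub, Pi.sub_apply, coboundary_apply,
          show levelChar h θ γ₀ • v - v = (levelChar h θ γ₀ - 1) • v by rw [sub_smul, one_smul],
          Algebra.smul_def, ← mul_assoc, mul_inv_cancel₀ h0, one_mul, sub_self]
  -- integrality
  have : Fintype (Pts (Gamma0 M)) := Fintype.ofFinite _
  obtain ⟨c, hc⟩ := IsLocalization.exist_integer_multiples_of_finset (nonZeroDivisors R)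
    (Finset.univ.image (values (levelChar h θ) E f₁).1 ∪
      Finset.univ.image (values (levelChar h θ) E f₁).2)
  have hint : ∀ e ∈ Finset.univ.image (values (levelChar h θ) E f₁).1 ∪
      Finset.univ.image (values (levelChar h θ) E f₁).2, ∃ r : R, ι r = (c : R) • e := hc
  choose v₁ hv₁ using fun x => hint _ (Finset.mem_union_left _
    (Finset.mem_image_of_mem (values (levelChar h θ) E f₁).1 (Finset.mem_univ x)))
  choose v₂ hv₂ using fun x => hint _ (Finset.mem_union_right _
    (Finset.mem_image_of_mem (values (levelChar h θ) E f₁).2 (Finset.mem_univ x)))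
  set g := hχ.retract R (v₁, v₂)
  have hg : crossedMap ι g = (c : R) • f₁ := by
    rw [← hχ.retract_map ι]
    refine (congrArg (hχ.retract E) (show (ι ∘ v₁, ι ∘ v₂) =
      values (levelChar h θ) E ((c : R) • f₁) from ?_)).trans (hχ.retract_values _)
    rw [map_smul]
    exact Prod.ext (funext hv₁) (funext hv₂)
  -- the largest common factor
  obtain ⟨t, ht⟩ := IsPrincipalIdealRing.principal (Ideal.span (Set.range (g : Gamma0 M → R)))
  have htdvd : ∀ γ, t ∣ (g : Gamma0 M → R) γ := fun γ =>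
    Ideal.mem_span_singleton.mp (by
      rw [← Ideal.submodule_span_eq, ← ht]
      exact Ideal.subset_span ⟨γ, rfl⟩)
  have hc0 : algebraMap R E (c : R) ≠ 0 := fun e =>
    nonZeroDivisors.coe_ne_zero c
      ((injective_iff_map_eq_zero _).mp (IsFractionRing.injective R E) _ e)
  have ht0 : t ≠ 0 := fun t0 => hz (by
    have hg0 : g = 0 := Subtype.ext (funext fun γ => zero_dvd_iff.mp (t0 ▸ htdvd γ))
    rw [hg0, map_zero] at hg
    have hf10 : f₁ = 0 := Subtype.ext (funext fun γ => by
      have h1 : (c : R) • (f₁ : Gamma0 M → E) γ = 0 :=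
        (congrFun (congrArg Subtype.val hg) γ).symm
      rw [Algebra.smul_def] at h1
      exact (mul_eq_zero.mp h1).resolve_left hc0)
    rw [hf10, Submodule.Quotient.mk_zero] at hf₁
    exact lev.symm.injective (hf₁.symm.trans (map_zero _).symm))
  choose g' hg' using htdvd
  let G : crossedHoms (levelChar h θ) R := ⟨g', fun x y => mul_left_cancel₀ ht0 (by
    rw [← hg', crossed_mul g, hg', hg', smul_eq_mul, smul_eq_mul]; ring)⟩
  have hunit : ∃ γ, g' γ ∉ maximalIdeal R := by
    by_contra hall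
    push Not at hall
    have hle : Ideal.span (Set.range (g : Gamma0 M → R)) ≤ Ideal.span {t} * maximalIdeal R := by
      rw [Ideal.span_le]
      rintro _ ⟨γ, rfl⟩
      rw [SetLike.mem_coe, hg' γ]
      exact Ideal.mul_mem_mul (Ideal.mem_span_singleton_self t) (hall γ)
    rw [ht, Ideal.submodule_span_eq] at hle
    obtain ⟨m, hm, hmt⟩ := Ideal.mem_span_singleton_mul.mp (hle (Ideal.mem_span_singleton_self t))
    exact (maximalIdeal.isMaximal R).ne_top ((Ideal.eq_top_iff_one _).mpr
      (mul_left_cancel₀ ht0 (hmt.trans (mul_one t).symm) ▸ hm))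
  have hG : crossedMap ι G = crossedMap (LinearMap.mulLeft R
      ((algebraMap R E t)⁻¹ * algebraMap R E (c : R))) f₁ := Subtype.ext (funext fun γ => by
    have ht' : algebraMap R E t ≠ 0 := fun e =>
      ht0 ((injective_iff_map_eq_zero _).mp (IsFractionRing.injective R E) _ e)
    have h1 : algebraMap R E ((g : Gamma0 M → R) γ) = (c : R) • (f₁ : Gamma0 M → E) γ :=
      congrFun (congrArg Subtype.val hg) γ
    rw [crossedMap_apply, crossedMap_apply, LinearMap.mulLeft_apply, mul_assoc,
      ← Algebra.smul_def (c : R), ← h1, hg' γ, map_mul, ← mul_assoc, inv_mul_cancel₀ ht', one_mul]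
    rfl)
  have hGeig : ∀ l ∈ P, h1Map ι
      (heckeOp h θ R l (Submodule.Quotient.mk G) - a l • Submodule.Quotient.mk G) = 0 := fun l hl => by
    rw [map_sub, map_smul, h1Map_heckeOp, h1Map_mk, hG, ← h1Map_mk, ← h1Map_heckeOp, hf₁, hweig l hl,
      sub_eq_zero, h1Map_smul_eq (a l) (LinearMap.lsmul R E (a l)) (fun x => rfl), map_smul]
  -- removing the torsion
  set F : crossedHoms (levelChar h θ) R :=
    (tCross h θ l₀.2 hl₀M).apply G - ((l₀ : ℕ) + 1) • G with hF
  have hFq : (Submodule.Quotient.mk F : H1 (levelChar h θ) R) =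
      heckeOp h θ R l₀ (Submodule.Quotient.mk G) - ((l₀ : ℕ) + 1) • Submodule.Quotient.mk G := by
    rw [heckeOp_of_not_dvd h θ R hl₀M, heckeT, CrossCorr.onH1_mk, hF, Submodule.Quotient.mk_sub,
      Submodule.Quotient.mk_smul]
  refine ⟨F, fun l hl => sub_eq_zero.mp ?_, ?_⟩
  · rw [← sub_succ_eq_zero_of_map_eq_zero h hl₀M hl₀1 (hGeig l hl), hFq]
    simp only [map_sub, map_nsmul, map_smul, smul_sub, smul_comm (a l)]
    rw [show heckeOp h θ R l (heckeOp h θ R l₀ (Submodule.Quotient.mk G)) =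
      heckeOp h θ R l₀ (heckeOp h θ R l (Submodule.Quotient.mk G)) from
        LinearMap.congr_fun (heckeOp_comm h θ R l l₀) _]
    abel
  · by_contra hall
    push Not at hall
    have h0 := hGeig l₀ hl₀
    rw [heckeOp_of_not_dvd h θ R hl₀M, heckeT, CrossCorr.onH1_mk, ← Submodule.Quotient.mk_smul,
      ← Submodule.Quotient.mk_sub, h1Map_mk, Submodule.Quotient.mk_eq_zero] at h0
    obtain ⟨v, hv⟩ := h0
    set D : crossedHoms (levelChar h θ) R := (tCross h θ l₀.2 hl₀M).apply G - a l₀ • G with hD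
    have hDv : ∀ γ, algebraMap R E ((D : Gamma0 M → R) γ) = (levelChar h θ γ - 1) • v := fun γ => by
      rw [sub_smul, one_smul]
      exact (congrFun (congrArg Subtype.val hv) γ).symm
    set u := a l₀ - (((l₀ : ℕ) + 1 : ℕ) : R)
    have hFD : ∀ γ, (F : Gamma0 M → R) γ = (D : Gamma0 M → R) γ + u * g' γ := fun γ => by
      show ((tCross h θ l₀.2 hl₀M).apply G : Gamma0 M → R) γ - ((l₀ : ℕ) + 1) • g' γ =
        (((tCross h θ l₀.2 hl₀M).apply G : Gamma0 M → R) γ - a l₀ * g' γ) + u * g' γ
      simp only [u, nsmul_eq_mul]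
      ring
    have hG0 : g' γ₀ = 0 := by
      have h1 : algebraMap R E (g' γ₀) = _ := congrFun (congrArg Subtype.val hG) γ₀
      rw [crossedMap_apply, hγ₀, map_zero] at h1
      exact (injective_iff_map_eq_zero _).mp (IsFractionRing.injective R E) _ h1
    have hD0 : (D : Gamma0 M → R) γ₀ ∈ maximalIdeal R := by
      have h1 := hall γ₀
      rwa [hFD, hG0, mul_zero, add_zero] at h1
    obtain ⟨γ, hγ⟩ := hunit
    obtain ⟨r, hr⟩ := hmin γ
    have hDr : (D : Gamma0 M → R) γ = r * (D : Gamma0 M → R) γ₀ := by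
      refine IsFractionRing.injective R E ?_
      rw [map_mul, hDv, hDv, hr, mul_smul, ← Algebra.smul_def]
    have h1 := hall γ
    rw [hFD, hDr] at h1
    exact hγ ((Ideal.unit_mul_mem_iff_mem _ hne).mp
      ((Ideal.add_mem_iff_right _ (Ideal.mul_mem_left _ r hD0)).mp h1))

end FermatAgent.RTLift.Systems
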