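import Mathlib
import Fermat.Agent.RTLift.Old.Trivial
import Fermat.Agent.ModCurve.Group.Universal

/-!
Eigen homomorphisms with a non-Eisenstein eigenvalue at `l ≡ 1` kill elliptic and parabolic
elements.
-/

set_option autoImplicit false

noncomputable section

namespace FermatAgent.RTLift.Systems

open scoped MatrixGroups
open CongruenceSubgroup FermatAgent.RTLift.Modules

/-- No element of `Γ₀(M)` has trace `±1` when a prime `r ≡ 2 mod 3` divides `M`. -/
theorem trace_sq_ne_one_of_prime {M r : ℕ} (hr : r.Prime) (hr3 : r % 3 = 2) (hrM : r ∣ M)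
    (γ : Gamma0 M) : ((γ : SL(2, ℤ)) : Matrix (Fin 2) (Fin 2) ℤ).trace ^ 2 ≠ 1 := by
  intro htr
  have := Fact.mk hr
  set δ : Matrix (Fin 2) (Fin 2) ℤ := ((γ : SL(2, ℤ)) : Matrix (Fin 2) (Fin 2) ℤ) with hδ
  have h10 : ((δ 1 0 : ℤ) : ZMod r) = 0 :=
    (ZMod.intCast_zmod_eq_zero_iff_dvd _ _).mpr ((Int.natCast_dvd_natCast.mpr hrM).trans
      ((ZMod.intCast_zmod_eq_zero_iff_dvd _ _).mp (Gamma0_mem.mp γ.2)))
  have hdet := (γ : SL(2, ℤ)).2
  rw [← hδ, Matrix.det_fin_two] at hdet
  rw [Matrix.trace_fin_two] at htr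
  set a : ZMod r := ((δ 0 0 : ℤ) : ZMod r)
  set d : ZMod r := ((δ 1 1 : ℤ) : ZMod r)
  have had : a * d = 1 := by
    have h := congrArg (Int.cast : ℤ → ZMod r) hdet
    push_cast at h
    rw [h10, mul_zero, sub_zero] at h
    exact h
  have hs : (a + d) * (a + d) = 1 := by
    have h := congrArg (Int.cast : ℤ → ZMod r) htr
    push_cast at h
    linear_combination h
  -- `z = -(a + d) a` is a root of `z² + z + 1`
  set z : ZMod r := -((a + d) * a) with hz
  have hz2 : z ^ 2 + z + 1 = 0 := by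
    rw [hz]
    linear_combination a * a * hs - had
  have hz0 : z ≠ 0 := fun h => by simp [h] at hz2
  have hcube : z ^ 3 = 1 := by linear_combination (z - 1) * hz2
  have hone : z = 1 := by
    have hord : orderOf z ∣ Nat.gcd 3 (r - 1) :=
      Nat.dvd_gcd (orderOf_dvd_of_pow_eq_one hcube)
        (orderOf_dvd_of_pow_eq_one (ZMod.pow_card_sub_one_eq_one hz0))
    have hg : Nat.gcd 3 (r - 1) = 1 := by
      rw [← Nat.coprime_iff_gcd_eq_one, Nat.Prime.coprime_iff_not_dvd (by norm_num)]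
      omega
    rw [hg, Nat.dvd_one] at hord
    exact orderOf_eq_one_iff.mp hord
  have h3 : ((3 : ℕ) : ZMod r) = 0 := by
    push_cast
    rw [hone] at hz2
    linear_combination hz2
  rw [ZMod.natCast_eq_zero_iff] at h3
  rw [(Nat.prime_dvd_prime_iff_eq hr Nat.prime_three).mp h3] at hr3
  omega

/-- **Eigen homomorphisms with values in a field kill elliptic and parabolic elements** when
`T_l` does not act by `l + 1` for some `l ≡ 1`, `2` is invertible and there is no point of
order `3` unless `3` is invertible. -/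
theorem killsEP_of_eigen {K : Type} [Field K] {M : ℕ} [NeZero M] (h2 : (2 : K) ≠ 0)
    (h3 : (3 : K) ≠ 0 ∨ ∃ r, r.Prime ∧ r % 3 = 2 ∧ r ∣ M) {l : ℕ} (hl : l.Prime)
    (hlM : ¬ l ∣ M) (hl1 : (M : ℤ) ∣ (l : ℤ) - 1) {φ : Additive (Gamma0 M) →+ K} {a : K}
    (ha : a ≠ ((l + 1 : ℕ) : K)) (heig : Periods.heckeHomT K M hl hlM φ = a • φ) :
    ModCurveGroup.KillsEP (Gamma0 M) φ := by
  intro γ hγ
  rcases hγ.lt_or_eq with hlt | heq
  · set t := ((γ : SL(2, ℤ)) : Matrix (Fin 2) (Fin 2) ℤ).trace with ht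
    have h12 : γ ^ 12 = 1 := Subtype.ext (ModCurveGroup.pow_twelve_eq_one hlt)
    by_cases ht0 : t = 0
    · -- trace zero: order four
      have hsq : (γ : SL(2, ℤ)) * γ = -1 := Subtype.ext (by
        have hdet := (γ : SL(2, ℤ)).2
        rw [Matrix.det_fin_two] at hdet
        rw [ht, Matrix.trace_fin_two] at ht0
        ext i j
        simp only [Matrix.SpecialLinearGroup.coe_mul, Matrix.SpecialLinearGroup.coe_neg,
          Matrix.SpecialLinearGroup.coe_one]
        fin_cases i <;> fin_cases j <;> simp [Matrix.mul_apply, Fin.sum_univ_two]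
        · linear_combination
            ((γ : SL(2, ℤ)) : Matrix (Fin 2) (Fin 2) ℤ) 0 0 * ht0 - hdet
        · linear_combination ((γ : SL(2, ℤ)) : Matrix (Fin 2) (Fin 2) ℤ) 0 1 * ht0
        · linear_combination ((γ : SL(2, ℤ)) : Matrix (Fin 2) (Fin 2) ℤ) 1 0 * ht0
        · linear_combination
            ((γ : SL(2, ℤ)) : Matrix (Fin 2) (Fin 2) ℤ) 1 1 * ht0 - hdet)
      have h4 : γ ^ 4 = 1 := Subtype.ext (by
        rw [SubmonoidClass.coe_pow, show (4 : ℕ) = 2 * 2 from rfl, pow_mul, sq (γ : SL(2, ℤ)), hsq,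
          neg_one_sq, OneMemClass.coe_one])
      have h0 : 4 • φ (Additive.ofMul γ) = 0 := by
        rw [← map_nsmul, ← ofMul_pow, h4, ofMul_one, map_zero]
      rw [nsmul_eq_mul] at h0
      refine (mul_eq_zero.mp h0).resolve_left ?_
      rw [show ((4 : ℕ) : K) = 2 * 2 by norm_num]
      exact mul_ne_zero h2 h2
    · rcases h3 with h3 | ⟨r, hr, hr3, hrM⟩
      · have h0 : 12 • φ (Additive.ofMul γ) = 0 := by
          rw [← map_nsmul, ← ofMul_pow, h12, ofMul_one, map_zero]
        rw [nsmul_eq_mul] at h0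
        refine (mul_eq_zero.mp h0).resolve_left ?_
        rw [show ((12 : ℕ) : K) = 2 * 2 * 3 by norm_num]
        exact mul_ne_zero (mul_ne_zero h2 h2) h3
      · have h1 : -1 ≤ t ∧ t ≤ 1 := abs_le.mp (by
          have h4 : |t| < 2 := by
            refine lt_of_pow_lt_pow_left₀ 2 (by norm_num) ?_
            rw [sq_abs]
            exact lt_of_lt_of_le hlt (by norm_num)
          omega)
        refine absurd ?_ (trace_sq_ne_one_of_prime hr hr3 hrM γ)
        rw [← ht]
        rcases (by omega : t = 1 ∨ t = -1) with e | e <;> rw [e] <;> norm_num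
  · have h := Old.heckeHomT_sub_mem_parabolicHoms (Λ := K) h2.isUnit hl hlM hl1 φ γ heq
    rw [heig, AddMonoidHom.sub_apply, AddMonoidHom.smul_apply, AddMonoidHom.smul_apply,
      nsmul_eq_mul, smul_eq_mul, ← sub_mul] at h
    exact (mul_eq_zero.mp h).resolve_left (sub_ne_zero.mpr ha)

end FermatAgent.RTLift.Systems

end
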