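import Mathlib
import Fermat.Agent.TWLocal.Interface
import Fermat.Agent.RTLift.Systems.TwistU
import Fermat.Agent.RTLift.Systems.EPField
import Fermat.Agent.RTLift.NewPart.OldResidual

/-!
From an integral eigen class of character `κ²` at level `N q` to the data of the local
compatibility at `q`.
-/

set_option autoImplicit false

noncomputable section

namespace FermatAgent.RTLift.Systems

open scoped MatrixGroups
open CongruenceSubgroup IsLocalRing FermatAgent.RTLift.Modules Polynomial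

section Resid

variable {R : Type} [CommRing R] [IsLocalRing R] {M₀ M : ℕ} (h : M₀ ∣ M)
  {θ : (ZMod M₀)ˣ →* R} (hθ : ∀ a, residue R (θ a) = 1)

include hθ in
theorem residue_levelChar (γ : Gamma0 M) : residue R (levelChar h θ γ) = 1 := hθ _

/-- The residual homomorphism of a crossed homomorphism with residually trivial character. -/
def residHom (f : crossedHoms (levelChar h θ) R) : Additive (Gamma0 M) →+ ResidueField R :=
  AddMonoidHom.mk' (fun γ => residue R ((f : Gamma0 M → R) (Additive.toMul γ))) fun x y => by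
    rw [toMul_add, crossed_mul f, map_add, smul_eq_mul, map_mul, residue_levelChar h hθ, one_mul]

theorem residHom_apply (f : crossedHoms (levelChar h θ) R) (γ : Gamma0 M) :
    residHom h hθ f (Additive.ofMul γ) = residue R ((f : Gamma0 M → R) γ) := rfl

include hθ in
theorem residue_apply_eq_of_mk_eq {f g : crossedHoms (levelChar h θ) R}
    (hfg : (Submodule.Quotient.mk f : H1 (levelChar h θ) R) = Submodule.Quotient.mk g)
    (γ : Gamma0 M) :
    residue R ((f : Gamma0 M → R) γ) = residue R ((g : Gamma0 M → R) γ) := by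
  obtain ⟨v, hv⟩ := (Submodule.Quotient.eq _).mp hfg
  have h1 := congrFun (congrArg Subtype.val hv) γ
  simp only [coboundary_apply, Submodule.coe_sub, Pi.sub_apply, smul_eq_mul] at h1
  rw [← sub_eq_zero, ← map_sub, ← h1, map_sub, map_mul, residue_levelChar h hθ, one_mul, sub_self]

theorem residHom_heckeT {l : ℕ} (hl : l.Prime) (hlM : ¬ l ∣ M)
    (f : crossedHoms (levelChar h θ) R) {a : R}
    (he : heckeT h θ R hl hlM (Submodule.Quotient.mk f) = a • Submodule.Quotient.mk f) :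
    Periods.heckeHomT (ResidueField R) M hl hlM (residHom h hθ f) =
      residue R a • residHom h hθ f := by
  have : NeZero l := ⟨hl.ne_zero⟩
  refine AddMonoidHom.ext fun γ => ?_
  obtain ⟨γ, rfl⟩ := Additive.ofMul.surjective γ
  rw [heckeT, CrossCorr.onH1_mk, ← Submodule.Quotient.mk_smul] at he
  have h1 := residue_apply_eq_of_mk_eq h hθ he γ
  rw [CrossCorr.apply_apply, Submodule.coe_smul, Pi.smul_apply, smul_eq_mul, map_mul,
    map_sum] at h1
  rw [AddMonoidHom.smul_apply, residHom_apply, smul_eq_mul, ← h1]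
  refine Finset.sum_congr rfl fun i _ => ?_
  have hw : residue R ((tCross h θ hl hlM).weight i) = 1 := hθ _
  rw [smul_eq_mul, map_mul, hw, one_mul]
  rfl

theorem residHom_heckeU {q : ℕ} [NeZero q] (hq : q ∣ M)
    (f : crossedHoms (levelChar h θ) R) {a : R}
    (he : heckeU h θ R hq (Submodule.Quotient.mk f) = a • Submodule.Quotient.mk f) :
    Periods.heckeHomU (ResidueField R) M hq (residHom h hθ f) =
      residue R a • residHom h hθ f := by
  refine AddMonoidHom.ext fun γ => ?_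
  obtain ⟨γ, rfl⟩ := Additive.ofMul.surjective γ
  rw [heckeU, CrossCorr.onH1_mk, ← Submodule.Quotient.mk_smul] at he
  have h1 := residue_apply_eq_of_mk_eq h hθ he γ
  rw [CrossCorr.apply_apply, Submodule.coe_smul, Pi.smul_apply, smul_eq_mul, map_mul,
    map_sum] at h1
  rw [AddMonoidHom.smul_apply, residHom_apply, smul_eq_mul, ← h1]
  refine Finset.sum_congr rfl fun i _ => ?_
  have hw : residue R ((uCross h θ hq).weight i) = 1 := hθ _
  rw [smul_eq_mul, map_mul, hw, one_mul]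
  rfl

end Resid

/-- An element of `p`-power order reduces to `1` in residue characteristic `p`. -/
theorem residue_eq_one_of_pow {R : Type} [CommRing R] [IsLocalRing R] {p n : ℕ} (hp : p.Prime)
    (hpR : (p : R) ∈ maximalIdeal R) {z : R} (hz : z ^ p ^ n = 1) : residue R z = 1 := by
  have := Fact.mk hp
  have : CharP (ResidueField R) p := (CharP.charP_iff_prime_eq_zero hp).mpr (by
    rw [← map_natCast (residue R), residue_eq_zero_iff]
    exact hpR)
  rw [← sub_eq_zero]
  refine eq_zero_of_pow_eq_zero (n := p ^ n) ?_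
  rw [sub_pow_char_pow, ← map_pow, hz, map_one, one_pow, sub_self]

/-- The composite of a homomorphism with a map of coefficients is eigen with the image value. -/
theorem heckeHomT_map_comp {R K : Type} [CommRing R] [CommRing K] (g : R →+* K) {M l : ℕ}
    (hl : l.Prime) (hlM : ¬ l ∣ M) {φ : Additive (Gamma0 M) →+ R} {a : R}
    (he : Periods.heckeHomT R M hl hlM φ = a • φ) :
    Periods.heckeHomT K M hl hlM (g.toAddMonoidHom.comp φ) =
      g a • g.toAddMonoidHom.comp φ := by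
  have : NeZero l := ⟨hl.ne_zero⟩
  refine AddMonoidHom.ext fun γ => ?_
  have h1 := congrArg g (DFunLike.congr_fun he γ)
  refine Eq.trans ?_ (h1.trans (by simp [map_mul]))
  exact (map_sum g _ _).symm

section Class

variable {R : Type} [CommRing R] [IsDomain R] [IsDiscreteValuationRing R] [CharZero R]
  {p N q : ℕ} [NeZero q] [NeZero N]

set_option maxHeartbeats 1000000 in
/-- **The data of the local compatibility from an integral class of character `κ²`.** -/
theorem nonempty_twistData (hpR : (p : R) ∈ maximalIdeal R) (hp : p.Prime) (hp2 : p ≠ 2)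
    (hq : q.Prime) (hqN : ¬ q ∣ N) (hqp : q ≠ p) (hq1 : (q : ZMod p) = 1)
    (h3 : (3 : ResidueField R) ≠ 0 ∨ ∃ r, r.Prime ∧ r % 3 = 2 ∧ r ∣ N)
    (κ θ : (ZMod q)ˣ →* R) (hκ : ∀ a, ∃ n : ℕ, κ a ^ p ^ n = 1) (hθ : ∀ a, θ a = κ a ^ 2)
    (e₀ : crossedHoms (levelChar (dvd_mul_left q N) θ) R)
    (he₀ : ∃ γ, (e₀ : Gamma0 (N * q) → R) γ ∉ maximalIdeal R) (β : R)
    (hU : heckeU (dvd_mul_left q N) θ R (dvd_mul_left q N) (Submodule.Quotient.mk e₀) =
      β • Submodule.Quotient.mk e₀)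
    (hβ0 : residue R β ≠ 0) (hβ2 : residue R β ^ 2 ≠ 1) (ρ : GaloisRepAdic R) (S : Finset ℕ)
    (a b : ℕ → R)
    (hb : ∀ (l : ℕ) (hl : l.Prime) (hlN : ¬ l ∣ N * q), l ∉ S →
      heckeT (dvd_mul_left q N) θ R hl hlN (Submodule.Quotient.mk e₀) =
        b l • Submodule.Quotient.mk e₀)
    (hab : ∀ (l : ℕ) (_ : l.Prime) (_ : ¬ l ∣ N * q) (hlq : l.Coprime q), l ∉ S →
      a l = κ (ZMod.unitOfCoprime l hlq) * b l)
    (hcp : ∀ (l : ℕ) (_ : l.Prime), ¬ l ∣ N * q ^ 2 → l ∉ S →
      ∀ A : ValuationSubring (AlgebraicClosure ℚ), A.LiesOverPrime l →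
        ∀ σ : AlgebraicClosure ℚ ≃ₐ[ℚ] AlgebraicClosure ℚ, A.IsFrobeniusAt σ l →
          LinearMap.charpoly (ρ.ρ σ) = X ^ 2 - C (a l) * X + C (l : R))
    {l₀ : ℕ} (hl₀ : l₀.Prime) (hl₀S : l₀ ∉ S) (hl₀N : ¬ l₀ ∣ N * q ^ 2)
    (hl₀1 : ((N * q ^ 2 : ℕ) : ℤ) ∣ (l₀ : ℤ) - 1)
    (hne : residue R (a l₀) ≠ ((l₀ + 1 : ℕ) : ResidueField R))
    (hirr : ∀ s : (AlgebraicClosure ℚ ≃ₐ[ℚ] AlgebraicClosure ℚ) →* ResidueField R, ¬ ∀ σ,
      s σ ^ 2 - residue R (LinearMap.trace R ρ.V (ρ.ρ σ)) * s σ +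
        residue R (LinearMap.det (ρ.ρ σ)) = 0) :
    Nonempty (TWLocal.TwistData R p N q ρ κ) := by
  have := Fact.mk hp
  have hpk : CharP (ResidueField R) p := (CharP.charP_iff_prime_eq_zero hp).mpr (by
    rw [← map_natCast (residue R), residue_eq_zero_iff]
    exact hpR)
  have : NeZero (N * q) := ⟨mul_ne_zero (NeZero.ne N) (NeZero.ne q)⟩
  have : NeZero (N * q ^ 2) := ⟨mul_ne_zero (NeZero.ne N) (pow_ne_zero 2 (NeZero.ne q))⟩
  have h2k : (2 : ResidueField R) ≠ 0 := fun h => by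
    have h' : ((2 : ℕ) : ResidueField R) = 0 := by exact_mod_cast h
    rw [CharP.cast_eq_zero_iff (ResidueField R) p, Nat.prime_dvd_prime_iff_eq hp Nat.prime_two]
      at h'
    exact hp2 h'
  have hq1k : ((q : ℕ) : ResidueField R) = 1 := by
    have h := congrArg (ZMod.castHom (dvd_refl p) (ResidueField R)) hq1
    simpa using h
  have hκres : ∀ x, residue R (κ x) = 1 := fun x =>
    residue_eq_one_of_pow hp hpR (hκ x).choose_spec
  have hθres : ∀ x, residue R (θ x) = 1 := fun x => by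
    rw [hθ, map_pow, hκres, one_pow]
  have hN1 : ¬ l₀ ∣ N * q := fun hd => hl₀N (hd.trans ⟨q, by ring⟩)
  -- the residual old class
  set ψ := residHom (dvd_mul_left q N) hθres e₀ with hψdef
  have hψ : ψ ≠ 0 := by
    obtain ⟨γ, hγ⟩ := he₀
    exact fun h => hγ ((residue_eq_zero_iff _).mp (DFunLike.congr_fun h (Additive.ofMul γ)))
  obtain ⟨x₀', hx₀', hTq, hold, hTl⟩ := NewPart.exists_old_hom hq hqN hq1k hβ0 hβ2 hψ
    (residHom_heckeU (dvd_mul_left q N) hθres (dvd_mul_left q N) e₀ hU)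
  set α := residue R β
  set x₀ := (-α) • x₀' with hx₀def
  -- the class at level `N q²`
  have hq2 : q ∣ N * q ^ 2 := Dvd.intro_left (N * q) (by ring)
  have hMd : N * q * q ∣ N * q ^ 2 := dvd_of_eq (by ring)
  have hθ' : ∀ x, θ x = (1 : (ZMod q)ˣ →* R) x * κ (ZMod.unitsMap (dvd_refl q) x) ^ 2 :=
    fun x => by rw [hθ, MonoidHom.one_apply, one_mul, ZMod.unitsMap_self]; rfl
  set D := twistCross (dvd_mul_left q N) hq2 (dvd_refl q) hMd κ hθ' with hD
  set y := h1ToHom hq2 R (twistH1 (dvd_mul_left q N) hq2 (dvd_refl q) hMd κ hθ' R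
    (Submodule.Quotient.mk e₀)) with hy
  have hyeig : ∀ (l : ℕ) (hl : l.Prime) (hlN : ¬ l ∣ N * q ^ 2), l ∉ S →
      Periods.heckeHomT R (N * q ^ 2) hl hlN y = a l • y := fun l hl hlN hlS => by
    have hlN1 : ¬ l ∣ N * q := fun hd => hlN (hd.trans ⟨q, by ring⟩)
    have hlq : l.Coprime q := hl.coprime_iff_not_dvd.mpr fun hd =>
      hlN1 (hd.trans (dvd_mul_left q N))
    rw [hy, ← h1ToHom_heckeT, twistH1_heckeT (dvd_mul_left q N) hq2 (dvd_refl q) hMd κ hθ' hl hlN
      hlN1 hlq, hb l hl hlN1 hlS, map_smul, map_smul, map_smul, smul_smul, hab l hl hlN1 hlq hlS]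
  have hmodN : (N : ℤ) ∣ (l₀ : ℤ) - 1 :=
    (Int.natCast_dvd_natCast.mpr (dvd_mul_right N (q ^ 2))).trans hl₀1
  have hl₀N' : ¬ l₀ ∣ N := fun hd => hl₀N (hd.mul_right _)
  have hx₀eig : ∀ (l : ℕ) (hl : l.Prime) (hlN : ¬ l ∣ N), ¬ l ∣ N * q ^ 2 → l ∉ S →
      Periods.heckeHomT (ResidueField R) N hl hlN x₀ = residue R (a l) • x₀ := by
    intro l hl hlN hlN2 hlS
    have hlN1 : ¬ l ∣ N * q := fun hd => hlN2 (hd.trans ⟨q, by ring⟩)
    have hlq : l.Coprime q := hl.coprime_iff_not_dvd.mpr fun hd =>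
      hlN1 (hd.trans (dvd_mul_left q N))
    rw [hx₀def, map_smul, hTl l hl hlN hlN1 _
        (residHom_heckeT (dvd_mul_left q N) hθres hl hlN1 e₀ (hb l hl hlN1 hlS)),
      hab l hl hlN1 hlq hlS, map_mul, hκres, one_mul, smul_comm]
  refine ⟨{
    p_mem := hpR
    p_prime := hp
    p_ne_two := hp2
    q_prime := hq
    q_not_dvd := hqN
    q_ne := hqp
    q_one := hq1
    kappa_pow := hκ
    θ := θ
    θ_eq := hθ
    e₀ := e₀
    y := y
    y_eq := fun γ => rfl
    y_killsEP := ?_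
    S := S
    a := a
    y_eigen := hyeig
    charpoly_eq := hcp
    x₀ := x₀
    x₀_ne_zero := smul_ne_zero (neg_ne_zero.mpr hβ0) hx₀'
    x₀_killsEP := killsEP_of_eigen h2k h3 hl₀ hl₀N' hmodN hne (hx₀eig l₀ hl₀ hl₀N' hl₀N hl₀S)
    x₀_eigen := hx₀eig
    c := α + α⁻¹
    x₀_eigen_q := by rw [hx₀def, map_smul, hTq, smul_comm]
    c_sq_ne := ?_
    y_mod := ?_
    irreducible := hirr }⟩
  · -- parabolicity
    let E := FractionRing R
    have : CharZero E := charZero_of_injective_algebraMap (IsFractionRing.injective R E)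
    have hker := killsEP_of_eigen (K := E) two_ne_zero (Or.inl three_ne_zero) hl₀ hl₀N hl₀1
      (a := algebraMap R E (a l₀)) (fun he => hne ?_)
      (heckeHomT_map_comp (algebraMap R E) hl₀ hl₀N (hyeig l₀ hl₀ hl₀N hl₀S))
    · exact fun γ hγ => IsFractionRing.injective R E ((hker γ hγ).trans (map_zero _).symm)
    · rw [← map_natCast (algebraMap R E)] at he
      rw [IsFractionRing.injective R E he, map_natCast]
  · intro he
    refine hβ2 ?_
    have h1 : (α - α⁻¹) ^ 2 = 0 := by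
      have h4 : (α + α⁻¹) ^ 2 - 4 * (α * α⁻¹) = 0 := by
        rw [mul_inv_cancel₀ hβ0, he]; ring
      linear_combination h4
    rw [sq]
    nth_rewrite 2 [sub_eq_zero.mp (sq_eq_zero_iff.mp h1)]
    exact mul_inv_cancel₀ hβ0
  · intro γ γ₀ γ₁ γ₂ e0 e1 e2
    -- the elements at level `N q`
    have hqz : (q : ℤ) ≠ 0 := Int.natCast_ne_zero.mpr (NeZero.ne q)
    let g₀ : Gamma0 (N * q) := ⟨(γ : SL(2, ℤ)), gamma0_le_of_dvd ⟨q, by ring⟩ γ.2⟩
    have hg₁ : (γ₁ : SL(2, ℤ)) ∈ Gamma0 (N * q) := by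
      have h10 := congrFun (congrFun e1 1) 0
      simp [Matrix.mul_apply, Fin.sum_univ_two] at h10
      obtain ⟨t, ht⟩ := (ZMod.intCast_zmod_eq_zero_iff_dvd _ _).mp (Gamma0_mem.mp γ.2)
      refine Gamma0_mem.mpr ((ZMod.intCast_zmod_eq_zero_iff_dvd _ _).mpr ⟨t, ?_⟩)
      refine mul_right_cancel₀ hqz (h10.symm.trans (ht.trans ?_))
      push_cast
      ring
    let g₁ : Gamma0 (N * q) := ⟨(γ₁ : SL(2, ℤ)), hg₁⟩
    have hdiag : (!![(q : ℤ), 0; 0, 1] : Matrix (Fin 2) (Fin 2) ℤ).det ≠ 0 := by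
      simp [Matrix.det_fin_two_of, NeZero.ne q]
    have hconj : ∀ (g : Gamma0 (N * q)) (δ : Gamma0 N),
        !![(q : ℤ), 0; 0, 1] * ((g : SL(2, ℤ)) : Matrix (Fin 2) (Fin 2) ℤ) =
          ((δ : SL(2, ℤ)) : Matrix (Fin 2) (Fin 2) ℤ) * !![(q : ℤ), 0; 0, 1] →
        Ihara.degConj N q g = δ := fun g δ hgd => by
      refine coeMat_injective (Periods.matrix_mul_right_cancel hdiag (Eq.trans ?_ hgd))
      obtain ⟨t, ht⟩ := (dvd_mul_left (q : ℤ) N).trans (Ihara.dvd_lowerLeft g)
      ext i j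
      fin_cases i <;> fin_cases j <;>
        simp [coeMat, Ihara.degConj, Ihara.conjDiagMat, Matrix.mul_apply, Fin.sum_univ_two, ht,
          Int.mul_ediv_cancel_left _ hqz] <;> ring
    have hc0 : Ihara.degConj N q g₀ = γ₁ := hconj g₀ γ₁ e1
    have hc1 : Ihara.degConj N q g₁ = γ₂ := by
      refine hconj g₁ γ₂ (Periods.matrix_mul_right_cancel hdiag ?_)
      have hsq : (!![(q : ℤ), 0; 0, 1] : Matrix (Fin 2) (Fin 2) ℤ) * !![(q : ℤ), 0; 0, 1] =
          !![((q : ℤ) ^ 2), 0; 0, 1] := by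
        ext i j
        fin_cases i <;> fin_cases j <;> simp [Matrix.mul_apply, Fin.sum_univ_two, sq]
      show !![(q : ℤ), 0; 0, 1] * ((γ₁ : SL(2, ℤ)) : Matrix (Fin 2) (Fin 2) ℤ) *
        !![(q : ℤ), 0; 0, 1] = _
      rw [mul_assoc, ← e1, ← mul_assoc, hsq, e2, ← hsq, ← mul_assoc]
    have hi0 : Ihara.degIncl N q g₀ = γ₀ := Subtype.ext e0.symm
    have hi1 : Ihara.degIncl N q g₁ = γ₁ := Subtype.ext rfl
    -- the moves
    set U := uCross (dvd_mul_left q N) θ (dvd_mul_left q N)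
    have hmove : ∀ u : ZMod q, D.move γ u = U.move g₁ u := fun u => by
      set v := U.target g₁ u
      have key : ∀ j : ZMod q, rShift q (j.val : ℤ) =
          U.rep j * !![(q : ℤ), 0; 0, 1] := fun j => by
        show _ = Periods.upperRep q (j.val : ℤ) * _
        ext a b
        fin_cases a <;> fin_cases b <;> simp [rShift, Periods.upperRep, Matrix.mul_apply,
          Fin.sum_univ_two]
      have hrel : D.rep u * coeMat γ = coeMat (U.move g₁ u) * D.rep v := by
        rw [hD, twistCross_rep, twistCross_rep, key u, key v, mul_assoc]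
        show U.rep u * (!![(q : ℤ), 0; 0, 1] * ((γ : SL(2, ℤ)) : Matrix (Fin 2) (Fin 2) ℤ)) = _
        rw [e1, ← mul_assoc, ← mul_assoc, ← U.move_spec g₁ u]
      refine D.move_eq_of ?_
      rw [D.target_eq_of (sep_twistCross (dvd_mul_left q N) hq2 (dvd_refl q) hMd κ hθ') hrel]
      exact hrel
    have hmove0 : D.move γ 0 = g₀ := by
      have h0 : D.rep 0 * coeMat γ = coeMat g₀ * D.rep 0 := by
        rw [hD, twistCross_rep]
        show rShift q _ * ((γ : SL(2, ℤ)) : Matrix (Fin 2) (Fin 2) ℤ) =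
          ((γ : SL(2, ℤ)) : Matrix (Fin 2) (Fin 2) ℤ) * rShift q _
        ext a b
        fin_cases a <;> fin_cases b <;> simp [rShift, Matrix.mul_apply, Fin.sum_univ_two] <;> ring
      refine D.move_eq_of ?_
      rw [D.target_eq_of (sep_twistCross (dvd_mul_left q N) hq2 (dvd_refl q) hMd κ hθ') h0]
      exact h0
    have hUψ : ∑ u : ZMod q, residue R ((e₀ : Gamma0 (N * q) → R) (U.move g₁ u)) =
        α * ψ (Additive.ofMul g₁) := by
      have := DFunLike.congr_fun
        (residHom_heckeU (dvd_mul_left q N) hθres (dvd_mul_left q N) e₀ hU) (Additive.ofMul g₁)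
      rw [AddMonoidHom.smul_apply, smul_eq_mul] at this
      exact this
    have hyval : residue R (y (Additive.ofMul γ)) =
        α * ψ (Additive.ofMul g₁) - ψ (Additive.ofMul g₀) := by
      rw [← hUψ, show y (Additive.ofMul γ) = (D.apply e₀ : Gamma0 (N * q ^ 2) → R) γ from rfl,
        CrossCorr.apply_apply, map_sum, ← Finset.add_sum_erase _ _ (Finset.mem_univ (0 : ZMod q)),
        ← Finset.add_sum_erase (f := fun u : ZMod q =>
          residue R ((e₀ : Gamma0 (N * q) → R) (U.move g₁ u))) _ (Finset.mem_univ (0 : ZMod q))]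
      have hw0 : D.weight 0 = 0 := by
        rw [hD, twistCross_weight]
        have := Fact.mk hq
        exact MulChar.map_zero _
      have hwu : ∀ u : ZMod q, u ≠ 0 → residue R (D.weight u) = 1 := fun u hu => by
        have := Fact.mk hq
        rw [hD, twistCross_weight, show u = ((Units.mk0 u hu : (ZMod q)ˣ) : ZMod q) from rfl,
          twChar_inv_coe, hκres]
      rw [hw0, zero_smul, map_zero, zero_add, hψdef, residHom_apply _ _ e₀ g₀, ← hmove 0, hmove0,
        add_sub_cancel_left]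
      exact Finset.sum_congr rfl fun u hu => by
        rw [smul_eq_mul, map_mul, hwu u (Finset.ne_of_mem_erase hu), one_mul, hmove]
    have hold' : ∀ g : Gamma0 (N * q), ψ (Additive.ofMul g) =
        -α * x₀' (Additive.ofMul (Ihara.degIncl N q g)) +
          x₀' (Additive.ofMul (Ihara.degConj N q g)) := fun g => by
      rw [hold]
      rfl
    rw [hyval, hold', hold', hi0, hi1, hc0, hc1]
    simp only [hx₀def, AddMonoidHom.smul_apply, smul_eq_mul]
    linear_combination (x₀' (Additive.ofMul γ₁)) * (mul_inv_cancel₀ hβ0)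

end Class

end FermatAgent.RTLift.Systems

end
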