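import Mathlib

/-!
Finitely many points detecting the annihilator `A` of a module up to nilpotents detect the
annihilator `I ⊇ A` of a torsion free quotient through those of them which kill `I`.
-/

set_option autoImplicit false

noncomputable section

namespace FermatAgent.RTLift.Systems

open Polynomial

/-- A prime above the kernel of a point meeting the base in zero is that kernel. -/
theorem le_ker_of_comap_eq_bot {O P R : Type*} [CommRing O] [IsDomain O] [CommRing P] [Algebra O P]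
    [CommRing R] [IsDomain R] [Algebra O R] [Module.Finite O R] (x : P →ₐ[O] R) {Q : Ideal P}
    [Q.IsPrime] (hle : RingHom.ker x ≤ Q) (hQ : ∀ c : O, algebraMap O P c ∈ Q → c = 0) :
    Q ≤ RingHom.ker x := by
  intro b hb
  rw [RingHom.mem_ker]
  by_contra hne
  obtain ⟨f, hf, hf0⟩ := IsIntegral.of_finite O (x b)
  rw [← aeval_def] at hf0
  obtain ⟨g, hg, hgX⟩ := exists_eq_pow_rootMultiplicity_mul_and_not_dvd f hf.ne_zero 0
  rw [map_zero, sub_zero] at hg hgX
  rw [hg, map_mul, map_pow, aeval_X, mul_eq_zero] at hf0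
  have hg0 := hf0.resolve_left (pow_ne_zero _ hne)
  refine hgX (X_dvd_iff.mpr (hQ _ ?_))
  have h1 : aeval b g ∈ Q := hle (by rw [RingHom.mem_ker, ← aeval_algHom_apply, hg0])
  rw [← X_mul_divX_add g, map_add, map_mul, aeval_X, aeval_C] at h1
  exact (Q.add_mem_iff_right (Q.mul_mem_right _ hb)).mp h1

variable {O P : Type*} [CommRing O] [IsDomain O] [CommRing P] [Algebra O P] {A I : Ideal P}
  (hAI : A ≤ I) (htf : ∀ (c : O) (s : P), c ≠ 0 → algebraMap O P c * s ∈ I → s ∈ I)
  {m : ℕ} {R : Fin m → Type*} [∀ i, CommRing (R i)] [∀ i, IsDomain (R i)] [∀ i, Algebra O (R i)]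
  [∀ i, Module.Finite O (R i)] (x : ∀ i, P →ₐ[O] R i)
  (hnil : ∀ s, (∀ i, x i s = 0) → ∃ k, s ^ k ∈ A)

include hAI htf hnil in
/-- What the points killing `I` kill is nilpotent modulo `I`. -/
theorem exists_pow_mem_of_detect {s : P} (hs : ∀ i, (∀ t ∈ I, x i t = 0) → x i s = 0) :
    ∃ k, s ^ k ∈ I := by
  classical
  by_contra! hne
  have hrad : s ∉ I.radical := fun ⟨k, hk⟩ => hne k hk
  rw [← Ideal.sInf_minimalPrimes, Ideal.mem_sInf] at hrad
  push Not at hrad
  obtain ⟨Q, hQ, hsQ⟩ := hrad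
  have := hQ.1.1
  have hQ0 : ∀ c : O, algebraMap O P c ∈ Q → c = 0 := fun c hc => by
    by_contra hc0
    obtain ⟨y, hy, hcy⟩ := Ideal.exists_mul_mem_of_mem_minimalPrimes hQ hc
    exact hy (htf c y hc0 hcy)
  obtain ⟨i, hi⟩ : ∃ i, RingHom.ker (x i) ≤ Q := by
    by_contra! h0
    choose t ht ht' using fun i => SetLike.not_le_iff_exists.mp (h0 i)
    obtain ⟨k, hk⟩ := hnil (∏ i, t i) fun i => by
      rw [map_prod]
      exact Finset.prod_eq_zero (Finset.mem_univ i) (RingHom.mem_ker.mp (ht i))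
    obtain ⟨i, -, hi⟩ :=
      (Ideal.IsPrime.prod_mem_iff (p := Q)).mp ((hQ.1.1).mem_of_pow_mem k (hQ.1.2 (hAI hk)))
    exact ht' i hi
  have hQi := le_ker_of_comap_eq_bot (x i) hi hQ0
  exact hsQ (hi (RingHom.mem_ker.mpr (hs i fun t ht => RingHom.mem_ker.mp (hQi (hQ.1.2 ht)))))

variable (good : Subalgebra O P) (hA : ∀ i, ∀ s ∈ A, x i s = 0)
  (hgood : ∀ s ∈ good, (∀ i, x i s = 0) → s ∈ A)
  (hint : ∀ s ∈ good, ∃ f : O[X], f.Monic ∧ aeval s f ∈ A)

include hAI htf hnil hA hgood hint in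
/-- Among good elements, what the points killing `I` kill lies in `I`. -/
theorem mem_of_detect {s : P} (hsg : s ∈ good) (hs : ∀ i, (∀ t ∈ I, x i t = 0) → x i s = 0) :
    s ∈ I := by
  obtain ⟨k, hk⟩ := exists_pow_mem_of_detect hAI htf x hnil hs
  obtain ⟨f, hf, hfs⟩ := hint s hsg
  obtain ⟨g, hg, hgX⟩ := exists_eq_pow_rootMultiplicity_mul_and_not_dvd f hf.ne_zero 0
  rw [map_zero, sub_zero] at hg hgX
  set e := f.rootMultiplicity 0
  rw [hg, map_mul, map_pow, aeval_X] at hfs
  have hgg : aeval s g ∈ good := by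
    have : ((aeval (⟨s, hsg⟩ : good) g : good) : P) = aeval s g :=
      (aeval_algHom_apply good.val (⟨s, hsg⟩ : good) g).symm
    exact this ▸ Subtype.mem _
  -- `s g(s)` acts as zero
  have h0 : s * aeval s g ∈ A := hgood _ (mul_mem hsg hgg) fun i => by
    refine eq_zero_of_pow_eq_zero (n := e + 1) ?_
    rw [← map_pow]
    refine hA i _ ?_
    rw [mul_pow, pow_succ s, pow_succ (aeval s g)]
    have : s ^ e * s * (aeval s g ^ e * aeval s g) = s ^ e * aeval s g * (s * aeval s g ^ e) := by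
      ring
    rw [this]
    exact A.mul_mem_right _ hfs
  set c := g.coeff 0
  set h := aeval s g.divX
  have hgs : aeval s g = s * h + algebraMap O P c := by
    conv_lhs => rw [← X_mul_divX_add g, map_add, map_mul, aeval_X, aeval_C]
  have hstep : ∀ j : ℕ, algebraMap O P c ^ j * s - (-h) ^ j * s ^ (j + 1) ∈ I := by
    intro j
    induction j with
    | zero => simp
    | succ j ih =>
      have h1 := I.add_mem (I.mul_mem_left (algebraMap O P c) ih)
        (I.mul_mem_left ((-h) ^ j * s ^ j) (hAI h0))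
      rw [hgs] at h1
      convert h1 using 1
      ring
  have h1 := hstep k
  rw [← map_pow] at h1
  refine htf (c ^ k) s (pow_ne_zero _ fun hc => hgX (X_dvd_iff.mpr hc)) ?_
  have h2 : (-h) ^ k * s ^ (k + 1) ∈ I := by
    rw [pow_succ, ← mul_assoc]
    exact I.mul_mem_right _ (I.mul_mem_left _ hk)
  have h3 := I.add_mem h1 h2
  rwa [sub_add_cancel] at h3

end FermatAgent.RTLift.Systems
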